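import Fermat.Agent.GR.S.R.Dom
import Fermat.Agent.GR.E.E0

/-!
# GR-S / M-R: comparison of the two charts `h`, `h⁻¹`
-/

set_option autoImplicit false

noncomputable section

namespace Fermat.Agent.GR.S.R

open AlgebraicCurve Fermat.Agent.GR.E Fermat.Agent.S17.FF

section general

variable {R : Type*} [CommRing R] {F : Type*} [Field F] [Algebra R F]

theorem Dom2_exists_pow_mul_mem_adjoin {S : Set F} {s : F} (hs : s ∈ S) (hs0 : s ≠ 0) {x : F}
    (hx : x ∈ Algebra.adjoin R (insert s⁻¹ S)) : ∃ n : ℕ, s ^ n * x ∈ Algebra.adjoin R S := by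
  have hsA : s ∈ Algebra.adjoin R S := Algebra.subset_adjoin hs
  induction hx using Algebra.adjoin_induction with
  | mem y hy =>
    rcases hy with rfl | hy
    · exact ⟨1, by rw [pow_one, mul_inv_cancel₀ hs0]; exact one_mem _⟩
    · exact ⟨0, by rw [pow_zero, one_mul]; exact Algebra.subset_adjoin hy⟩
  | algebraMap a => exact ⟨0, by rw [pow_zero, one_mul]; exact Subalgebra.algebraMap_mem _ a⟩
  | add y z _ _ hy hz =>
    obtain ⟨m, hm⟩ := hy
    obtain ⟨n, hn⟩ := hz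
    refine ⟨m + n, ?_⟩
    have : s ^ (m + n) * (y + z) = s ^ n * (s ^ m * y) + s ^ m * (s ^ n * z) := by ring
    rw [this]
    exact add_mem (mul_mem (pow_mem hsA n) hm) (mul_mem (pow_mem hsA m) hn)
  | mul y z _ _ hy hz =>
    obtain ⟨m, hm⟩ := hy
    obtain ⟨n, hn⟩ := hz
    refine ⟨m + n, ?_⟩
    have : s ^ (m + n) * (y * z) = (s ^ m * y) * (s ^ n * z) := by ring
    rw [this]
    exact mul_mem hm hn

/-- Integral closure commutes with inverting `s` (copy of `GR.E.exists_pow_mul_mem_chart`, which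
is stated for discrete valuation rings only). -/
theorem Dom2_exists_pow_mul_mem_chart {S : Set F} {s : F} (hs : s ∈ S) (hs0 : s ≠ 0) {x : F}
    (hx : x ∈ chart R (insert s⁻¹ S)) : ∃ k : ℕ, s ^ k * x ∈ chart R S := by
  classical
  obtain ⟨p, hmonic, hroot⟩ := mem_chart.mp hx
  have hcoeff : ∀ i, ∃ n : ℕ, s ^ n * (p.coeff i : F) ∈ Algebra.adjoin R S :=
    fun i => Dom2_exists_pow_mul_mem_adjoin hs hs0 (p.coeff i).2
  choose n hn using hcoeff
  set M : ℕ := ∑ i ∈ Finset.range (p.natDegree + 1), n i with hM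
  have hnM : ∀ i ≤ p.natDegree, n i ≤ M := fun i hi =>
    Finset.single_le_sum (f := n) (fun _ _ => Nat.zero_le _)
      (Finset.mem_range.mpr (Nat.lt_succ_of_le hi))
  set q : Polynomial F :=
    (p.map (algebraMap (Algebra.adjoin R (insert s⁻¹ S)) F)).scaleRoots (s ^ M) with hq
  have hqmonic : q.Monic := (Polynomial.monic_scaleRoots_iff _).mpr (hmonic.map _)
  have hqroot : q.eval (s ^ M * x) = 0 := by
    rw [hq, Polynomial.scaleRoots_eval_mul, Polynomial.eval_map, hroot, mul_zero]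
  have hqcoeff : ∀ i, q.coeff i ∈ Algebra.adjoin R S := by
    intro i
    rw [hq, Polynomial.coeff_scaleRoots, Polynomial.coeff_map, hmonic.natDegree_map]
    by_cases hi : i < p.natDegree
    · have hle : n i ≤ M * (p.natDegree - i) := by
        calc n i ≤ M := hnM i hi.le
          _ = M * 1 := (mul_one M).symm
          _ ≤ M * (p.natDegree - i) := Nat.mul_le_mul_left M (Nat.one_le_iff_ne_zero.mpr (by omega))
      obtain ⟨k, hk⟩ := Nat.exists_eq_add_of_le hle
      have : (s ^ M) ^ (p.natDegree - i) = s ^ k * s ^ n i := by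
        rw [← pow_mul, hk, pow_add, mul_comm]
      rw [this, Subalgebra.algebraMap_def, Algebra.algebraMap_self_apply,
        show (p.coeff i : F) * (s ^ k * s ^ n i) = s ^ k * (s ^ n i * (p.coeff i : F)) by ring]
      exact mul_mem (pow_mem (Algebra.subset_adjoin hs) k) (hn i)
    · rcases (not_lt.mp hi).lt_or_eq with hlt | heq
      · rw [Polynomial.coeff_eq_zero_of_natDegree_lt hlt, map_zero, zero_mul]
        exact zero_mem _
      · rw [← heq, hmonic.coeff_natDegree, map_one, one_mul, Nat.sub_self, pow_zero]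
        exact one_mem _
  have hlifts : q ∈ Polynomial.lifts (algebraMap (Algebra.adjoin R S) F) :=
    (Polynomial.lifts_iff_coeff_lifts q).mpr fun i => ⟨⟨q.coeff i, hqcoeff i⟩, rfl⟩
  obtain ⟨q', hq'q, -, hq'monic⟩ := Polynomial.lifts_and_natDegree_eq_and_monic hlifts hqmonic
  refine ⟨M, mem_chart.mpr ⟨q', hq'monic, ?_⟩⟩
  rw [Polynomial.eval₂_eq_eval_map, hq'q, hqroot]

theorem Dom2_chart_mono {S S' : Set F} (h : S ⊆ S') : chart R S ≤ chart R S' := by
  intro x hx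
  rw [mem_chart] at hx ⊢
  exact hx.map_of_comp_eq
    (Subalgebra.inclusion (Algebra.adjoin_mono h)).toRingHom (RingHom.id F) (by ext; rfl)

end general

variable {Ω F : Type} [Field Ω] [IsAlgClosed Ω] [CharZero Ω] [Field F] [Algebra Ω F] [IsFF Ω F]
variable {A : ValuationSubring Ω} {𝒪 : ValuationSubring F}

variable {h : F}

theorem Dom2_val_one (P : Place Ω F) : val P (1 : F) = 1 := by
  have := val_algebraMap P (1 : Ω)
  rwa [map_one] at this

/-- if `ord_P h = 0` then `h⁻¹(P) = h(P)⁻¹`. -/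
theorem Dom2_val_inv (hh : h ≠ 0) {P : Place Ω F} (h0 : P.ord h = 0) :
    val P h * val P h⁻¹ = 1 := by
  rw [← val_mul P h0.ge (by rw [Place.ord_inv, h0, neg_zero]), mul_inv_cancel₀ hh, Dom2_val_one]

theorem Dom2_ord_eq_zero {P : Place Ω F} (h0 : 0 ≤ P.ord h) (hv : val P h ≠ 0) :
    P.ord h = 0 := by
  by_contra hne
  exact hv ((val_eq_zero_iff P h0).2 (Or.inr (lt_of_le_of_ne h0 (Ne.symm hne))))

omit [IsAlgClosed Ω] [CharZero Ω] in
theorem Dom2_mul_mem_nonunits {a b : Ω} (ha : a ∈ A) (hb : b ∈ A.nonunits) :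
    a * b ∈ A.nonunits := by
  rw [ValuationSubring.mem_nonunits_iff] at hb ⊢
  rw [map_mul]
  calc A.valuation a * A.valuation b ≤ 1 * A.valuation b :=
        mul_le_mul_left ((A.valuation_le_one_iff a).2 ha) _
    _ = A.valuation b := one_mul _
    _ < 1 := hb

omit [IsAlgClosed Ω] [CharZero Ω] in
theorem Dom2_one_not_mem_nonunits : (1 : Ω) ∉ A.nonunits := by
  rw [ValuationSubring.mem_nonunits_iff]
  simp

/-- (D2) -/
theorem dom_inv_of_not_dom (hh : h ≠ 0) {P : Place Ω F} (hP : ¬ Dom A h P) :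
    Dom A h⁻¹ P ∧ val P h⁻¹ ∈ A.nonunits := by
  by_cases h0 : 0 ≤ P.ord h
  · have hv : val P h ∉ A := fun hv => hP ⟨h0, hv⟩
    have hv0 : val P h ≠ 0 := by
      intro h1
      exact hv (h1 ▸ A.zero_mem)
    have ho := Dom2_ord_eq_zero h0 hv0
    have h1 : val P h⁻¹ = (val P h)⁻¹ := eq_inv_of_mul_eq_one_right (Dom2_val_inv hh ho)
    have h2 : val P h⁻¹ ∈ A.nonunits := by
      rw [h1, ValuationSubring.inv_mem_nonunits_iff]
      exact Or.inr hv
    exact ⟨⟨by rw [Place.ord_inv, ho, neg_zero], A.nonunits_subset h2⟩, h2⟩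
  · have h1 : 0 < P.ord h⁻¹ := by
      rw [Place.ord_inv]
      omega
    have h2 : val P h⁻¹ = 0 := (val_eq_zero_iff P h1.le).2 (Or.inr h1)
    rw [Dom, h2]
    exact ⟨⟨h1.le, A.zero_mem⟩, A.nonunits.zero_mem⟩

theorem not_dom_of_val_inv_mem (hh : h ≠ 0) {P : Place Ω F} (hP : Dom A h⁻¹ P)
    (hv : val P h⁻¹ ∈ A.nonunits) : ¬ Dom A h P := by
  intro hD
  have ho : P.ord h = 0 := by
    have h1 := hP.1
    have h2 := hD.1
    rw [Place.ord_inv] at h1
    omega
  have h1 := Dom2_mul_mem_nonunits hD.2 hv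
  rw [Dom2_val_inv hh ho] at h1
  exact Dom2_one_not_mem_nonunits h1

theorem dom_inv_of_val_not_mem (hh : h ≠ 0) {P : Place Ω F} (hP : Dom A h P)
    (hv : val P h ∉ A.nonunits) : Dom A h⁻¹ P ∧ val P h⁻¹ ∉ A.nonunits := by
  rw [ValuationSubring.mem_nonunits_iff_or, not_or, not_not] at hv
  have ho := Dom2_ord_eq_zero hP.1 hv.1
  have h1 : val P h⁻¹ = (val P h)⁻¹ := eq_inv_of_mul_eq_one_right (Dom2_val_inv hh ho)
  refine ⟨⟨by rw [Place.ord_inv, ho, neg_zero], h1 ▸ hv.2⟩, ?_⟩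
  rw [h1, ValuationSubring.inv_mem_nonunits_iff, not_or, not_not]
  exact ⟨hv.1, hP.2⟩

theorem Dom2_val_pow {P : Place Ω F} (h0 : 0 ≤ P.ord h) (k : ℕ) :
    0 ≤ P.ord (h ^ k) ∧ val P (h ^ k) = val P h ^ k := by
  induction k with
  | zero => simp [Dom2_val_one]
  | succ k ih =>
    by_cases hh : h = 0
    · subst hh
      have hz : val P (0 : F) = 0 := (val_eq_zero_iff P (by simp)).2 (Or.inl rfl)
      simp [hz]
    · refine ⟨?_, ?_⟩
      · rw [pow_succ, Place.ord_mul P (pow_ne_zero k hh) hh]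
        exact add_nonneg ih.1 h0
      · rw [pow_succ, val_mul P ih.1 h0, ih.2, pow_succ]

theorem Dom2_ker_inv_subset (hh : h ≠ 0) {P P' : Place Ω F} (hP : Dom A h P)
    (hP1 : Dom A h⁻¹ P) (hP' : Dom A h P') (hP1' : Dom A h⁻¹ P')
    (hk : ker A h P = ker A h P') : ker A h⁻¹ P ⊆ ker A h⁻¹ P' := by
  rintro c ⟨hc, hcv⟩
  refine ⟨hc, ?_⟩
  have hc' : c ∈ chart A (insert h⁻¹ ({h} : Set F)) :=
    Dom2_chart_mono (Set.singleton_subset_iff.mpr (Set.mem_insert _ _)) hc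
  obtain ⟨k, hk'⟩ := Dom2_exists_pow_mul_mem_chart (Set.mem_singleton h) hh hc'
  have hoc := ord_nonneg_of_mem_chart hP1 hc
  have hoc' := ord_nonneg_of_mem_chart hP1' hc
  have h1 : h ^ k * c ∈ ker A h P := by
    refine ⟨hk', ?_⟩
    rw [val_mul P (Dom2_val_pow hP.1 k).1 hoc, (Dom2_val_pow hP.1 k).2]
    exact Dom2_mul_mem_nonunits (A.pow_mem hP.2 k) hcv
  rw [hk] at h1
  have h2 := h1.2
  rw [val_mul P' (Dom2_val_pow hP'.1 k).1 hoc', (Dom2_val_pow hP'.1 k).2] at h2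
  have ho : P'.ord h = 0 := by
    have h3 := hP1'.1
    have h4 := hP'.1
    rw [Place.ord_inv] at h3
    omega
  have h5 := Dom2_val_inv hh ho
  have h6 : val P' c = val P' h⁻¹ ^ k * (val P' h ^ k * val P' c) := by
    rw [← mul_assoc, ← mul_pow, mul_comm (val P' h⁻¹), h5, one_pow, one_mul]
  rw [h6]
  exact Dom2_mul_mem_nonunits (A.pow_mem hP1'.2 k) h2

/-- (D3) -/
theorem ker_inv_eq_of_ker_eq (hh : h ≠ 0) {P P' : Place Ω F} (hP : Dom A h P)
    (hP1 : Dom A h⁻¹ P) (hP' : Dom A h P') (hP1' : Dom A h⁻¹ P')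
    (hk : ker A h P = ker A h P') : ker A h⁻¹ P = ker A h⁻¹ P' := by
  exact Set.Subset.antisymm (Dom2_ker_inv_subset hh hP hP1 hP' hP1' hk)
    (Dom2_ker_inv_subset hh hP' hP1' hP hP1 hk.symm)

theorem setOf_red_eq_inl (s : Set F) : {P : Place Ω F | red A h P = Sum.inl s} = cls A h s := by
  ext P
  simp only [Set.mem_ofPred_eq, red, cls]
  by_cases hD : Dom A h P
  · rw [if_pos hD, Sum.inl.injEq]
    exact ⟨fun h1 => ⟨hD, h1⟩, fun h1 => h1.2⟩
  · rw [if_neg hD]
    exact ⟨fun h1 => (by cases h1), fun h1 => absurd h1.1 hD⟩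

theorem setOf_red_eq_inr_of_mem (hh : h ≠ 0) {s : Set F} (hs : h⁻¹ ∈ s) :
    {P : Place Ω F | red A h P = Sum.inr s} = cls A h⁻¹ s := by
  ext P
  simp only [Set.mem_ofPred_eq, red, cls]
  by_cases hD : Dom A h P
  · rw [if_pos hD]
    refine ⟨fun h1 => (by cases h1), fun h1 => ?_⟩
    exfalso
    have h2 : h⁻¹ ∈ ker A h⁻¹ P := h1.2 ▸ hs
    exact not_dom_of_val_inv_mem hh h1.1 h2.2 hD
  · rw [if_neg hD, Sum.inr.injEq]
    exact ⟨fun h1 => ⟨(dom_inv_of_not_dom hh hD).1, h1⟩, fun h1 => h1.2⟩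

theorem setOf_red_eq_inr_of_not_mem (hh : h ≠ 0) {s : Set F} (hs : h⁻¹ ∉ s) :
    {P : Place Ω F | red A h P = Sum.inr s} = ∅ := by
  ext P
  simp only [Set.mem_ofPred_eq, red, Set.mem_empty_iff_false, iff_false]
  by_cases hD : Dom A h P
  · rw [if_pos hD]
    intro h1
    cases h1
  · rw [if_neg hD, Sum.inr.injEq]
    intro h1
    exact hs (h1 ▸ ⟨self_mem_chart, (dom_inv_of_not_dom hh hD).2⟩)

/-- a class of the chart `h⁻¹` which does not contain `h⁻¹` is a class of the chart `h`. -/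
theorem exists_cls_eq_of_not_mem (hh : h ≠ 0) {s : Set F} (hs : h⁻¹ ∉ s) :
    ∃ s' : Set F, cls A h⁻¹ s = cls A h s' := by
  have hh' : h⁻¹ ≠ 0 := inv_ne_zero hh
  -- a point of the class lies in both charts and `h` is a unit there
  have key : ∀ P : Place Ω F, P ∈ cls A h⁻¹ s → Dom A h P ∧ val P h ∉ A.nonunits := by
    intro P hP
    have h1 : val P h⁻¹ ∉ A.nonunits := fun h2 => hs (hP.2 ▸ ⟨self_mem_chart, h2⟩)
    have h3 := dom_inv_of_val_not_mem hh' hP.1 h1
    rwa [inv_inv] at h3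
  by_cases hne : (cls A h⁻¹ s).Nonempty
  · obtain ⟨P0, hP0⟩ := hne
    refine ⟨ker A h P0, ?_⟩
    ext P
    constructor
    · intro hP
      refine ⟨(key P hP).1, ?_⟩
      have h1 := ker_inv_eq_of_ker_eq hh' hP.1 (by rw [inv_inv]; exact (key P hP).1) hP0.1
        (by rw [inv_inv]; exact (key P0 hP0).1) (hP.2.trans hP0.2.symm)
      rwa [inv_inv] at h1
    · intro hP
      have h1 : val P h ∉ A.nonunits := by
        intro h2
        have h3 : h ∈ ker A h P := ⟨self_mem_chart, h2⟩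
        rw [hP.2] at h3
        exact (key P0 hP0).2 h3.2
      have h4 := dom_inv_of_val_not_mem hh hP.1 h1
      exact ⟨h4.1, (ker_inv_eq_of_ker_eq hh hP.1 h4.1 (key P0 hP0).1 hP0.1 hP.2).trans hP0.2⟩
  · refine ⟨∅, ?_⟩
    rw [Set.not_nonempty_iff_eq_empty.1 hne]
    symm
    rw [Set.eq_empty_iff_forall_notMem]
    intro P hP
    have h0 : (0 : F) ∈ ker A h P := by
      refine ⟨(chart A ({h} : Set F)).zero_mem, ?_⟩
      have hz : val P (0 : F) = 0 := (val_eq_zero_iff P (by simp)).2 (Or.inl rfl)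
      rw [hz]
      exact A.nonunits.zero_mem
    rw [hP.2] at h0
    exact h0

end Fermat.Agent.GR.S.R
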