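import Fermat.Agent.GR.S.R.Inf4
import Fermat.Agent.GR.S.R.Dom2

/-!
# GR-S / M-R: a function with reduction `1` has a divisor with reduction `0` (abstract form)
-/

set_option autoImplicit false

noncomputable section

namespace Fermat.Agent.GR.S.R

open AlgebraicCurve Fermat.Agent.GR.E Fermat.Agent.S17.FF

variable {Ω F : Type} [Field Ω] [IsAlgClosed Ω] [CharZero Ω] [Field F] [Algebra Ω F] [IsFF Ω F]
variable {A : ValuationSubring Ω} {𝒪 : ValuationSubring F}

theorem AbsCong_mul_mem_nonunits {K : Type*} [Field K] (V : ValuationSubring K) {a b : K}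
    (ha : a ∈ V.nonunits) (hb : b ∈ V) : a * b ∈ V.nonunits := by
  rw [ValuationSubring.mem_nonunits_iff, map_mul] at *
  rw [← ValuationSubring.valuation_le_one_iff] at hb
  exact mul_lt_one_of_lt_of_le ha hb

theorem AbsCong_sub_mem_nonunits {K : Type*} [Field K] (V : ValuationSubring K) {a b : K}
    (ha : a ∈ V.nonunits) (hb : b ∈ V.nonunits) : a - b ∈ V.nonunits := by
  rw [ValuationSubring.mem_nonunits_iff] at *
  exact lt_of_le_of_lt (V.valuation.map_sub a b) (max_lt ha hb)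

theorem AbsCong_cnt_eq_zero (G : GaussData A 𝒪) {x : F} (hC : RChart A 𝒪 x) {w : F}
    (hw : w - 1 ∈ 𝒪.nonunits) (s : Set F) : cnt (cls A x s) w = 0 := by
  have h1n : (1 : F) ∉ 𝒪.nonunits := by
    rw [ValuationSubring.mem_nonunits_iff, map_one]
    exact lt_irrefl _
  have h0n : (0 : F) ∈ 𝒪.nonunits := by
    rw [ValuationSubring.mem_nonunits_iff, map_zero]
    exact zero_lt_one
  have hwO : w ∈ 𝒪 := by
    have h := 𝒪.add_mem _ _ (ValuationSubring.nonunits_subset hw) 𝒪.one_mem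
    rwa [sub_add_cancel] at h
  have hw0 : w ≠ 0 := by
    rintro rfl
    apply h1n
    have := AbsCong_sub_mem_nonunits 𝒪 h0n hw
    simpa using this
  obtain ⟨d, hd, hdn, hwd⟩ := hC.frac w hwO
  have hd0 : d ≠ 0 := by
    rintro rfl
    exact hdn h0n
  have hdO : d ∈ 𝒪 := mem_of_mem_chart G hC.mem hd
  have hsub : w * d - d ∈ 𝒪.nonunits := by
    have := AbsCong_mul_mem_nonunits 𝒪 hw hdO
    rwa [sub_mul, one_mul] at this
  have hwdn : w * d ∉ 𝒪.nonunits := by
    intro h
    apply hdn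
    have := AbsCong_sub_mem_nonunits 𝒪 h hsub
    rwa [sub_sub_cancel] at this
  have key := cnt_eq_of_sub_mem G hC hwd hd hwdn hsub s
  rw [cnt_mul _ hw0 hd0] at key
  linarith

theorem mapDomain_red_eq_zero (G : GaussData A 𝒪) {h : F} (hh : h ≠ 0) (C0 : RChart A 𝒪 h)
    (C1 : RChart A 𝒪 h⁻¹) {w : F} (hw : w - 1 ∈ 𝒪.nonunits) :
    (divf (K := Ω) w).mapDomain (red A h) = 0 := by
  ext s
  rw [mapDomain_divf_apply, Finsupp.coe_zero, Pi.zero_apply]
  rcases s with s | s
  · rw [setOf_red_eq_inl]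
    exact AbsCong_cnt_eq_zero G C0 hw s
  · by_cases hs : h⁻¹ ∈ s
    · rw [setOf_red_eq_inr_of_mem hh hs]
      exact AbsCong_cnt_eq_zero G C1 hw s
    · rw [setOf_red_eq_inr_of_not_mem hh hs]
      exact cnt_empty w

end Fermat.Agent.GR.S.R
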