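import Fermat.Agent.GR.S.R.Dom

/-!
# GR-S / M-R: a function on the special fibre which is regular on both charts is constant
-/

set_option autoImplicit false

noncomputable section

namespace Fermat.Agent.GR.S.R

open AlgebraicCurve Fermat.Agent.GR.E Fermat.Agent.S17.FF

/-- An element integral over `R[y]` lies in every valuation subring containing `R` and `y`
(copy of the private lemma of `GR/E/E8.lean`). -/
theorem ConstRed_mem_valuationSubring {R : Type*} [CommRing R] {F : Type*} [Field F]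
    [Algebra R F] (V : ValuationSubring F) (hV : ∀ r : R, algebraMap R F r ∈ V) {y x : F}
    (hy : y ∈ V) (hx : x ∈ chart R ({y} : Set F)) : x ∈ V := by
  rw [mem_chart] at hx
  obtain ⟨p, hp, hpx⟩ := hx
  have hle : ∀ a : Algebra.adjoin R ({y} : Set F), (a : F) ∈ V := by
    intro a
    have : Algebra.adjoin R ({y} : Set F) ≤
        { V.toSubring with algebraMap_mem' := hV } := by
      apply Algebra.adjoin_le
      intro z hz
      rw [Set.mem_singleton_iff] at hz
      subst hz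
      exact hy
    exact this a.2
  let φ : Algebra.adjoin R ({y} : Set F) →+* V :=
    (algebraMap (Algebra.adjoin R ({y} : Set F)) F).codRestrict V.toSubring hle
  have hint : IsIntegral V x := by
    refine ⟨p.map φ, hp.map φ, ?_⟩
    rw [Polynomial.eval₂_map]
    exact hpx
  have := (IsIntegrallyClosed.isIntegral_iff (R := V) (K := F)).1 hint
  obtain ⟨z, hz⟩ := this
  rw [← hz]
  exact z.2

/-- a monic polynomial over a valuation ring of an algebraically closed field splits: a root of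
its image in a domain is the image of an element of the valuation ring. -/
theorem ConstRed_root {Ω : Type*} [Field Ω] [IsAlgClosed Ω] (A : ValuationSubring Ω) {k : Type*}
    [CommRing k] [IsDomain k] (φ : A →+* k) (x : k) :
    ∀ (n : ℕ) (p : Polynomial A), p.Monic → p.natDegree = n → p.eval₂ φ x = 0 →
      ∃ a : A, x = φ a := by
  intro n
  induction n with
  | zero =>
    intro p hp hn h0
    rw [Polynomial.Monic.natDegree_eq_zero hp] at hn
    rw [hn, Polynomial.eval₂_one] at h0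
    exact absurd h0 one_ne_zero
  | succ n ih =>
    intro p hp hn h0
    have hdeg : (p.map (algebraMap A Ω)).degree ≠ 0 := by
      rw [Polynomial.degree_eq_natDegree (hp.map _).ne_zero, hp.natDegree_map, hn]
      exact_mod_cast Nat.succ_ne_zero n
    obtain ⟨r, hr⟩ := IsAlgClosed.exists_root _ hdeg
    have hint : IsIntegral A r := by
      refine ⟨p, hp, ?_⟩
      rw [← Polynomial.eval_map]
      exact hr
    obtain ⟨a, rfl⟩ := (IsIntegrallyClosed.isIntegral_iff (R := A) (K := Ω)).1 hint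
    have hroot : p.IsRoot a := by
      apply IsFractionRing.injective A Ω
      rw [map_zero, ← Polynomial.eval_map_apply]
      exact hr
    have hfac := Polynomial.mul_divByMonic_eq_iff_isRoot.2 hroot
    set q := p /ₘ (Polynomial.X - Polynomial.C a) with hq
    have hqm : q.Monic :=
      Polynomial.Monic.of_mul_monic_left (Polynomial.monic_X_sub_C a) (hfac.symm ▸ hp)
    have hqn : q.natDegree = n := by
      rw [hq, Polynomial.natDegree_divByMonic p (Polynomial.monic_X_sub_C a), hn,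
        Polynomial.natDegree_X_sub_C]
      rfl
    rw [← hfac, Polynomial.eval₂_mul, Polynomial.eval₂_sub, Polynomial.eval₂_X,
      Polynomial.eval₂_C] at h0
    rcases mul_eq_zero.1 h0 with h | h
    · exact ⟨a, sub_eq_zero.1 h⟩
    · exact ih q hqm hqn h

variable {Ω F : Type} [Field Ω] [IsAlgClosed Ω] [CharZero Ω] [Field F] [Algebra Ω F] [IsFF Ω F]
variable {A : ValuationSubring Ω} {𝒪 : ValuationSubring F}

theorem exists_const_of_mem_charts (G : GaussData A 𝒪) {h : F} (hh : h ∈ 𝒪) (hh' : h⁻¹ ∈ 𝒪)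
    {c₀ c₁ : F} (h₀ : c₀ ∈ chart A ({h} : Set F)) (h₁ : c₁ ∈ chart A ({h⁻¹} : Set F))
    (hsub : c₀ - c₁ ∈ 𝒪.nonunits) : ∃ κ ∈ A, c₀ - algebraMap Ω F κ ∈ 𝒪.nonunits := by
  have hc₀ : c₀ ∈ 𝒪 := mem_of_mem_chart G hh h₀
  let res : 𝒪 →+* IsLocalRing.ResidueField 𝒪 := IsLocalRing.residue 𝒪
  let ι : A →+* 𝒪 := ((algebraMap Ω F).comp A.subtype).codRestrict 𝒪.toSubring
    (fun a => (G.const_mem a).2 a.2)
  let φ : A →+* IsLocalRing.ResidueField 𝒪 := res.comp ι
  let B₀ : Subring F := (φ.range.comap res).map 𝒪.subtype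
  have hB𝒪 : B₀ ≤ 𝒪.toSubring := by
    rintro _ ⟨u, -, rfl⟩
    exact u.2
  have hAB : ∀ a : A, algebraMap Ω F a ∈ B₀ := fun a => ⟨ι a, ⟨a, rfl⟩, rfl⟩
  have hMB : ∀ m ∈ 𝒪.nonunits, m ∈ B₀ := by
    intro m hm
    obtain ⟨hm', hmax⟩ := ValuationSubring.mem_nonunits_iff_exists_mem_maximalIdeal.1 hm
    refine ⟨⟨m, hm'⟩, ⟨0, ?_⟩, rfl⟩
    rw [map_zero]
    exact ((IsLocalRing.residue_eq_zero_iff _).2 hmax).symm
  have hint : IsIntegral B₀ c₀ := by
    by_contra hx
    have hx' : c₀ ∉ (integralClosure B₀ F).toSubring := hx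
    obtain ⟨W, hW, hcW⟩ := Subring.exists_le_valuationSubring_of_isIntegrallyClosedIn hx'
    have hBW : ∀ b ∈ B₀, b ∈ W := fun b hb =>
      hW ((integralClosure B₀ F).algebraMap_mem ⟨b, hb⟩)
    have hAW : ∀ r : A, algebraMap A F r ∈ W := fun r => hBW _ (hAB r)
    rcases W.mem_or_inv_mem h with hm | hm
    · exact hcW (ConstRed_mem_valuationSubring W hAW hm h₀)
    · have h1 := ConstRed_mem_valuationSubring W hAW hm h₁
      have h2 := hBW _ (hMB _ hsub)
      have h3 : c₀ = (c₀ - c₁) + c₁ := by ring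
      rw [h3] at hcW
      exact hcW (W.add_mem _ _ h2 h1)
  obtain ⟨P, hP, hP0⟩ := hint
  let incl : B₀ →+* 𝒪 := Subring.inclusion hB𝒪
  let ψ : B₀ →+* IsLocalRing.ResidueField 𝒪 := res.comp incl
  have hlift : P.map ψ ∈ Polynomial.lifts φ := by
    rw [Polynomial.lifts_iff_coeff_lifts]
    intro n
    rw [Polynomial.coeff_map]
    obtain ⟨u, ⟨a, ha⟩, hu⟩ := (P.coeff n).2
    refine ⟨a, ?_⟩
    rw [ha]
    show res u = res (incl (P.coeff n))
    congr 1
    exact Subtype.ext hu
  obtain ⟨p, hpmap, -, hpm⟩ := Polynomial.lifts_and_natDegree_eq_and_monic hlift (hP.map ψ)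
  have heval : p.eval₂ φ (res ⟨c₀, hc₀⟩) = 0 := by
    rw [← Polynomial.eval_map, hpmap, Polynomial.eval_map]
    show P.eval₂ (res.comp incl) (res ⟨c₀, hc₀⟩) = 0
    rw [← Polynomial.hom_eval₂]
    have h4 : P.eval₂ incl (⟨c₀, hc₀⟩ : 𝒪) = 0 := by
      apply Subtype.val_injective
      have h5 := Polynomial.hom_eval₂ P incl 𝒪.subtype (⟨c₀, hc₀⟩ : 𝒪)
      exact h5.trans hP0
    rw [h4, map_zero]
  obtain ⟨a, ha⟩ := ConstRed_root A φ _ _ p hpm rfl heval
  refine ⟨a, a.2, ?_⟩
  rw [ValuationSubring.mem_nonunits_iff_exists_mem_maximalIdeal]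
  refine ⟨𝒪.sub_mem hc₀ (ι a).2, ?_⟩
  rw [← IsLocalRing.residue_eq_zero_iff]
  have h6 : res ((⟨c₀, hc₀⟩ : 𝒪) - ι a) = 0 := by
    rw [map_sub, ha]
    exact sub_self _
  exact h6

end Fermat.Agent.GR.S.R
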