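import Fermat.Agent.GR.S.R.Inf4
import Fermat.Agent.GR.S.R.Dom2
import Fermat.Agent.GR.S.R.ConstRed

/-!
# GR-S / M-R: a function whose divisor has reduction `0` has constant reduction (abstract form)
-/

set_option autoImplicit false

noncomputable section

namespace Fermat.Agent.GR.S.R

open AlgebraicCurve Fermat.Agent.GR.E Fermat.Agent.S17.FF

variable {Ω F : Type} [Field Ω] [IsAlgClosed Ω] [CharZero Ω] [Field F] [Algebra Ω F] [IsFF Ω F]
variable {A : ValuationSubring Ω} {𝒪 : ValuationSubring F}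

/-- one chart: a unit of `𝒪` whose divisor has no contribution in any class of the chart is
congruent to an element of the chart ring. -/
theorem AbsConst_exists_chart (G : GaussData A 𝒪) {x : F} (hC : RChart A 𝒪 x) {u₁ : F}
    (hv : 𝒪.valuation u₁ = 1) (hcnt : ∀ s : Set F, cnt (cls A x s) u₁ = 0) :
    ∃ c ∈ chart A ({x} : Set F), 𝒪.valuation (u₁ - c) < 1 := by
  have hu0 : u₁ ≠ 0 := by
    intro h
    rw [h, map_zero] at hv
    exact zero_ne_one hv
  obtain ⟨d, hd, hd', hud⟩ := hC.frac u₁ ((𝒪.valuation_le_one_iff _).1 hv.le)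
  have hdO : d ∈ 𝒪 := mem_of_mem_chart G hC.mem hd
  have hdv : 𝒪.valuation d = 1 := by
    refine le_antisymm ((𝒪.valuation_le_one_iff _).2 hdO) ?_
    rw [ValuationSubring.mem_nonunits_iff, not_lt] at hd'
    exact hd'
  have hd0 : d ≠ 0 := by
    intro h
    rw [h, map_zero] at hdv
    exact zero_ne_one hdv
  have hud' : u₁ * d ∉ 𝒪.nonunits := by
    rw [ValuationSubring.mem_nonunits_iff, map_mul, hv, hdv, one_mul]
    exact lt_irrefl _
  obtain ⟨c, hc, hc'⟩ := exists_mul_sub_mem G hC hud hd hud' hd' (fun s => by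
    rw [cnt_mul _ hu0 hd0, hcnt s, zero_add])
  refine ⟨c, hc, ?_⟩
  rw [ValuationSubring.mem_nonunits_iff, ← sub_mul, map_mul, hdv, mul_one] at hc'
  exact hc'

theorem exists_const_of_mapDomain_red (G : GaussData A 𝒪) {h : F} (hh : h ≠ 0)
    (C0 : RChart A 𝒪 h) (C1 : RChart A 𝒪 h⁻¹) {u : F} (hu : u ≠ 0)
    (h0 : (divf (K := Ω) u).mapDomain (red A h) = 0) :
    ∃ κ : Ω, κ ≠ 0 ∧ u / algebraMap Ω F κ - 1 ∈ 𝒪.nonunits := by
  obtain ⟨κ, hκ, hu1, hu2⟩ := G.norm u hu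
  have hκF : algebraMap Ω F κ ≠ 0 := by simpa using hκ
  set u₁ : F := u / algebraMap Ω F κ with hu₁
  have hu₁0 : u₁ ≠ 0 := div_ne_zero hu hκF
  have hv : 𝒪.valuation u₁ = 1 := by
    refine le_antisymm ((𝒪.valuation_le_one_iff _).2 hu1) ?_
    have h2 := (𝒪.valuation_le_one_iff _).2 hu2
    rw [map_inv₀] at h2
    have hne : 𝒪.valuation u₁ ≠ 0 := (Valuation.ne_zero_iff _).2 hu₁0
    exact (inv_le_one₀ (zero_lt_iff.2 hne)).1 h2
  have hcu : ∀ X : Set (Place Ω F), cnt X u₁ = cnt X u := by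
    intro X
    rw [hu₁, cnt_div X hu hκF, cnt_algebraMap, sub_zero]
  have hc0 : ∀ s : Set F, cnt (cls A h s) u₁ = 0 := by
    intro s
    rw [hcu, ← setOf_red_eq_inl, ← mapDomain_divf_apply, h0]
    rfl
  have hc1 : ∀ s : Set F, cnt (cls A h⁻¹ s) u₁ = 0 := by
    intro s
    by_cases hs : h⁻¹ ∈ s
    · rw [hcu, ← setOf_red_eq_inr_of_mem hh hs, ← mapDomain_divf_apply, h0]
      rfl
    · obtain ⟨s', hs'⟩ := exists_cls_eq_of_not_mem (A := A) hh hs
      rw [hs']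
      exact hc0 s'
  obtain ⟨c₀, hc₀, hc₀'⟩ := AbsConst_exists_chart G C0 hv hc0
  obtain ⟨c₁, hc₁, hc₁'⟩ := AbsConst_exists_chart G C1 hv hc1
  have hsub : c₀ - c₁ ∈ 𝒪.nonunits := by
    rw [ValuationSubring.mem_nonunits_iff]
    have e : c₀ - c₁ = (u₁ - c₁) - (u₁ - c₀) := by ring
    rw [e]
    exact Valuation.map_sub_lt _ hc₁' hc₀'
  obtain ⟨κ₀, hκ₀, hκ₀'⟩ := exists_const_of_mem_charts G C0.mem C1.mem hc₀ hc₁ hsub
  rw [ValuationSubring.mem_nonunits_iff] at hκ₀'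
  have h3 : 𝒪.valuation (u₁ - algebraMap Ω F κ₀) < 1 := by
    have e : u₁ - algebraMap Ω F κ₀ = (u₁ - c₀) + (c₀ - algebraMap Ω F κ₀) := by ring
    rw [e]
    exact Valuation.map_add_lt _ hc₀' hκ₀'
  have h4 : 𝒪.valuation (algebraMap Ω F κ₀) = 1 := by
    have e : algebraMap Ω F κ₀ = u₁ - (u₁ - algebraMap Ω F κ₀) := by ring
    rw [e, Valuation.map_sub_eq_of_lt_left _ (by rw [hv]; exact h3), hv]
  have hκ₀F : algebraMap Ω F κ₀ ≠ 0 := by
    intro h
    rw [h, map_zero] at h4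
    exact zero_ne_one h4
  have hκ₀0 : κ₀ ≠ 0 := by
    intro h
    apply hκ₀F
    rw [h, map_zero]
  refine ⟨κ * κ₀, mul_ne_zero hκ hκ₀0, ?_⟩
  rw [ValuationSubring.mem_nonunits_iff]
  have e : u / algebraMap Ω F (κ * κ₀) - 1 = (u₁ - algebraMap Ω F κ₀) / algebraMap Ω F κ₀ := by
    rw [hu₁, map_mul]
    field_simp
  rw [e, map_div₀, h4, div_one]
  exact h3

end Fermat.Agent.GR.S.R
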