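import Fermat.Agent.GR.S.R.Semi
import Fermat.Agent.GR.S.R.Dom2

/-!
# GR-S / M-R: inertia does not move reduction classes (abstract form)
-/

set_option autoImplicit false

noncomputable section

namespace Fermat.Agent.GR.S.R

open AlgebraicCurve Fermat.Agent.GR.E Fermat.Agent.S17.FF

variable {Ω F : Type} [Field Ω] [IsAlgClosed Ω] [CharZero Ω] [Field F] [Algebra Ω F] [IsFF Ω F]
variable {A : ValuationSubring Ω} {𝒪 : ValuationSubring F}

omit [IsAlgClosed Ω] [CharZero Ω] in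
theorem AbsInert_mem_nonunits_iff (a : Ω) : a ∈ A.nonunits ↔ a = 0 ∨ a⁻¹ ∉ A := by
  rw [ValuationSubring.mem_nonunits_iff, ← ValuationSubring.valuation_le_one_iff]
  rcases eq_or_ne a 0 with rfl | ha
  · simp
  · have hv : A.valuation a ≠ 0 := (map_ne_zero _).mpr ha
    rw [map_inv₀, not_le, one_lt_inv₀ (zero_lt_iff.mpr hv)]
    simp [ha]

omit [IsAlgClosed Ω] [CharZero Ω] [IsFF Ω F] in
theorem AbsInert_base_mem_nonunits_iff (g : SemilinearAut Ω F)
    (hgA : ∀ a : Ω, SemilinearAut.baseAut g a ∈ A ↔ a ∈ A) (a : Ω) :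
    SemilinearAut.baseAut g a ∈ A.nonunits ↔ a ∈ A.nonunits := by
  rw [AbsInert_mem_nonunits_iff, AbsInert_mem_nonunits_iff, ← map_inv₀, hgA, map_eq_zero_iff _
    (SemilinearAut.baseAut g).injective]

theorem AbsInert_dom_smul_iff (g : SemilinearAut Ω F) {x : F} (hgx : g • x = x)
    (hgA : ∀ a : Ω, SemilinearAut.baseAut g a ∈ A ↔ a ∈ A) (P : Place Ω F) :
    Dom A x (g • P) ↔ Dom A x P := by
  unfold Dom
  have h1 : (g • P).ord x = P.ord x := by
    conv_lhs => rw [← hgx]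
    exact SemilinearAut.ord_smul g P x
  have h2 : val (g • P) x = SemilinearAut.baseAut g (val P x) := by
    conv_lhs => rw [← hgx]
    exact val_smul g P x
  rw [h1, h2, hgA]

theorem AbsInert_ker_smul (G : GaussData A 𝒪) {x : F} (C : RChart A 𝒪 x)
    (g : SemilinearAut Ω F) (hgx : g • x = x)
    (hgA : ∀ a : Ω, SemilinearAut.baseAut g a ∈ A ↔ a ∈ A)
    (hg : ∀ c ∈ 𝒪, g • c - c ∈ 𝒪.nonunits) {P : Place Ω F} (hP : Dom A x P) :
    ker A x (g • P) = ker A x P := by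
  have hgx' : g⁻¹ • x = x := by
    conv_lhs => rw [← hgx]
    exact inv_smul_smul g x
  have hgA' : ∀ a : Ω, SemilinearAut.baseAut g⁻¹ a ∈ A ↔ a ∈ A := by
    intro a
    rw [← hgA (SemilinearAut.baseAut g⁻¹ a), SemilinearAut.baseAut_inv,
      RingEquiv.apply_symm_apply]
  ext c
  by_cases hc : c ∈ chart A ({x} : Set F)
  · have hc' : g⁻¹ • c ∈ chart A ({x} : Set F) := smul_mem_chart g⁻¹ hgx' hgA' hc
    have hval : val (g • P) c = SemilinearAut.baseAut g (val P (g⁻¹ • c)) := by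
      conv_lhs => rw [← smul_inv_smul g c]
      exact val_smul g P (g⁻¹ • c)
    have hdiff : c - g⁻¹ • c ∈ ker A x P := by
      refine mem_ker_of_mem_nonunits G C hP (sub_mem hc hc') ?_
      have h1 := hg (g⁻¹ • c) (mem_of_mem_chart G C.mem hc')
      rwa [smul_inv_smul] at h1
    have h1 : c ∈ ker A x (g • P) ↔ g⁻¹ • c ∈ ker A x P := by
      rw [mem_ker_iff, mem_ker_iff, hval, AbsInert_base_mem_nonunits_iff g hgA]
      exact ⟨fun h => ⟨hc', h.2⟩, fun h => ⟨hc, h.2⟩⟩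
    rw [h1]
    constructor
    · intro h
      have h2 := add_mem_ker hP h hdiff
      rwa [add_sub_cancel] at h2
    · intro h
      have h2 := sub_mem_ker hP h hdiff
      rwa [sub_sub_cancel] at h2
  · exact ⟨fun h => absurd h.1 hc, fun h => absurd h.1 hc⟩

theorem red_smul (G : GaussData A 𝒪) {h : F} (hh : h ≠ 0) (C0 : RChart A 𝒪 h)
    (C1 : RChart A 𝒪 h⁻¹) (g : SemilinearAut Ω F) (hgh : g • h = h)
    (hgA : ∀ a : Ω, SemilinearAut.baseAut g a ∈ A ↔ a ∈ A)
    (hg : ∀ c ∈ 𝒪, g • c - c ∈ 𝒪.nonunits) (P : Place Ω F) :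
    red A h (g • P) = red A h P := by
  classical
  have hgh' : g • h⁻¹ = h⁻¹ := by
    rw [smul_inv'', hgh]
  unfold red
  by_cases hP : Dom A h P
  · have hP' : Dom A h (g • P) := (AbsInert_dom_smul_iff g hgh hgA P).mpr hP
    rw [if_pos hP, if_pos hP', AbsInert_ker_smul G C0 g hgh hgA hg hP]
  · have hP' : ¬ Dom A h (g • P) := fun h' => hP ((AbsInert_dom_smul_iff g hgh hgA P).mp h')
    rw [if_neg hP, if_neg hP',
      AbsInert_ker_smul G C1 g hgh' hgA hg (dom_inv_of_not_dom hh hP).1]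

end Fermat.Agent.GR.S.R
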