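import Fermat.Agent.GR.S.R.Defs

/-!
# GR-S / M-R: counting zeros and poles in a set of places
-/

set_option autoImplicit false

noncomputable section

namespace Fermat.Agent.GR.S.R

open AlgebraicCurve Fermat.Agent.GR.E Fermat.Agent.S17.FF

variable {Ω F : Type} [Field Ω] [IsAlgClosed Ω] [CharZero Ω] [Field F] [Algebra Ω F] [IsFF Ω F]
variable {A : ValuationSubring Ω} {𝒪 : ValuationSubring F}

/-- `cnt` as a finite sum. -/
theorem Cnt_eq_sum (X : Set (Place Ω F)) (y : F) :
    cnt X y = open Classical in ∑ P ∈ (divf (K := Ω) y).support.filter (· ∈ X), P.ord y := by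
  classical
  unfold cnt
  rw [Finsupp.sum_filter_index, Finsupp.support_filter]
  rfl

/-- `cnt` only depends on the divisor, additively. -/
theorem Cnt_of_divf_add (X : Set (Place Ω F)) {y z w : F}
    (h : divf (K := Ω) w = divf y + divf z) : cnt X w = cnt X y + cnt X z := by
  classical
  unfold cnt
  rw [h, Finsupp.filter_add, Finsupp.sum_add_index' (fun _ => rfl) (fun _ _ _ => rfl)]

theorem Cnt_of_divf_zero (X : Set (Place Ω F)) {y : F}
    (h : divf (K := Ω) y = 0) : cnt X y = 0 := by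
  classical
  unfold cnt
  rw [h, Finsupp.filter_zero, Finsupp.sum_zero_index]

theorem Cnt_divf_zero : divf (K := Ω) (0 : F) = 0 := by
  ext v
  rw [divf_apply, Place.ord_zero, Finsupp.zero_apply]

theorem cnt_zero_fun (X : Set (Place Ω F)) : cnt X (0 : F) = 0 := by
  exact Cnt_of_divf_zero X Cnt_divf_zero

theorem cnt_empty (y : F) : cnt (∅ : Set (Place Ω F)) y = 0 := by
  rw [Cnt_eq_sum]
  apply Finset.sum_eq_zero
  intro P hP
  have := (@Finset.mem_filter _ _ (fun a => Classical.propDecidable _) _ _).1 hP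
  exact absurd this.2 (Set.notMem_empty P)

theorem cnt_mul (X : Set (Place Ω F)) {y z : F} (hy : y ≠ 0) (hz : z ≠ 0) :
    cnt X (y * z) = cnt X y + cnt X z := by
  exact Cnt_of_divf_add X (divf_mul hy hz)

theorem cnt_pow (X : Set (Place Ω F)) (y : F) (n : ℕ) : cnt X (y ^ n) = n * cnt X y := by
  have h1 : cnt X (1 : F) = 0 := by
    apply Cnt_of_divf_zero
    rw [← map_one (algebraMap Ω F), divf_algebraMap]
  by_cases hy : y = 0
  · subst hy
    rcases Nat.eq_zero_or_pos n with rfl | hn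
    · simpa using h1
    · rw [zero_pow hn.ne', cnt_zero_fun, mul_zero]
  · induction n with
    | zero => simpa using h1
    | succ n ih =>
      rw [pow_succ, cnt_mul X (pow_ne_zero n hy) hy, ih]
      push_cast
      ring

theorem cnt_inv (X : Set (Place Ω F)) (y : F) : cnt X y⁻¹ = - cnt X y := by
  have h1 : cnt X y⁻¹ + cnt X y = 0 := by
    rw [← Cnt_of_divf_add X (w := (0 : F)) (y := y⁻¹) (z := y), cnt_zero_fun]
    rw [Cnt_divf_zero, divf_inv, neg_add_cancel]
  linarith

theorem cnt_div (X : Set (Place Ω F)) {y z : F} (hy : y ≠ 0) (hz : z ≠ 0) :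
    cnt X (y / z) = cnt X y - cnt X z := by
  rw [div_eq_mul_inv, cnt_mul X hy (inv_ne_zero hz), cnt_inv, sub_eq_add_neg]

theorem cnt_algebraMap (X : Set (Place Ω F)) (a : Ω) : cnt X (algebraMap Ω F a) = 0 := by
  exact Cnt_of_divf_zero X (divf_algebraMap a)

theorem cnt_eq_zero_of_forall (X : Set (Place Ω F)) (y : F) (h : ∀ P ∈ X, P.ord y = 0) :
    cnt X y = 0 := by
  classical
  rw [Cnt_eq_sum]
  apply Finset.sum_eq_zero
  intro P hP
  exact h P (Finset.mem_filter.1 hP).2

theorem cnt_nonneg (X : Set (Place Ω F)) (y : F) (h : ∀ P ∈ X, 0 ≤ P.ord y) : 0 ≤ cnt X y := by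
  classical
  rw [Cnt_eq_sum]
  apply Finset.sum_nonneg
  intro P hP
  exact h P (Finset.mem_filter.1 hP).2

theorem exists_pos_of_cnt_ne_zero (X : Set (Place Ω F)) (y : F) (h : ∀ P ∈ X, 0 ≤ P.ord y)
    (h0 : cnt X y ≠ 0) : ∃ P ∈ X, 0 < P.ord y := by
  by_contra hcon
  push Not at hcon
  exact h0 (cnt_eq_zero_of_forall X y fun P hP => le_antisymm (hcon P hP) (h P hP))

theorem cnt_pos_of_exists (X : Set (Place Ω F)) (y : F) (h : ∀ P ∈ X, 0 ≤ P.ord y)
    {P : Place Ω F} (hP : P ∈ X) (hy : 0 < P.ord y) : 0 < cnt X y := by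
  classical
  rw [Cnt_eq_sum]
  apply Finset.sum_pos'
  · intro Q hQ
    exact h Q (Finset.mem_filter.1 hQ).2
  · refine ⟨P, Finset.mem_filter.2 ⟨?_, hP⟩, hy⟩
    rw [Finsupp.mem_support_iff, divf_apply]
    exact hy.ne'

theorem cnt_eq_one (X : Set (Place Ω F)) (y : F) {P₀ : Place Ω F} (hP₀ : P₀ ∈ X)
    (h1 : P₀.ord y = 1) (h0 : ∀ P ∈ X, P ≠ P₀ → P.ord y = 0) : cnt X y = 1 := by
  classical
  rw [Cnt_eq_sum, Finset.sum_eq_single P₀, h1]
  · intro P hP hne
    exact h0 P (Finset.mem_filter.1 hP).2 hne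
  · intro hP
    exfalso
    apply hP
    refine Finset.mem_filter.2 ⟨?_, hP₀⟩
    rw [Finsupp.mem_support_iff, divf_apply, h1]
    exact one_ne_zero

theorem mapDomain_divf_apply {S : Type} (r : Place Ω F → S) (u : F) (s : S) :
    (divf (K := Ω) u).mapDomain r s = cnt {P | r P = s} u := by
  classical
  rw [Cnt_eq_sum, Finsupp.mapDomain, Finsupp.sum_apply, Finsupp.sum, Finset.sum_filter]
  apply Finset.sum_congr rfl
  intro P _
  rw [Finsupp.single_apply, divf_apply]
  rfl

end Fermat.Agent.GR.S.R
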