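import Fermat.Agent.GR.E.Defs
import Fermat.Agent.S17.FF.Basic
import Fermat.Agent.S17.FF.Local
import Fermat.Agent.S17.FF.Count

/-!
# GR-S / M-R: abstract reduction classes of places

`Ω` algebraically closed of characteristic `0`, `A` a valuation subring of `Ω`, `F / Ω` a function
field of one variable, `𝒪` a valuation subring of `F` ("Gauss valuation") and `x : F` a chart
coordinate.  `chart A {x}` is the integral closure of `A[x]` in `F`.
-/

set_option autoImplicit false

noncomputable section

namespace Fermat.Agent.GR.S.R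

open AlgebraicCurve Fermat.Agent.GR.E Fermat.Agent.S17.FF

variable {Ω F : Type} [Field Ω] [IsAlgClosed Ω] [CharZero Ω] [Field F] [Algebra Ω F] [IsFF Ω F]

/-- `P` is an `A`-integral point of the chart with coordinate `x`. -/
def Dom (A : ValuationSubring Ω) (x : F) (P : Place Ω F) : Prop :=
  0 ≤ P.ord x ∧ val P x ∈ A

/-- The functions of the chart ring which vanish at the reduction of `P`. -/
def ker (A : ValuationSubring Ω) (x : F) (P : Place Ω F) : Set F :=
  {c | c ∈ chart A ({x} : Set F) ∧ val P c ∈ A.nonunits}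

/-- The places of the chart with a given reduction class. -/
def cls (A : ValuationSubring Ω) (x : F) (s : Set F) : Set (Place Ω F) :=
  {P | Dom A x P ∧ ker A x P = s}

/-- The reduction class of a place with respect to the two charts `h`, `h⁻¹`. -/
def red (A : ValuationSubring Ω) (h : F) (P : Place Ω F) : Set F ⊕ Set F :=
  open Classical in if Dom A h P then Sum.inl (ker A h P) else Sum.inr (ker A h⁻¹ P)

/-- The number of zeros minus poles of `y` in a set of places. -/
def cnt (X : Set (Place Ω F)) (y : F) : ℤ :=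
  open Classical in ((divf (K := Ω) y).filter (· ∈ X)).sum fun _ n => n

/-- `𝒪` restricts to `A` on constants and has the same value group. -/
structure GaussData (A : ValuationSubring Ω) (𝒪 : ValuationSubring F) : Prop where
  const_mem : ∀ c : Ω, algebraMap Ω F c ∈ 𝒪 ↔ c ∈ A
  norm : ∀ u : F, u ≠ 0 → ∃ κ : Ω, κ ≠ 0 ∧ u / algebraMap Ω F κ ∈ 𝒪 ∧ (u / algebraMap Ω F κ)⁻¹ ∈ 𝒪

/-- The peeling property of a chart: finitely many functions and finitely many points of one
reduction class live on a subring `C'` on which these points have local equations `t - t(P)`. -/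
def HasLevels (A : ValuationSubring Ω) (x : F) : Prop :=
  ∀ (P₀ : Place Ω F), Dom A x P₀ → ∀ T : Finset (Place Ω F),
    (∀ P ∈ T, Dom A x P ∧ ker A x P = ker A x P₀) →
    ∀ Z : Finset F, (∀ z ∈ Z, z ∈ chart A ({x} : Set F)) →
    ∃ (C' : Subring F) (t : F), (∀ c ∈ C', c ∈ chart A ({x} : Set F)) ∧ (∀ z ∈ Z, z ∈ C') ∧
      t ∈ C' ∧ t ∈ ker A x P₀ ∧
      ∀ P ∈ T, ∀ z ∈ C', val P z = 0 → ∃ σ ∈ C', σ ∉ ker A x P₀ ∧ ∃ c ∈ C',
        σ * z = (t - algebraMap Ω F (val P t)) * c

/-- What the formal part needs from a chart. -/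
structure RChart (A : ValuationSubring Ω) (𝒪 : ValuationSubring F) (x : F) : Prop where
  transc : Transcendental Ω x
  mem : x ∈ 𝒪
  sat : ∀ c ∈ chart A ({x} : Set F), ∀ a : Ω, a ≠ 0 → c / algebraMap Ω F a ∈ 𝒪 →
    c / algebraMap Ω F a ∈ chart A ({x} : Set F)
  frac : ∀ u ∈ 𝒪, ∃ d ∈ chart A ({x} : Set F), d ∉ 𝒪.nonunits ∧ u * d ∈ chart A ({x} : Set F)
  levels : HasLevels A x

end Fermat.Agent.GR.S.R
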