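import Fermat.Agent.GR.S.R.Defs

/-!
# GR-S / M-R: evaluation of the chart ring at an integral point
-/

set_option autoImplicit false

noncomputable section

namespace Fermat.Agent.GR.S.R

open AlgebraicCurve Fermat.Agent.GR.E Fermat.Agent.S17.FF

/-! ### generalities on `ValuationSubring.nonunits` -/

section Nonunits

variable {K : Type*} [Field K] (V : ValuationSubring K)

theorem Dom_nonunits_add {a b : K} (ha : a ∈ V.nonunits) (hb : b ∈ V.nonunits) :
    a + b ∈ V.nonunits := by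
  rw [V.mem_nonunits_iff] at *
  exact V.valuation.map_add_lt ha hb

theorem Dom_nonunits_mul {a b : K} (ha : a ∈ V) (hb : b ∈ V.nonunits) : a * b ∈ V.nonunits := by
  rw [V.mem_nonunits_iff] at *
  rw [map_mul]
  exact mul_lt_of_le_one_of_lt ((V.valuation_le_one_iff a).2 ha) hb

theorem Dom_nonunits_neg {a : K} (ha : a ∈ V.nonunits) : -a ∈ V.nonunits := by
  rw [V.mem_nonunits_iff] at *
  rwa [Valuation.map_neg]

theorem Dom_zero_mem_nonunits : (0 : K) ∈ V.nonunits := by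
  rw [V.mem_nonunits_iff, map_zero]
  exact zero_lt_one

theorem Dom_one_not_mem_nonunits : (1 : K) ∉ V.nonunits := by
  rw [V.mem_nonunits_iff, map_one]
  exact lt_irrefl _

theorem Dom_mem_of_mem_nonunits {a : K} (ha : a ∈ V.nonunits) : a ∈ V :=
  ValuationSubring.nonunits_subset ha

theorem Dom_mul_not_mem_nonunits {a b : K} (ha : a ∈ V) (hb : b ∈ V) (ha' : a ∉ V.nonunits)
    (hb' : b ∉ V.nonunits) : a * b ∉ V.nonunits := by
  rw [V.mem_nonunits_iff] at *
  have h1 : V.valuation a = 1 := le_antisymm ((V.valuation_le_one_iff a).2 ha) (not_lt.1 ha')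
  have h2 : V.valuation b = 1 := le_antisymm ((V.valuation_le_one_iff b).2 hb) (not_lt.1 hb')
  rw [map_mul, h1, h2, one_mul]
  exact lt_irrefl _

theorem Dom_mem_nonunits_iff (a : K) : a ∈ V.nonunits ↔ a = 0 ∨ a⁻¹ ∉ V := by
  by_cases h0 : a = 0
  · subst h0
    exact ⟨fun _ => Or.inl rfl, fun _ => Dom_zero_mem_nonunits V⟩
  · rw [V.mem_nonunits_iff, ← V.valuation_le_one_iff, map_inv₀,
      inv_le_one₀ (zero_lt_iff.2 ((V.valuation.ne_zero_iff).2 h0)), not_le]
    exact ⟨fun h => Or.inr h, fun h => h.resolve_left h0⟩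

end Nonunits

variable {Ω F : Type} [Field Ω] [IsAlgClosed Ω] [CharZero Ω] [Field F] [Algebra Ω F] [IsFF Ω F]
variable {A : ValuationSubring Ω} {𝒪 : ValuationSubring F} {x : F}

theorem algebraMap_mem_chart {a : Ω} (ha : a ∈ A) : algebraMap Ω F a ∈ chart A ({x} : Set F) :=
  (chart A ({x} : Set F)).algebraMap_mem ⟨a, ha⟩

theorem self_mem_chart : x ∈ chart A ({x} : Set F) :=
  mem_chart.mpr (isIntegral_algebraMap
    (x := (⟨x, Algebra.subset_adjoin (Set.mem_singleton x)⟩ : Algebra.adjoin A ({x} : Set F))))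

/-- the chart ring is integrally closed. -/
theorem Dom_chart_closed {c : F} (hc : IsIntegral (chart A ({x} : Set F)) c) :
    c ∈ chart A ({x} : Set F) := by
  have h2 : IsIntegral (integralClosure (Algebra.adjoin A ({x} : Set F)) F) c := hc
  exact mem_chart.mpr (isIntegral_trans (A := integralClosure (Algebra.adjoin A ({x} : Set F)) F) c h2)

theorem Dom_adjoin_le {c : F} (hc : c ∈ Algebra.adjoin A ({x} : Set F)) :
    c ∈ Algebra.adjoin Ω ({x} : Set F) := by
  induction hc using Algebra.adjoin_induction with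
  | mem y hy => exact Algebra.subset_adjoin hy
  | algebraMap a => exact (Algebra.adjoin Ω ({x} : Set F)).algebraMap_mem (a : Ω)
  | add y z _ _ hy hz => exact add_mem hy hz
  | mul y z _ _ hy hz => exact mul_mem hy hz

theorem mem_chartAlg_of_mem_chart {c : F} (hc : c ∈ chart A ({x} : Set F)) : c ∈ chartAlg Ω x := by
  rw [mem_chartAlg]
  obtain ⟨p, hpm, hpe⟩ := mem_chart.1 hc
  let f : ↥(Algebra.adjoin A ({x} : Set F)) →+* ↥(Algebra.adjoin Ω ({x} : Set F)) :=
    RingHom.codRestrict (algebraMap (↥(Algebra.adjoin A ({x} : Set F))) F)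
      (Algebra.adjoin Ω ({x} : Set F)) (fun a => Dom_adjoin_le a.2)
  refine ⟨p.map f, hpm.map f, ?_⟩
  rw [Polynomial.eval₂_map]
  exact hpe

/-- denominators of one element of `Ω[x]`. -/
theorem Dom_exists_smul_adjoin {c : F} (hc : c ∈ Algebra.adjoin Ω ({x} : Set F)) :
    ∃ a ∈ A, a ≠ 0 ∧ algebraMap Ω F a * c ∈ chart A ({x} : Set F) := by
  induction hc using Algebra.adjoin_induction with
  | mem y hy =>
    rw [Set.mem_singleton_iff] at hy
    subst hy
    exact ⟨1, A.one_mem, one_ne_zero, by rw [map_one, one_mul]; exact self_mem_chart⟩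
  | algebraMap ω =>
    rcases A.mem_or_inv_mem ω with h | h
    · exact ⟨1, A.one_mem, one_ne_zero, by rw [map_one, one_mul]; exact algebraMap_mem_chart h⟩
    · by_cases h0 : ω = 0
      · exact ⟨1, A.one_mem, one_ne_zero, by
          rw [h0, map_zero, mul_zero]; exact zero_mem _⟩
      · refine ⟨ω⁻¹, h, inv_ne_zero h0, ?_⟩
        rw [← map_mul, inv_mul_cancel₀ h0, map_one]
        exact one_mem _
  | add y z _ _ hy hz =>
    obtain ⟨a, ha, ha0, hay⟩ := hy
    obtain ⟨b, hb, hb0, hbz⟩ := hz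
    refine ⟨a * b, A.mul_mem _ _ ha hb, mul_ne_zero ha0 hb0, ?_⟩
    have e : algebraMap Ω F (a * b) * (y + z) =
        algebraMap Ω F b * (algebraMap Ω F a * y) + algebraMap Ω F a * (algebraMap Ω F b * z) := by
      rw [map_mul]; ring
    rw [e]
    exact add_mem (mul_mem (algebraMap_mem_chart hb) hay) (mul_mem (algebraMap_mem_chart ha) hbz)
  | mul y z _ _ hy hz =>
    obtain ⟨a, ha, ha0, hay⟩ := hy
    obtain ⟨b, hb, hb0, hbz⟩ := hz
    refine ⟨a * b, A.mul_mem _ _ ha hb, mul_ne_zero ha0 hb0, ?_⟩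
    have e : algebraMap Ω F (a * b) * (y * z) =
        (algebraMap Ω F a * y) * (algebraMap Ω F b * z) := by
      rw [map_mul]; ring
    rw [e]
    exact mul_mem hay hbz

/-- common denominators. -/
theorem Dom_exists_smul_finset (s : Finset F) (hs : ∀ c ∈ s, c ∈ Algebra.adjoin Ω ({x} : Set F)) :
    ∃ a ∈ A, a ≠ 0 ∧ ∀ c ∈ s, algebraMap Ω F a * c ∈ chart A ({x} : Set F) := by
  classical
  induction s using Finset.induction_on with
  | empty => exact ⟨1, A.one_mem, one_ne_zero, fun c hc => absurd hc (Finset.notMem_empty c)⟩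
  | insert c s _ ih =>
    obtain ⟨a, ha, ha0, has⟩ := ih fun d hd => hs d (Finset.mem_insert_of_mem hd)
    obtain ⟨b, hb, hb0, hbc⟩ := Dom_exists_smul_adjoin (A := A) (hs c (Finset.mem_insert_self c s))
    refine ⟨a * b, A.mul_mem _ _ ha hb, mul_ne_zero ha0 hb0, fun d hd => ?_⟩
    rcases Finset.mem_insert.1 hd with rfl | hd
    · rw [map_mul, mul_assoc]
      exact mul_mem (algebraMap_mem_chart ha) hbc
    · rw [map_mul, mul_comm (algebraMap Ω F a), mul_assoc]
      exact mul_mem (algebraMap_mem_chart hb) (has d hd)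

/-- every function integral over `Ω[x]` becomes integral over `A[x]` after scaling. -/
theorem exists_smul_mem_chart {f : F} (hf : f ∈ chartAlg Ω x) :
    ∃ a ∈ A, a ≠ 0 ∧ algebraMap Ω F a * f ∈ chart A ({x} : Set F) := by
  classical
  obtain ⟨p, hpm, hpe⟩ := mem_chartAlg.1 hf
  set P : Polynomial F := p.map (algebraMap (Algebra.adjoin Ω ({x} : Set F)) F) with hP
  have hPm : P.Monic := hpm.map _
  have hPe : Polynomial.eval₂ (RingHom.id F) f P = 0 := by
    rw [hP, Polynomial.eval₂_map]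
    exact hpe
  obtain ⟨a, ha, ha0, has⟩ := Dom_exists_smul_finset (A := A) (x := x)
    ((Finset.range (P.natDegree + 1)).image P.coeff) (by
      intro c hc
      obtain ⟨i, -, rfl⟩ := Finset.mem_image.1 hc
      rw [hP, Polynomial.coeff_map]
      exact (p.coeff i).2)
  refine ⟨a, ha, ha0, ?_⟩
  set α : F := algebraMap Ω F a with hα
  have hαC : α ∈ chart A ({x} : Set F) := algebraMap_mem_chart ha
  set Q : Polynomial F := P.scaleRoots α with hQ
  have hQm : Q.Monic := (Polynomial.monic_scaleRoots_iff α).2 hPm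
  have hQe : Polynomial.eval₂ (RingHom.id F) (α * f) Q = 0 :=
    Polynomial.scaleRoots_eval₂_eq_zero (RingHom.id F) hPe
  have hQc : ∀ i, Q.coeff i ∈ chart A ({x} : Set F) := by
    intro i
    rw [hQ, Polynomial.coeff_scaleRoots]
    rcases lt_trichotomy i P.natDegree with hi | hi | hi
    · obtain ⟨k, hk⟩ : ∃ k, P.natDegree - i = k + 1 := ⟨P.natDegree - i - 1, by omega⟩
      rw [hk, pow_succ, ← mul_assoc, mul_comm (P.coeff i * α ^ k), ← mul_assoc]
      exact mul_mem (has _ (Finset.mem_image.2 ⟨i, Finset.mem_range.2 (by omega), rfl⟩))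
        (pow_mem hαC k)
    · rw [hi, hPm.coeff_natDegree, Nat.sub_self, pow_zero, one_mul]
      exact one_mem _
    · rw [Polynomial.coeff_eq_zero_of_natDegree_lt hi, zero_mul]
      exact zero_mem _
  have hlifts : Q ∈ Polynomial.lifts (algebraMap (chart A ({x} : Set F)) F) :=
    (Polynomial.lifts_iff_coeff_lifts Q).mpr fun i => ⟨⟨Q.coeff i, hQc i⟩, rfl⟩
  obtain ⟨q', hq'Q, -, hq'm⟩ := Polynomial.lifts_and_natDegree_eq_and_monic hlifts hQm
  refine Dom_chart_closed ⟨q', hq'm, ?_⟩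
  rw [Polynomial.eval₂_eq_eval_map, hq'Q, ← Polynomial.eval₂_id]
  exact hQe

/-- (D1) -/
theorem ord_nonneg_of_mem_chart {P : Place Ω F} (hP : Dom A x P) {c : F}
    (hc : c ∈ chart A ({x} : Set F)) : 0 ≤ P.ord c :=
  ord_nonneg_of_mem_chartAlg hP.1 (mem_chartAlg_of_mem_chart hc)

open Fermat.Agent.S24.Zeros in
/-- (D1) for `A[x]`. -/
theorem Dom_val_mem_of_mem_adjoin {P : Place Ω F} (hP : Dom A x P) {c : F}
    (hc : c ∈ Algebra.adjoin A ({x} : Set F)) : 0 ≤ P.ord c ∧ val P c ∈ A := by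
  induction hc using Algebra.adjoin_induction with
  | mem y hy =>
    rw [Set.mem_singleton_iff] at hy
    subst hy
    exact hP
  | algebraMap a =>
    refine ⟨le_of_eq (ord_algebraMap P (a : Ω)).symm, ?_⟩
    have : val P (algebraMap Ω F (a : Ω)) = a := val_algebraMap P (a : Ω)
    exact this ▸ a.2
  | add y z _ _ hy hz =>
    refine ⟨ord_nonneg_of_mem P (add_mem (mem_of_ord_nonneg P hy.1) (mem_of_ord_nonneg P hz.1)), ?_⟩
    rw [val_add P hy.1 hz.1]
    exact A.add_mem _ _ hy.2 hz.2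
  | mul y z _ _ hy hz =>
    refine ⟨ord_nonneg_of_mem P (mul_mem (mem_of_ord_nonneg P hy.1) (mem_of_ord_nonneg P hz.1)), ?_⟩
    rw [val_mul P hy.1 hz.1]
    exact A.mul_mem _ _ hy.2 hz.2

open Fermat.Agent.S24.Zeros in
/-- (D1) -/
theorem val_mem_of_mem_chart {P : Place Ω F} (hP : Dom A x P) {c : F}
    (hc : c ∈ chart A ({x} : Set F)) : val P c ∈ A := by
  have hc0 : c ∈ P.toValuationSubring := mem_of_ord_nonneg P (ord_nonneg_of_mem_chart hP hc)
  obtain ⟨p, hpm, hpe⟩ := mem_chart.1 hc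
  let i₁ : ↥(Algebra.adjoin A ({x} : Set F)) →+* ↥P.toValuationSubring :=
    RingHom.codRestrict (algebraMap (↥(Algebra.adjoin A ({x} : Set F))) F) P.toValuationSubring
      (fun a => mem_of_ord_nonneg P (Dom_val_mem_of_mem_adjoin hP a.2).1)
  have h1 : Polynomial.eval₂ i₁ (⟨c, hc0⟩ : P.toValuationSubring) p = 0 := by
    apply Subtype.ext
    have := Polynomial.hom_eval₂ p i₁ P.toValuationSubring.subtype ⟨c, hc0⟩
    exact this.trans hpe
  have h2 : Polynomial.eval₂ ((ev P).comp i₁) (ev P ⟨c, hc0⟩) p = 0 := by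
    rw [← Polynomial.hom_eval₂, h1, map_zero]
  let i₂ : ↥(Algebra.adjoin A ({x} : Set F)) →+* ↥A :=
    RingHom.codRestrict ((ev P).comp i₁) A (fun a => by
      have h := (Dom_val_mem_of_mem_adjoin hP a.2)
      rw [val_of_mem P (mem_of_ord_nonneg P h.1)] at h
      exact h.2)
  have hint : IsIntegral ↥A (ev P ⟨c, hc0⟩) := by
    refine ⟨p.map i₂, hpm.map i₂, ?_⟩
    rw [Polynomial.eval₂_map]
    exact h2
  obtain ⟨v, hv⟩ := (IsIntegrallyClosed.isIntegral_iff (R := ↥A) (K := Ω)).mp hint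
  rw [val_of_mem P hc0, ← hv]
  exact v.2

theorem mem_ker_iff {P : Place Ω F} {c : F} :
    c ∈ ker A x P ↔ c ∈ chart A ({x} : Set F) ∧ val P c ∈ A.nonunits := Iff.rfl

theorem add_mem_ker {P : Place Ω F} (hP : Dom A x P) {c d : F} (hc : c ∈ ker A x P)
    (hd : d ∈ ker A x P) : c + d ∈ ker A x P := by
  refine ⟨add_mem hc.1 hd.1, ?_⟩
  rw [val_add P (ord_nonneg_of_mem_chart hP hc.1) (ord_nonneg_of_mem_chart hP hd.1)]
  exact Dom_nonunits_add A hc.2 hd.2

theorem mul_mem_ker {P : Place Ω F} (hP : Dom A x P) {c d : F} (hc : c ∈ chart A ({x} : Set F))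
    (hd : d ∈ ker A x P) : c * d ∈ ker A x P := by
  refine ⟨mul_mem hc hd.1, ?_⟩
  rw [val_mul P (ord_nonneg_of_mem_chart hP hc) (ord_nonneg_of_mem_chart hP hd.1)]
  exact Dom_nonunits_mul A (val_mem_of_mem_chart hP hc) hd.2

theorem sub_mem_ker {P : Place Ω F} (hP : Dom A x P) {c d : F} (hc : c ∈ ker A x P)
    (hd : d ∈ ker A x P) : c - d ∈ ker A x P := by
  have h : c - d = c + (-1) * d := by ring
  rw [h]
  exact add_mem_ker hP hc (mul_mem_ker hP (neg_mem (one_mem _)) hd)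

theorem mul_not_mem_ker {P : Place Ω F} (hP : Dom A x P) {c d : F}
    (hc : c ∈ chart A ({x} : Set F)) (hd : d ∈ chart A ({x} : Set F))
    (hc' : c ∉ ker A x P) (hd' : d ∉ ker A x P) : c * d ∉ ker A x P := by
  intro h
  have h2 := h.2
  rw [val_mul P (ord_nonneg_of_mem_chart hP hc) (ord_nonneg_of_mem_chart hP hd)] at h2
  exact Dom_mul_not_mem_nonunits A (val_mem_of_mem_chart hP hc) (val_mem_of_mem_chart hP hd)
    (fun h' => hc' ⟨hc, h'⟩) (fun h' => hd' ⟨hd, h'⟩) h2

theorem one_not_mem_ker (P : Place Ω F) : (1 : F) ∉ ker A x P := by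
  intro h
  have h2 := h.2
  have h1 : val P (1 : F) = 1 := by
    have := val_algebraMap (F := F) P (1 : Ω)
    rwa [map_one] at this
  rw [h1] at h2
  exact Dom_one_not_mem_nonunits A h2

theorem algebraMap_mem_ker (P : Place Ω F) {a : Ω} (ha : a ∈ A.nonunits) :
    algebraMap Ω F a ∈ ker A x P := by
  refine ⟨algebraMap_mem_chart (Dom_mem_of_mem_nonunits A ha), ?_⟩
  rw [val_algebraMap]
  exact ha

open Fermat.Agent.S24.Zeros in
/-- `c - c(P)` lies in the chart ring and `c(P)` is the only constant congruent to `c`. -/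
theorem sub_val_mem_ker {P : Place Ω F} (hP : Dom A x P) {c : F}
    (hc : c ∈ chart A ({x} : Set F)) : c - algebraMap Ω F (val P c) ∈ ker A x P := by
  refine ⟨sub_mem hc (algebraMap_mem_chart (val_mem_of_mem_chart hP hc)), ?_⟩
  have h : c - algebraMap Ω F (val P c) = c + algebraMap Ω F (-val P c) := by
    rw [map_neg, sub_eq_add_neg]
  rw [h, val_add P (ord_nonneg_of_mem_chart hP hc) (le_of_eq (ord_algebraMap P _).symm),
    val_algebraMap, add_neg_cancel]
  exact Dom_zero_mem_nonunits A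

theorem val_ne_zero_of_not_mem_ker {P : Place Ω F} {c : F}
    (hc : c ∈ chart A ({x} : Set F)) (hc' : c ∉ ker A x P) : val P c ≠ 0 := by
  intro h
  exact hc' ⟨hc, by rw [h]; exact Dom_zero_mem_nonunits A⟩

theorem ord_eq_zero_of_not_mem_ker {P : Place Ω F} (hP : Dom A x P) {c : F}
    (hc : c ∈ chart A ({x} : Set F)) (hc' : c ∉ ker A x P) : P.ord c = 0 := by
  have h0 := ord_nonneg_of_mem_chart hP hc
  have h1 := val_ne_zero_of_not_mem_ker hc hc'
  rw [Ne, val_eq_zero_iff P h0, not_or, not_lt] at h1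
  exact le_antisymm h1.2 h0

/-- the chart ring lies in the Gauss ring. -/
theorem mem_of_mem_chart (G : GaussData A 𝒪) (hx : x ∈ 𝒪) {c : F}
    (hc : c ∈ chart A ({x} : Set F)) : c ∈ 𝒪 := by
  have hle : ∀ y ∈ Algebra.adjoin A ({x} : Set F), y ∈ 𝒪 := by
    intro y hy
    induction hy using Algebra.adjoin_induction with
    | mem y hy =>
      rw [Set.mem_singleton_iff] at hy
      subst hy
      exact hx
    | algebraMap a => exact (G.const_mem (a : Ω)).2 a.2
    | add y z _ _ hy hz => exact 𝒪.add_mem _ _ hy hz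
    | mul y z _ _ hy hz => exact 𝒪.mul_mem _ _ hy hz
  let f : ↥(Algebra.adjoin A ({x} : Set F)) →+* ↥𝒪 :=
    RingHom.codRestrict (algebraMap (↥(Algebra.adjoin A ({x} : Set F))) F) 𝒪 (fun a => hle a a.2)
  obtain ⟨p, hpm, hpe⟩ := mem_chart.1 hc
  have hint : IsIntegral ↥𝒪 c := by
    refine ⟨p.map f, hpm.map f, ?_⟩
    rw [Polynomial.eval₂_map]
    exact hpe
  obtain ⟨v, hv⟩ := (IsIntegrallyClosed.isIntegral_iff (R := ↥𝒪) (K := F)).mp hint
  rw [← hv]
  exact v.2

theorem algebraMap_mem_nonunits_iff (G : GaussData A 𝒪) (a : Ω) :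
    algebraMap Ω F a ∈ 𝒪.nonunits ↔ a ∈ A.nonunits := by
  rw [Dom_mem_nonunits_iff, Dom_mem_nonunits_iff, ← map_inv₀, G.const_mem, map_eq_zero]

/-- `𝒞 ∩ 𝔪_𝒪 = 𝔪 𝒞`. -/
theorem exists_eq_mul_of_mem_nonunits (G : GaussData A 𝒪) (hC : RChart A 𝒪 x) {c : F}
    (hc : c ∈ chart A ({x} : Set F)) (hc' : c ∈ 𝒪.nonunits) :
    ∃ a ∈ A.nonunits, ∃ c' ∈ chart A ({x} : Set F), c = algebraMap Ω F a * c' := by
  by_cases h0 : c = 0
  · exact ⟨0, Dom_zero_mem_nonunits A, 0, zero_mem _, by rw [h0, mul_zero]⟩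
  obtain ⟨κ, hκ, hu, hu'⟩ := G.norm c h0
  have hκF : algebraMap Ω F κ ≠ 0 := by rwa [Ne, map_eq_zero]
  refine ⟨κ, ?_, c / algebraMap Ω F κ, hC.sat c hc κ hκ hu, by field_simp⟩
  rw [← algebraMap_mem_nonunits_iff G]
  have e : algebraMap Ω F κ = (c / algebraMap Ω F κ)⁻¹ * c := by field_simp
  rw [e]
  exact Dom_nonunits_mul 𝒪 hu' hc'

/-- every nonzero element of the chart ring is a constant times a primitive one. -/
theorem exists_eq_mul_prim (G : GaussData A 𝒪) (hC : RChart A 𝒪 x) {c : F}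
    (hc : c ∈ chart A ({x} : Set F)) (h0 : c ≠ 0) :
    ∃ a ∈ A, a ≠ 0 ∧ ∃ c' ∈ chart A ({x} : Set F), c' ∉ 𝒪.nonunits ∧
      c = algebraMap Ω F a * c' := by
  obtain ⟨κ, hκ, hu, hu'⟩ := G.norm c h0
  have hκF : algebraMap Ω F κ ≠ 0 := by rwa [Ne, map_eq_zero]
  refine ⟨κ, ?_, hκ, c / algebraMap Ω F κ, hC.sat c hc κ hκ hu, ?_, by field_simp⟩
  · rw [← G.const_mem]
    have e : algebraMap Ω F κ = (c / algebraMap Ω F κ)⁻¹ * c := by field_simp
    rw [e]
    exact 𝒪.mul_mem _ _ hu' (mem_of_mem_chart G hC.mem hc)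
  · rw [Dom_mem_nonunits_iff, not_or, not_not]
    exact ⟨div_ne_zero h0 hκF, hu'⟩

theorem mem_ker_of_mem_nonunits (G : GaussData A 𝒪) (hC : RChart A 𝒪 x) {P : Place Ω F}
    (hP : Dom A x P) {c : F} (hc : c ∈ chart A ({x} : Set F)) (hc' : c ∈ 𝒪.nonunits) :
    c ∈ ker A x P := by
  obtain ⟨a, ha, c', hc'', rfl⟩ := exists_eq_mul_of_mem_nonunits G hC hc hc'
  rw [mul_comm]
  exact mul_mem_ker hP hc'' (algebraMap_mem_ker P ha)

open Fermat.Agent.S24.Zeros in
/-- the reduction of the coordinate is not constant. -/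
theorem RChart.nonconst (G : GaussData A 𝒪) (hC : RChart A 𝒪 x) {a : Ω} (ha : a ∈ A) :
    x - algebraMap Ω F a ∉ 𝒪.nonunits := by
  intro h
  obtain ⟨P, hP0, hPv⟩ := exists_val_eq hC.transc (a + 1)
  have hP : Dom A x P := ⟨hP0, by rw [hPv]; exact A.add_mem _ _ ha A.one_mem⟩
  have hk := mem_ker_of_mem_nonunits G hC hP
    (sub_mem self_mem_chart (algebraMap_mem_chart ha)) h
  have h2 := hk.2
  have e : x - algebraMap Ω F a = x + algebraMap Ω F (-a) := by rw [map_neg, sub_eq_add_neg]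
  rw [e, val_add P hP0 (le_of_eq (ord_algebraMap P _).symm), val_algebraMap, hPv] at h2
  have e2 : a + 1 + -a = 1 := by ring
  rw [e2] at h2
  exact Dom_one_not_mem_nonunits A h2

end Fermat.Agent.GR.S.R
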