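import Mathlib

/-!
# GR-S / M-R: the ideal of nonunits of a valuation subring
-/

set_option autoImplicit false

namespace Fermat.Agent.GR.S.R

variable {F : Type*} [Field F] {V : ValuationSubring F} {a b c : F}

theorem nu_zero : (0 : F) ∈ V.nonunits := by
  rw [ValuationSubring.mem_nonunits_iff, map_zero]
  exact zero_lt_one

theorem nu_add (ha : a ∈ V.nonunits) (hb : b ∈ V.nonunits) : a + b ∈ V.nonunits := by
  rw [ValuationSubring.mem_nonunits_iff] at ha hb ⊢
  exact lt_of_le_of_lt (V.valuation.map_add _ _) (max_lt ha hb)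

theorem nu_neg (ha : a ∈ V.nonunits) : -a ∈ V.nonunits := by
  rw [ValuationSubring.mem_nonunits_iff] at ha ⊢
  rwa [Valuation.map_neg]

theorem nu_sub (ha : a ∈ V.nonunits) (hb : b ∈ V.nonunits) : a - b ∈ V.nonunits := by
  rw [sub_eq_add_neg]
  exact nu_add ha (nu_neg hb)

theorem nu_mul_left (hc : c ∈ V) (ha : a ∈ V.nonunits) : c * a ∈ V.nonunits := by
  rw [ValuationSubring.mem_nonunits_iff] at ha ⊢
  rw [map_mul]
  exact lt_of_le_of_lt (mul_le_of_le_one_left' ((V.valuation_le_one_iff _).2 hc)) ha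

theorem nu_mul_right (ha : a ∈ V.nonunits) (hc : c ∈ V) : a * c ∈ V.nonunits := by
  rw [mul_comm]
  exact nu_mul_left hc ha

theorem nu_mem (ha : a ∈ V.nonunits) : a ∈ V := by
  rw [ValuationSubring.mem_nonunits_iff] at ha
  exact (V.valuation_le_one_iff _).1 ha.le

theorem one_not_nu : (1 : F) ∉ V.nonunits := by
  rw [ValuationSubring.mem_nonunits_iff, map_one]
  exact lt_irrefl _

theorem valuation_eq_one (ha : a ∈ V) (ha' : a ∉ V.nonunits) : V.valuation a = 1 := by
  rw [ValuationSubring.mem_nonunits_iff, not_lt] at ha'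
  exact le_antisymm ((V.valuation_le_one_iff _).2 ha) ha'

/-- the nonunits form a prime ideal. -/
theorem nu_of_mul (ha : a ∈ V) (ha' : a ∉ V.nonunits) (h : a * b ∈ V.nonunits) :
    b ∈ V.nonunits := by
  rw [ValuationSubring.mem_nonunits_iff, map_mul, valuation_eq_one ha ha', one_mul] at h
  rwa [ValuationSubring.mem_nonunits_iff]

theorem not_nu_mul (ha : a ∈ V) (ha' : a ∉ V.nonunits) (hb' : b ∉ V.nonunits) :
    a * b ∉ V.nonunits := fun h => hb' (nu_of_mul ha ha' h)

theorem not_nu_pow (ha : a ∈ V) (ha' : a ∉ V.nonunits) (n : ℕ) : a ^ n ∉ V.nonunits := by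
  induction n with
  | zero => rw [pow_zero]; exact one_not_nu
  | succ n ih => rw [pow_succ']; exact not_nu_mul ha ha' ih

theorem nu_iff : a ∈ V.nonunits ↔ a = 0 ∨ a⁻¹ ∉ V := by
  rw [ValuationSubring.mem_nonunits_iff]
  by_cases h0 : a = 0
  · simp [h0]
  · rw [← V.valuation_le_one_iff, map_inv₀, not_le]
    have hv : V.valuation a ≠ 0 := (Valuation.ne_zero_iff _).2 h0
    constructor
    · intro h
      exact Or.inr ((one_lt_inv₀ (zero_lt_iff.2 hv)).2 h)
    · rintro (h | h)
      · exact absurd h h0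
      · exact (one_lt_inv₀ (zero_lt_iff.2 hv)).1 h

theorem ne_zero_of_not_nu (ha : a ∉ V.nonunits) : a ≠ 0 := by
  rintro rfl
  exact ha nu_zero

theorem inv_mem_of_not_nu (ha : a ∉ V.nonunits) : a⁻¹ ∈ V := by
  by_contra h
  exact ha (nu_iff.2 (Or.inr h))

theorem not_nu_of_inv_mem (h0 : a ≠ 0) (ha : a⁻¹ ∈ V) : a ∉ V.nonunits := by
  intro h
  rcases nu_iff.1 h with h | h
  · exact h0 h
  · exact h ha

theorem not_nu_of_sub (ha : a ∉ V.nonunits) (h : a - b ∈ V.nonunits) : b ∉ V.nonunits := by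
  intro hb
  apply ha
  have := nu_add h hb
  rwa [sub_add_cancel] at this

theorem inv_nu_of_not_mem (ha : a ∉ V) : a⁻¹ ∈ V.nonunits := by
  rw [nu_iff, inv_inv]
  exact Or.inr ha

end Fermat.Agent.GR.S.R
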