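import Fermat.Agent.GR.S.R.Dom
import Fermat.Agent.GR.S.R.NU

/-!
# GR-S / M-R: a function vanishing at a point of the special fibre has a zero reducing to it
-/

set_option autoImplicit false
set_option linter.unusedSectionVars false

noncomputable section

namespace Fermat.Agent.GR.S.R

open AlgebraicCurve Fermat.Agent.GR.E Fermat.Agent.S17.FF

variable {Ω F : Type} [Field Ω] [IsAlgClosed Ω] [CharZero Ω] [Field F] [Algebra Ω F] [IsFF Ω F]
variable {A : ValuationSubring Ω} {𝒪 : ValuationSubring F}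

variable {x : F}

/-- the multiplicative set `{σ a | σ ∉ 𝔫, a ∈ A \ 0}`. -/
def EZ_monoid (𝔫 : Ideal (chart A ({x} : Set F))) (h𝔫 : 𝔫.IsPrime) :
    Submonoid (chart A ({x} : Set F)) where
  carrier := {c | ∃ σ : chart A ({x} : Set F), σ ∉ 𝔫 ∧ ∃ a : Ω, a ∈ A ∧ a ≠ 0 ∧
    (c : F) = (σ : F) * algebraMap Ω F a}
  one_mem' := ⟨1, fun h => h𝔫.ne_top ((Ideal.eq_top_iff_one _).2 h), 1, A.one_mem, one_ne_zero,
    by simp⟩
  mul_mem' := by
    rintro c c' ⟨σ, hσ, a, ha, ha0, hc⟩ ⟨σ', hσ', a', ha', ha0', hc'⟩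
    refine ⟨σ * σ', fun h => (h𝔫.mem_or_mem h).elim hσ hσ', a * a', A.mul_mem _ _ ha ha',
      mul_ne_zero ha0 ha0', ?_⟩
    rw [Subalgebra.coe_mul, Subalgebra.coe_mul, hc, hc', map_mul]
    ring

/-- a prime `𝔮 ≤ 𝔫` containing `y` and meeting `A` trivially. -/
theorem EZ_exists_prime (G : GaussData A 𝒪) (hC : RChart A 𝒪 x)
    (𝔫 : Ideal (chart A ({x} : Set F))) (h𝔫 : 𝔫.IsPrime)
    (hle : ∀ c : chart A ({x} : Set F), (c : F) ∈ 𝒪.nonunits → c ∈ 𝔫)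
    (y : chart A ({x} : Set F)) (hy : y ∈ 𝔫) (hy' : (y : F) ∉ 𝒪.nonunits) :
    ∃ 𝔮 : Ideal (chart A ({x} : Set F)), 𝔮.IsPrime ∧ y ∈ 𝔮 ∧ 𝔮 ≤ 𝔫 ∧
      ∀ (a : Ω) (ha : a ∈ A), a ≠ 0 →
        (⟨algebraMap Ω F a, algebraMap_mem_chart ha⟩ : chart A ({x} : Set F)) ∉ 𝔮 := by
  have hO : ∀ c : chart A ({x} : Set F), (c : F) ∈ 𝒪 := fun c => mem_of_mem_chart G hC.mem c.2
  have hdisj : Disjoint ((Ideal.span {y} : Ideal (chart A ({x} : Set F))) : Set _)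
      (EZ_monoid 𝔫 h𝔫 : Set (chart A ({x} : Set F))) := by
    rw [Set.disjoint_left]
    rintro c₀ hc₀ ⟨σ, hσ, a, ha, ha0, hc⟩
    obtain ⟨c, rfl⟩ := Ideal.mem_span_singleton'.1 hc₀
    have hσnu : (σ : F) ∉ 𝒪.nonunits := fun h => hσ (hle σ h)
    have hσ0 : (σ : F) ≠ 0 := ne_zero_of_not_nu hσnu
    have ha0' : algebraMap Ω F a ≠ 0 := by simpa using ha0
    have hc0 : (c : F) ≠ 0 := by
      intro h
      have : ((c * y : chart A ({x} : Set F)) : F) = 0 := by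
        rw [Subalgebra.coe_mul, h, zero_mul]
      rw [hc] at this
      exact (mul_ne_zero hσ0 ha0') this
    obtain ⟨κ, hκ, hκ0, c', hc', hc'nu, hcc'⟩ := exists_eq_mul_prim G hC c.2 hc0
    have hκ0' : algebraMap Ω F κ ≠ 0 := by simpa using hκ0
    have heq : (σ : F) * algebraMap Ω F a = algebraMap Ω F κ * c' * (y : F) := by
      rw [← hc, ← hcc', Subalgebra.coe_mul]
    have hv : 𝒪.valuation (algebraMap Ω F a) = 𝒪.valuation (algebraMap Ω F κ) := by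
      have := congrArg 𝒪.valuation heq
      rw [map_mul, map_mul, map_mul, valuation_eq_one (hO σ) hσnu,
        valuation_eq_one (mem_of_mem_chart G hC.mem hc') hc'nu,
        valuation_eq_one (hO y) hy', one_mul, mul_one, mul_one] at this
      exact this
    have hmem : κ / a ∈ A := by
      rw [← G.const_mem, ← 𝒪.valuation_le_one_iff, map_div₀, map_div₀, hv,
        div_self ((Valuation.ne_zero_iff _).2 hκ0')]
    apply hσ
    have : σ = (⟨algebraMap Ω F (κ / a), algebraMap_mem_chart hmem⟩ *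
        ⟨c', hc'⟩ : chart A ({x} : Set F)) * y := by
      apply Subtype.ext
      rw [Subalgebra.coe_mul, Subalgebra.coe_mul]
      change (σ : F) = algebraMap Ω F (κ / a) * c' * (y : F)
      rw [map_div₀, eq_comm, div_mul_eq_mul_div, div_mul_eq_mul_div, div_eq_iff ha0', heq]
    rw [this]
    exact 𝔫.mul_mem_left _ hy
  obtain ⟨𝔮, h𝔮, hle𝔮, hd⟩ := Ideal.exists_le_prime_disjoint _ _ hdisj
  rw [Set.disjoint_left] at hd
  refine ⟨𝔮, h𝔮, hle𝔮 (Ideal.mem_span_singleton_self y), fun c hc => ?_, fun a ha ha0 hmem => ?_⟩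
  · by_contra hcn
    exact hd hc ⟨c, hcn, 1, A.one_mem, one_ne_zero, by simp⟩
  · exact hd hmem ⟨1, fun h => h𝔫.ne_top ((Ideal.eq_top_iff_one _).2 h), a, ha, ha0, by simp⟩

/-- membership in an ideal of the chart ring, for elements of `F`. -/
def EZ_InQ (𝔮 : Ideal (chart A ({x} : Set F))) (g : F) : Prop :=
  ∃ h : g ∈ chart A ({x} : Set F), (⟨g, h⟩ : chart A ({x} : Set F)) ∈ 𝔮

theorem EZ_inq_add {𝔮 : Ideal (chart A ({x} : Set F))} {g g' : F} (hg : EZ_InQ 𝔮 g)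
    (hg' : EZ_InQ 𝔮 g') : EZ_InQ 𝔮 (g + g') := by
  obtain ⟨h, hm⟩ := hg
  obtain ⟨h', hm'⟩ := hg'
  exact ⟨Subalgebra.add_mem _ h h', 𝔮.add_mem hm hm'⟩

theorem EZ_inq_mul {𝔮 : Ideal (chart A ({x} : Set F))} {c g : F}
    (hc : c ∈ chart A ({x} : Set F)) (hg : EZ_InQ 𝔮 g) : EZ_InQ 𝔮 (c * g) := by
  obtain ⟨h, hm⟩ := hg
  exact ⟨Subalgebra.mul_mem _ hc h, 𝔮.mul_mem_left ⟨c, hc⟩ hm⟩

theorem EZ_inq_prime {𝔮 : Ideal (chart A ({x} : Set F))} (h𝔮 : 𝔮.IsPrime) {c d : F}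
    (hc : c ∈ chart A ({x} : Set F)) (hd : d ∈ chart A ({x} : Set F))
    (h : EZ_InQ 𝔮 (c * d)) : EZ_InQ 𝔮 c ∨ EZ_InQ 𝔮 d := by
  obtain ⟨_, hm⟩ := h
  have : (⟨c, hc⟩ * ⟨d, hd⟩ : chart A ({x} : Set F)) ∈ 𝔮 := hm
  exact (h𝔮.mem_or_mem this).imp (fun h => ⟨hc, h⟩) (fun h => ⟨hd, h⟩)

/-- the extension of `𝔮` to the integral closure of `Ω[x]`. -/
def EZ_ext (𝔮 : Ideal (chart A ({x} : Set F))) :
    Ideal (Fermat.Agent.S24.Zeros.intClosure Ω x) where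
  carrier := {f | ∃ a : Ω, a ∈ A ∧ a ≠ 0 ∧ EZ_InQ 𝔮 (algebraMap Ω F a * (f : F))}
  add_mem' := by
    rintro f₁ f₂ ⟨a₁, h₁, h₁0, hq₁⟩ ⟨a₂, h₂, h₂0, hq₂⟩
    refine ⟨a₁ * a₂, A.mul_mem _ _ h₁ h₂, mul_ne_zero h₁0 h₂0, ?_⟩
    have : algebraMap Ω F (a₁ * a₂) * ((f₁ + f₂ : Fermat.Agent.S24.Zeros.intClosure Ω x) : F) =
        algebraMap Ω F a₂ * (algebraMap Ω F a₁ * (f₁ : F)) +
          algebraMap Ω F a₁ * (algebraMap Ω F a₂ * (f₂ : F)) := by
      rw [map_mul, Subalgebra.coe_add]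
      ring
    rw [this]
    exact EZ_inq_add (EZ_inq_mul (algebraMap_mem_chart h₂) hq₁)
      (EZ_inq_mul (algebraMap_mem_chart h₁) hq₂)
  zero_mem' := ⟨1, A.one_mem, one_ne_zero, by
    have : algebraMap Ω F 1 * ((0 : Fermat.Agent.S24.Zeros.intClosure Ω x) : F) = 0 := by simp
    rw [this]
    exact ⟨Subalgebra.zero_mem _, 𝔮.zero_mem⟩⟩
  smul_mem' := by
    rintro b f ⟨a, h, h0, hq⟩
    obtain ⟨a', h', h0', hb⟩ := exists_smul_mem_chart (A := A) (x := x) (f := (b : F)) b.2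
    refine ⟨a' * a, A.mul_mem _ _ h' h, mul_ne_zero h0' h0, ?_⟩
    have : algebraMap Ω F (a' * a) * ((b • f : Fermat.Agent.S24.Zeros.intClosure Ω x) : F) =
        (algebraMap Ω F a' * (b : F)) * (algebraMap Ω F a * (f : F)) := by
      rw [map_mul, smul_eq_mul, Subalgebra.coe_mul]
      ring
    rw [this]
    exact EZ_inq_mul hb hq

theorem EZ_mem_ext {𝔮 : Ideal (chart A ({x} : Set F))}
    {f : Fermat.Agent.S24.Zeros.intClosure Ω x} :
    f ∈ EZ_ext 𝔮 ↔ ∃ a : Ω, a ∈ A ∧ a ≠ 0 ∧ EZ_InQ 𝔮 (algebraMap Ω F a * (f : F)) := Iff.rfl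

theorem EZ_ext_isPrime {𝔮 : Ideal (chart A ({x} : Set F))} (h𝔮 : 𝔮.IsPrime)
    (hA : ∀ a : Ω, a ∈ A → a ≠ 0 → ¬ EZ_InQ 𝔮 (algebraMap Ω F a)) : (EZ_ext 𝔮).IsPrime := by
  refine ⟨fun htop => ?_, fun {f g} hfg => ?_⟩
  · have h1 : (1 : Fermat.Agent.S24.Zeros.intClosure Ω x) ∈ EZ_ext 𝔮 := by
      rw [htop]; exact Submodule.mem_top
    obtain ⟨a, ha, ha0, hq⟩ := EZ_mem_ext.1 h1
    rw [Subalgebra.coe_one, mul_one] at hq
    exact hA a ha ha0 hq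
  · obtain ⟨a, ha, ha0, hq⟩ := EZ_mem_ext.1 hfg
    obtain ⟨a₁, h₁, h₁0, hf⟩ := exists_smul_mem_chart (A := A) (x := x) (f := (f : F)) f.2
    obtain ⟨a₂, h₂, h₂0, hg⟩ := exists_smul_mem_chart (A := A) (x := x) (f := (g : F)) g.2
    have h1 : EZ_InQ 𝔮 (algebraMap Ω F a *
        ((algebraMap Ω F a₁ * (f : F)) * (algebraMap Ω F a₂ * (g : F)))) := by
      have : algebraMap Ω F a * ((algebraMap Ω F a₁ * (f : F)) * (algebraMap Ω F a₂ * (g : F))) =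
          (algebraMap Ω F a₁ * algebraMap Ω F a₂) *
            (algebraMap Ω F a * ((f * g : Fermat.Agent.S24.Zeros.intClosure Ω x) : F)) := by
        rw [Subalgebra.coe_mul]
        ring
      rw [this]
      exact EZ_inq_mul (Subalgebra.mul_mem _ (algebraMap_mem_chart h₁) (algebraMap_mem_chart h₂)) hq
    rcases EZ_inq_prime h𝔮 (algebraMap_mem_chart ha) (Subalgebra.mul_mem _ hf hg) h1 with h | h
    · exact absurd h (hA a ha ha0)
    · rcases EZ_inq_prime h𝔮 hf hg h with h | h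
      · exact Or.inl ⟨a₁, h₁, h₁0, h⟩
      · exact Or.inr ⟨a₂, h₂, h₂0, h⟩

/-- (EZ) -/
theorem exists_zero_of_mem (G : GaussData A 𝒪) (hC : RChart A 𝒪 x)
    (𝔫 : Ideal (chart A ({x} : Set F))) (h𝔫 : 𝔫.IsMaximal)
    (hle : ∀ c : chart A ({x} : Set F), (c : F) ∈ 𝒪.nonunits → c ∈ 𝔫)
    (y : chart A ({x} : Set F)) (hy : y ∈ 𝔫) (hy' : (y : F) ∉ 𝒪.nonunits) :
    ∃ P : Place Ω F, Dom A x P ∧
      (∀ c : chart A ({x} : Set F), c ∈ 𝔫 ↔ val P (c : F) ∈ A.nonunits) ∧ val P (y : F) = 0 := by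
  obtain ⟨𝔮, h𝔮, hy𝔮, h𝔮𝔫, hA𝔮⟩ := EZ_exists_prime G hC 𝔫 h𝔫.isPrime hle y hy hy'
  have hA : ∀ a : Ω, a ∈ A → a ≠ 0 → ¬ EZ_InQ 𝔮 (algebraMap Ω F a) := by
    rintro a ha ha0 ⟨_, hm⟩
    exact hA𝔮 a ha ha0 hm
  have hprime := EZ_ext_isPrime h𝔮 hA
  have hyB : (y : F) ∈ Fermat.Agent.S24.Zeros.intClosure Ω x := mem_chartAlg_of_mem_chart y.2
  have hne : EZ_ext 𝔮 ≠ ⊥ := by
    intro hbot
    have hmem : (⟨(y : F), hyB⟩ : Fermat.Agent.S24.Zeros.intClosure Ω x) ∈ EZ_ext 𝔮 :=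
      ⟨1, A.one_mem, one_ne_zero, by rw [map_one, one_mul]; exact ⟨y.2, hy𝔮⟩⟩
    rw [hbot, Ideal.mem_bot] at hmem
    exact ne_zero_of_not_nu hy' (congrArg Subtype.val hmem)
  obtain ⟨P, hPx, hP⟩ := Fermat.Agent.S24.Zeros.exists_place_of_isPrime hC.transc
    (finiteDimensional_adjoin hC.transc) _ hprime hne
  have hord : ∀ c ∈ chart A ({x} : Set F), 0 ≤ P.ord c := fun c hc =>
    ord_nonneg_of_mem_chartAlg hPx (mem_chartAlg_of_mem_chart hc)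
  -- vanishing at `P` is membership in `𝔮`
  have hzero : ∀ c : F, c ∈ chart A ({x} : Set F) → (val P c = 0 ↔ EZ_InQ 𝔮 c) := by
    intro c hc
    have hcB : c ∈ Fermat.Agent.S24.Zeros.intClosure Ω x := mem_chartAlg_of_mem_chart hc
    have h1 := Fermat.Agent.S24.Zeros.mem_primeOfPlace P hPx ⟨c, hcB⟩
    rw [hP] at h1
    have h2 : ((⟨c, hcB⟩ : Fermat.Agent.S24.Zeros.intClosure Ω x) = 0) ↔ c = 0 := by
      rw [← Subtype.coe_inj]
      rfl
    rw [h2] at h1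
    rw [val_eq_zero_iff P (hord c hc), ← h1, EZ_mem_ext]
    constructor
    · rintro ⟨a, ha, ha0, hq⟩
      rcases EZ_inq_prime h𝔮 (algebraMap_mem_chart ha) hc hq with h | h
      · exact absurd h (hA a ha ha0)
      · exact h
    · intro h
      exact ⟨1, A.one_mem, one_ne_zero, by rw [map_one, one_mul]; exact h⟩
  have hlin : ∀ c ∈ chart A ({x} : Set F), ∀ β γ : Ω,
      val P (algebraMap Ω F β * c + algebraMap Ω F γ) = β * val P c + γ := by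
    intro c hc β γ
    have h0 : ∀ δ : Ω, 0 ≤ P.ord (algebraMap Ω F δ) := fun δ => by
      rw [Fermat.Agent.S24.Zeros.ord_algebraMap]
    have h1 : 0 ≤ P.ord (algebraMap Ω F β * c) := by
      by_cases hβ : algebraMap Ω F β = 0
      · rw [hβ, zero_mul, Place.ord_zero]
      by_cases hc0 : c = 0
      · rw [hc0, mul_zero, Place.ord_zero]
      rw [P.ord_mul hβ hc0]
      exact add_nonneg (h0 β) (hord c hc)
    rw [val_add P h1 (h0 γ), val_mul P (h0 β) (hord c hc), val_algebraMap, val_algebraMap]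
  have hone : (1 : chart A ({x} : Set F)) ∉ 𝔫 := fun h =>
    h𝔫.ne_top ((Ideal.eq_top_iff_one _).2 h)
  have hm𝔫 : ∀ (β : Ω) (hβ : β ∈ A.nonunits),
      (⟨algebraMap Ω F β, algebraMap_mem_chart (A.nonunits_subset hβ)⟩ :
        chart A ({x} : Set F)) ∈ 𝔫 := fun β hβ =>
    hle _ ((algebraMap_mem_nonunits_iff G β).2 hβ)
  -- if `β c(P) = 1` with `β ∈ A` then `β c ∉ 𝔫`
  have hkey : ∀ (c : chart A ({x} : Set F)) (β : Ω) (hβ : β ∈ A), β * val P (c : F) = 1 →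
      (⟨algebraMap Ω F β, algebraMap_mem_chart hβ⟩ * c : chart A ({x} : Set F)) ∉ 𝔫 := by
    intro c β hβ h1 hmem
    have he : algebraMap Ω F β * (c : F) + algebraMap Ω F (-1) ∈ chart A ({x} : Set F) :=
      Subalgebra.add_mem _ (Subalgebra.mul_mem _ (algebraMap_mem_chart hβ) c.2)
        (algebraMap_mem_chart (A.neg_mem _ A.one_mem))
    have hv : val P (algebraMap Ω F β * (c : F) + algebraMap Ω F (-1)) = 0 := by
      rw [hlin _ c.2, h1]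
      ring
    obtain ⟨_, hq⟩ := (hzero _ he).1 hv
    have h2 := 𝔫.sub_mem hmem (h𝔮𝔫 hq)
    apply hone
    convert h2 using 1
    apply Subtype.ext
    rw [Subalgebra.coe_sub, Subalgebra.coe_mul, Subalgebra.coe_one]
    change (1 : F) = algebraMap Ω F β * (c : F) - (algebraMap Ω F β * (c : F) + algebraMap Ω F (-1))
    rw [map_neg, map_one]
    ring
  have hvalA : ∀ c : chart A ({x} : Set F), val P (c : F) ∈ A := by
    intro c
    by_contra hb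
    have hb0 : val P (c : F) ≠ 0 := fun h => hb (h ▸ A.zero_mem)
    have hinv := inv_nu_of_not_mem hb
    exact hkey c _ (A.nonunits_subset hinv) (inv_mul_cancel₀ hb0) (𝔫.mul_mem_right _ (hm𝔫 _ hinv))
  refine ⟨P, ⟨hPx, hvalA ⟨x, self_mem_chart⟩⟩, fun c => ⟨fun hc => ?_, fun hc => ?_⟩,
    (hzero _ y.2).2 ⟨y.2, hy𝔮⟩⟩
  · by_contra hb
    have hb0 : val P (c : F) ≠ 0 := fun h => hb (h ▸ nu_zero)
    exact hkey c _ (inv_mem_of_not_nu hb) (inv_mul_cancel₀ hb0) (𝔫.mul_mem_left _ hc)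
  · have he : algebraMap Ω F 1 * (c : F) + algebraMap Ω F (-val P (c : F)) ∈
        chart A ({x} : Set F) :=
      Subalgebra.add_mem _ (Subalgebra.mul_mem _ (algebraMap_mem_chart A.one_mem) c.2)
        (algebraMap_mem_chart (A.neg_mem _ (hvalA c)))
    have hv : val P (algebraMap Ω F 1 * (c : F) + algebraMap Ω F (-val P (c : F))) = 0 := by
      rw [hlin _ c.2]
      ring
    obtain ⟨_, hq⟩ := (hzero _ he).1 hv
    have h2 := 𝔫.add_mem (h𝔮𝔫 hq) (hm𝔫 _ hc)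
    convert h2 using 1
    apply Subtype.ext
    rw [Subalgebra.coe_add]
    change (c : F) = algebraMap Ω F 1 * (c : F) + algebraMap Ω F (-val P (c : F)) +
      algebraMap Ω F (val P (c : F))
    rw [map_neg, map_one]
    ring

end Fermat.Agent.GR.S.R
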