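import Fermat.Agent.GR.S.R.EZ

/-!
# GR-S / M-R: consequences of (EZ)
-/

set_option autoImplicit false

noncomputable section

namespace Fermat.Agent.GR.S.R

open AlgebraicCurve Fermat.Agent.GR.E Fermat.Agent.S17.FF

variable {Ω F : Type} [Field Ω] [IsAlgClosed Ω] [CharZero Ω] [Field F] [Algebra Ω F] [IsFF Ω F]
variable {A : ValuationSubring Ω} {𝒪 : ValuationSubring F}

variable {x : F}

omit [IsAlgClosed Ω] [CharZero Ω] in
theorem EZ2_inv_mem {a : Ω} (ha : a ∉ A.nonunits) : a⁻¹ ∈ A := by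
  rw [ValuationSubring.mem_nonunits_iff, not_lt] at ha
  rw [← A.valuation_le_one_iff, map_inv₀]
  exact inv_le_one_of_one_le₀ ha

omit [IsAlgClosed Ω] [CharZero Ω] in
theorem EZ2_zero_mem_nonunits : (0 : Ω) ∈ A.nonunits := by
  rw [ValuationSubring.mem_nonunits_iff, map_zero]
  exact zero_lt_one

/-- the ideal `ker P₀` of the chart ring. -/
def EZ2_kerIdeal {P₀ : Place Ω F} (hP₀ : Dom A x P₀) : Ideal (chart A ({x} : Set F)) where
  carrier := {c | (c : F) ∈ ker A x P₀}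
  add_mem' := fun ha hb => add_mem_ker hP₀ ha hb
  zero_mem' := by
    have := algebraMap_mem_ker (x := x) (F := F) P₀ (EZ2_zero_mem_nonunits (A := A))
    rw [map_zero] at this
    exact this
  smul_mem' := fun c _ hd => mul_mem_ker hP₀ c.2 hd

theorem EZ2_mem_kerIdeal {P₀ : Place Ω F} (hP₀ : Dom A x P₀) (c : chart A ({x} : Set F)) :
    c ∈ EZ2_kerIdeal hP₀ ↔ (c : F) ∈ ker A x P₀ := Iff.rfl

theorem EZ2_kerIdeal_isMaximal {P₀ : Place Ω F} (hP₀ : Dom A x P₀) :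
    (EZ2_kerIdeal hP₀).IsMaximal := by
  refine Ideal.isMaximal_iff.2 ⟨fun h => one_not_mem_ker (A := A) (x := x) P₀ h,
    fun J c hle hc hcJ => ?_⟩
  have hc' : (c : F) ∉ ker A x P₀ := hc
  have hv0 : val P₀ (c : F) ≠ 0 := val_ne_zero_of_not_mem_ker c.2 hc'
  have hvn : val P₀ (c : F) ∉ A.nonunits := fun h => hc' ⟨c.2, h⟩
  have hb : (val P₀ (c : F))⁻¹ ∈ A := EZ2_inv_mem hvn
  set b := (val P₀ (c : F))⁻¹ with hbdef
  have hbC : algebraMap Ω F b ∈ chart A ({x} : Set F) := algebraMap_mem_chart hb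
  have hd : algebraMap Ω F b * (c : F) ∈ chart A ({x} : Set F) :=
    (chart A ({x} : Set F)).mul_mem hbC c.2
  have hval : val P₀ (algebraMap Ω F b * (c : F)) = 1 := by
    rw [val_mul P₀ (ord_nonneg_of_mem_chart hP₀ hbC) (ord_nonneg_of_mem_chart hP₀ c.2), val_algebraMap,
      hbdef, inv_mul_cancel₀ hv0]
  have h1 := sub_val_mem_ker hP₀ hd
  rw [hval, map_one] at h1
  have h2 : ((⟨algebraMap Ω F b, hbC⟩ : chart A ({x} : Set F)) * c - 1) ∈ J := hle h1
  have h3 : (⟨algebraMap Ω F b, hbC⟩ : chart A ({x} : Set F)) * c ∈ J := J.mul_mem_left _ hcJ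
  have := J.sub_mem h3 h2
  rwa [sub_sub_cancel] at this

/-- (EZ) for the class of a place. -/
theorem exists_zero_of_mem_ker (G : GaussData A 𝒪) (hC : RChart A 𝒪 x) {P₀ : Place Ω F}
    (hP₀ : Dom A x P₀) {y : F} (hy : y ∈ ker A x P₀) (hy' : y ∉ 𝒪.nonunits) :
    ∃ P : Place Ω F, Dom A x P ∧ ker A x P = ker A x P₀ ∧ val P y = 0 := by
  obtain ⟨P, hP, hiff, h0⟩ := exists_zero_of_mem G hC (EZ2_kerIdeal hP₀)
    (EZ2_kerIdeal_isMaximal hP₀) (fun c hc => mem_ker_of_mem_nonunits G hC hP₀ c.2 hc)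
    ⟨y, hy.1⟩ hy hy'
  refine ⟨P, hP, ?_, h0⟩
  ext c
  constructor
  · rintro ⟨hc, hv⟩
    exact (hiff ⟨c, hc⟩).2 hv
  · intro hc
    exact ⟨hc.1, (hiff ⟨c, hc.1⟩).1 hc⟩

omit [CharZero Ω] in
open Polynomial in
/-- the residue field of a valuation subring of an algebraically closed field is algebraically
closed. -/
theorem EZ2_isAlgClosed (k : Type) [Field k] (π : A →+* k) (hπ : Function.Surjective π) :
    IsAlgClosed k := by
  refine IsAlgClosed.of_exists_root k fun p hp hirr => ?_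
  obtain ⟨q, hq, hdeg, hmon⟩ := lifts_and_natDegree_eq_and_monic
    ((mem_lifts p).2 (map_surjective π hπ p)) hp
  have hd : (q.map (algebraMap A Ω)).degree ≠ 0 := by
    rw [hmon.degree_map, degree_eq_natDegree hmon.ne_zero, hdeg]
    exact_mod_cast hirr.natDegree_pos.ne'
  obtain ⟨a, ha⟩ := IsAlgClosed.exists_root _ hd
  have hint : IsIntegral A a := ⟨q, hmon, by rwa [IsRoot.def, eval_map] at ha⟩
  obtain ⟨a', rfl⟩ := IsIntegrallyClosed.isIntegral_iff.1 hint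
  refine ⟨π a', ?_⟩
  rw [IsRoot.def, eval_map, eval₂_at_apply, map_eq_zero_iff _ (FaithfulSMul.algebraMap_injective A Ω)] at ha
  rw [← hq, eval_map, eval₂_at_apply, ha, map_zero]

open Polynomial in
/-- the chart ring is integral over `A[X]`. -/
theorem EZ2_aeval_isIntegral :
    ((aeval (⟨x, self_mem_chart⟩ : chart A ({x} : Set F)) :
      (A : Type)[X] →ₐ[A] chart A ({x} : Set F)) : (A : Type)[X] →+* chart A ({x} : Set F)).IsIntegral := by
  intro c
  obtain ⟨p, hp, hpc⟩ := (mem_chart.1 c.2 : IsIntegral (Algebra.adjoin A ({x} : Set F)) (c : F))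
  set g : (A : Type)[X] →ₐ[A] Algebra.adjoin A ({x} : Set F) :=
    aeval ⟨x, Algebra.subset_adjoin rfl⟩ with hgdef
  have hgc : ∀ q : (A : Type)[X], ((g q : Algebra.adjoin A ({x} : Set F)) : F) = aeval x q :=
    fun q => (Subalgebra.aeval_coe _ _ q).symm
  have hg : Function.Surjective (g : (A : Type)[X] →+* Algebra.adjoin A ({x} : Set F)) := by
    intro b
    have hb : (b : F) ∈ (aeval x : (A : Type)[X] →ₐ[A] F).range := by
      rw [← Algebra.adjoin_singleton_eq_range_aeval]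
      exact b.2
    obtain ⟨q, hq⟩ := hb
    refine ⟨q, Subtype.ext ?_⟩
    rw [← hq]
    exact hgc q
  obtain ⟨P, hP, -, hPm⟩ := lifts_and_natDegree_eq_and_monic
    ((mem_lifts p).2 (map_surjective _ hg p)) hp
  refine ⟨P, hPm, Subtype.ext ?_⟩
  have h1 := hom_eval₂ P ((aeval (⟨x, self_mem_chart⟩ : chart A ({x} : Set F)) :
      (A : Type)[X] →ₐ[A] chart A ({x} : Set F)) : (A : Type)[X] →+* chart A ({x} : Set F))
      ((chart A ({x} : Set F)).val : chart A ({x} : Set F) →+* F) c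
  rw [← hP, eval₂_map] at hpc
  have h2 : (((chart A ({x} : Set F)).val : chart A ({x} : Set F) →+* F).comp
      ((aeval (⟨x, self_mem_chart⟩ : chart A ({x} : Set F)) :
      (A : Type)[X] →ₐ[A] chart A ({x} : Set F)) : (A : Type)[X] →+* chart A ({x} : Set F))) =
      (algebraMap (Algebra.adjoin A ({x} : Set F)) F).comp
        (g : (A : Type)[X] →+* Algebra.adjoin A ({x} : Set F)) := by
    refine RingHom.ext fun q => ?_
    exact (Subalgebra.aeval_coe _ _ q).symm.trans (hgc q).symm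
  rw [h2] at h1
  exact h1.trans hpc

open Polynomial in
/-- a maximal ideal of the chart ring containing `𝒞 ∩ 𝔐` contains some `x - a`. -/
theorem EZ2_exists_sub_mem (G : GaussData A 𝒪)
    (𝔫 : Ideal (chart A ({x} : Set F))) (h𝔫 : 𝔫.IsMaximal)
    (hle : ∀ c : chart A ({x} : Set F), (c : F) ∈ 𝒪.nonunits → c ∈ 𝔫) :
    ∃ a : A, (⟨x, self_mem_chart⟩ : chart A ({x} : Set F)) -
      algebraMap A (chart A ({x} : Set F)) a ∈ 𝔫 := by
  classical
  set xC : chart A ({x} : Set F) := ⟨x, self_mem_chart⟩ with hxC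
  set f : (A : Type)[X] →+* chart A ({x} : Set F) :=
    ((aeval xC : (A : Type)[X] →ₐ[A] chart A ({x} : Set F)) :
      (A : Type)[X] →+* chart A ({x} : Set F)) with hf
  have hfint : f.IsIntegral := EZ2_aeval_isIntegral
  set 𝔫₁ : Ideal (A : Type)[X] := 𝔫.comap f with h𝔫₁def
  have h𝔫₁ : 𝔫₁.IsMaximal := Ideal.isMaximal_comap_of_isIntegral_of_isMaximal' f hfint 𝔫
  have hlo : 𝔫₁.LiesOver (IsLocalRing.maximalIdeal A) := by
    refine ⟨(IsLocalRing.maximalIdeal.isMaximal A).eq_of_le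
      (Ideal.IsPrime.under A 𝔫₁).ne_top fun a ha => ?_⟩
    have ha' : (a : Ω) ∈ A.nonunits :=
      ValuationSubring.mem_nonunits_iff_exists_mem_maximalIdeal.2 ⟨a.2, ha⟩
    have h1 : algebraMap A (chart A ({x} : Set F)) a ∈ 𝔫 :=
      hle _ ((algebraMap_mem_nonunits_iff G (a : Ω)).2 ha')
    change f (C a) ∈ 𝔫
    simpa [hf] using h1
  let : Field (A ⧸ IsLocalRing.maximalIdeal A) := Ideal.Quotient.field _
  let : Field ((A : Type)[X] ⧸ 𝔫₁) := Ideal.Quotient.field _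
  have : IsAlgClosed (A ⧸ IsLocalRing.maximalIdeal A) :=
    EZ2_isAlgClosed _ (Ideal.Quotient.mk _) Ideal.Quotient.mk_surjective
  have : Algebra.FiniteType (A ⧸ IsLocalRing.maximalIdeal A) ((A : Type)[X] ⧸ 𝔫₁) :=
    Algebra.FiniteType.of_restrictScalars_finiteType A _ _
  have : Module.Finite (A ⧸ IsLocalRing.maximalIdeal A) ((A : Type)[X] ⧸ 𝔫₁) :=
    finite_of_finite_type_of_isJacobsonRing _ _
  obtain ⟨a', ha'⟩ := (IsAlgClosed.algebraMap_bijective_of_isIntegral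
    (k := A ⧸ IsLocalRing.maximalIdeal A) (K := (A : Type)[X] ⧸ 𝔫₁)).2 (Ideal.Quotient.mk 𝔫₁ X)
  obtain ⟨a, rfl⟩ := Ideal.Quotient.mk_surjective a'
  have hmem : (X - C a : (A : Type)[X]) ∈ 𝔫₁ := by
    rw [← Ideal.Quotient.eq_zero_iff_mem, map_sub, ← ha', sub_eq_zero]
    rfl
  have : f (X - C a) ∈ 𝔫 := hmem
  exact ⟨a, by simpa [hf] using this⟩

/-- (SURJ) every closed point of the special fibre of the chart is the reduction of a place. -/
theorem exists_place_of_isMaximal (G : GaussData A 𝒪) (hC : RChart A 𝒪 x)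
    (𝔫 : Ideal (chart A ({x} : Set F))) (h𝔫 : 𝔫.IsMaximal)
    (hle : ∀ c : chart A ({x} : Set F), (c : F) ∈ 𝒪.nonunits → c ∈ 𝔫) :
    ∃ P : Place Ω F, Dom A x P ∧
      ∀ c : chart A ({x} : Set F), c ∈ 𝔫 ↔ val P (c : F) ∈ A.nonunits := by
  obtain ⟨a, hy⟩ := EZ2_exists_sub_mem G 𝔫 h𝔫 hle
  obtain ⟨P, hP, hiff, -⟩ := exists_zero_of_mem G hC 𝔫 h𝔫 hle _ hy (hC.nonconst G a.2)
  exact ⟨P, hP, hiff⟩

end Fermat.Agent.GR.S.R
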