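import Fermat.Agent.GR.S.R.LDefs
import Fermat.Agent.GR.F.Normalize
import Fermat.Agent.GR.F.Red

/-!
# GR-S / M-R: the Gauss valuation subring of `FF Q̄ N'`
-/

set_option autoImplicit false
set_option synthInstance.maxHeartbeats 400000

noncomputable section

namespace Fermat.Agent.GR.S.R

open AlgebraicCurve ModularCurve Fermat.Agent.GR Fermat.Agent.GR.E Fermat.Agent.S17.FF

section aux

variable {Ω : Type*} [Field Ω] (A : ValuationSubring Ω)

theorem Gauss_isPrim_one : IsPrim A (1 : LaurentSeries Ω) := by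
  refine (isPrim_iff A).2 ⟨1, map_one _, ?_⟩
  rw [map_one]
  exact one_ne_zero

theorem Gauss_isPrim_mul {f g : LaurentSeries Ω} (hf : IsPrim A f) (hg : IsPrim A g) :
    IsPrim A (f * g) := by
  obtain ⟨f', rfl, hf'⟩ := (isPrim_iff A).1 hf
  obtain ⟨g', rfl, hg'⟩ := (isPrim_iff A).1 hg
  refine (isPrim_iff A).2 ⟨f' * g', map_mul _ _ _, ?_⟩
  rw [map_mul]
  exact mul_ne_zero hf' hg'

theorem Gauss_isPrim_ne_zero {f : LaurentSeries Ω} (hf : IsPrim A f) : f ≠ 0 := by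
  rintro rfl
  obtain ⟨-, n, hn⟩ := hf
  apply hn
  rw [HahnSeries.coeff_zero, ValuationSubring.mem_nonunits_iff, map_zero]
  exact zero_lt_one

theorem Gauss_isInt_zero : IsInt A (0 : LaurentSeries Ω) := fun _ => zero_mem A

theorem Gauss_isInt_add {f g : LaurentSeries Ω} (hf : IsInt A f) (hg : IsInt A g) :
    IsInt A (f + g) := fun n => by
  rw [HahnSeries.coeff_add]
  exact add_mem (hf n) (hg n)

theorem Gauss_isInt_neg {f : LaurentSeries Ω} (hf : IsInt A f) : IsInt A (-f) := fun n => by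
  rw [HahnSeries.coeff_neg]
  exact neg_mem (hf n)

theorem Gauss_isInt_mul {f g : LaurentSeries Ω} (hf : IsInt A f) (hg : IsInt A g) :
    IsInt A (f * g) := fun n => normalize_coeff_mul_mem A hf hg n

theorem Gauss_isInt_C_mul {c : Ω} (hc : c ∈ A) {f : LaurentSeries Ω} (hf : IsInt A f) :
    IsInt A (HahnSeries.C c * f) := fun n => by
  rw [normalize_coeff_C_mul]
  exact mul_mem hc (hf n)

/-- series with all the coefficients in the maximal ideal. -/
theorem Gauss_small_iff {f : LaurentSeries Ω} :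
    (∀ n : ℤ, f.coeff n ∈ A.nonunits) ↔ ∃ f' : LaurentSeries A, incl A f' = f ∧ Fermat.Agent.GR.red A f' = 0 := by
  constructor
  · intro h
    have hint : IsInt A f := fun n => A.nonunits_subset (h n)
    obtain ⟨f', rfl⟩ := (isInt_iff A).1 hint
    refine ⟨f', rfl, ?_⟩
    by_contra hne
    obtain ⟨-, n, hn⟩ := (isPrim_incl_iff A f').2 hne
    exact hn (h n)
  · rintro ⟨f', rfl, h⟩ n
    by_contra hn
    exact (isPrim_incl_iff A f').1 ⟨(isInt_iff A).2 ⟨f', rfl⟩, n, hn⟩ h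

theorem Gauss_not_isPrim_mul {f g : LaurentSeries Ω} (hf : ∀ n : ℤ, f.coeff n ∈ A.nonunits)
    (hg : IsInt A g) : ¬ IsPrim A (f * g) := by
  obtain ⟨f', rfl, hf'⟩ := (Gauss_small_iff A).1 hf
  obtain ⟨g', rfl⟩ := (isInt_iff A).1 hg
  rw [← map_mul, isPrim_incl_iff, map_mul, hf', zero_mul]
  exact fun h => h rfl

theorem Gauss_mem_nonunits_mul {c a : Ω} (hc : c ∈ A.nonunits) (ha : a ∈ A) :
    c * a ∈ A.nonunits := by
  rw [ValuationSubring.mem_nonunits_iff] at hc ⊢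
  rw [map_mul]
  exact mul_lt_one_of_lt_of_le hc ((A.valuation_le_one_iff a).2 ha)

theorem Gauss_inv_mem_nonunits {c : Ω} (hc : c ∉ A) : c⁻¹ ∈ A.nonunits := by
  rw [ValuationSubring.mem_nonunits_iff, map_inv₀]
  rw [← A.valuation_le_one_iff, not_le] at hc
  exact inv_lt_one_of_one_lt₀ hc

theorem Gauss_inv_mem {c : Ω} (hc : c ∉ A.nonunits) : c⁻¹ ∈ A := by
  rw [ValuationSubring.mem_nonunits_iff, not_lt] at hc
  rw [← A.valuation_le_one_iff, map_inv₀]
  exact inv_le_one_of_one_le₀ hc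

end aux

section ring

variable (A : ValuationSubring Qb) (N' : ℕ)

theorem Gauss_int_zero : IsGaussInt A N' 0 :=
  ⟨0, 1, zero_mem _, one_mem _, Gauss_isInt_zero A, Gauss_isPrim_one A, by
    rw [ZeroMemClass.coe_zero, zero_mul]⟩

theorem Gauss_int_one : IsGaussInt A N' 1 :=
  ⟨1, 1, one_mem _, one_mem _, (Gauss_isPrim_one A).1, Gauss_isPrim_one A, by
    rw [OneMemClass.coe_one, one_mul]⟩

variable {A N'}

theorem Gauss_int_add {u v : FF Qb N'} (hu : IsGaussInt A N' u) (hv : IsGaussInt A N' v) :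
    IsGaussInt A N' (u + v) := by
  obtain ⟨f₁, g₁, hf₁, hg₁, if₁, pg₁, e₁⟩ := hu
  obtain ⟨f₂, g₂, hf₂, hg₂, if₂, pg₂, e₂⟩ := hv
  refine ⟨f₁ * g₂ + f₂ * g₁, g₁ * g₂, add_mem (mul_mem hf₁ hg₂) (mul_mem hf₂ hg₁), mul_mem hg₁ hg₂,
    Gauss_isInt_add A (Gauss_isInt_mul A if₁ pg₂.1) (Gauss_isInt_mul A if₂ pg₁.1),
    Gauss_isPrim_mul A pg₁ pg₂, ?_⟩
  rw [← e₁, ← e₂, AddMemClass.coe_add]
  ring

theorem Gauss_int_mul {u v : FF Qb N'} (hu : IsGaussInt A N' u) (hv : IsGaussInt A N' v) :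
    IsGaussInt A N' (u * v) := by
  obtain ⟨f₁, g₁, hf₁, hg₁, if₁, pg₁, e₁⟩ := hu
  obtain ⟨f₂, g₂, hf₂, hg₂, if₂, pg₂, e₂⟩ := hv
  refine ⟨f₁ * f₂, g₁ * g₂, mul_mem hf₁ hf₂, mul_mem hg₁ hg₂, Gauss_isInt_mul A if₁ if₂,
    Gauss_isPrim_mul A pg₁ pg₂, ?_⟩
  rw [← e₁, ← e₂, MulMemClass.coe_mul]
  ring

theorem Gauss_int_neg {u : FF Qb N'} (hu : IsGaussInt A N' u) : IsGaussInt A N' (-u) := by
  obtain ⟨f₁, g₁, hf₁, hg₁, if₁, pg₁, e₁⟩ := hu
  refine ⟨-f₁, g₁, neg_mem hf₁, hg₁, Gauss_isInt_neg A if₁, pg₁, ?_⟩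
  rw [← e₁, NegMemClass.coe_neg, neg_mul]

/-- normal form of a nonzero function. -/
theorem Gauss_exists_normalized (A : ValuationSubring Qb) {u : FF Qb N'} (hu : u ≠ 0) :
    ∃ (κ : Qb) (f g : LaurentSeries Qb), κ ≠ 0 ∧ f ∈ FF Qb N' ∧ g ∈ FF Qb N' ∧ IsPrim A f ∧
      IsPrim A g ∧ (u : LaurentSeries Qb) * g = HahnSeries.C κ * f ∧
      ((u⁻¹ : FF Qb N') : LaurentSeries Qb) * f = HahnSeries.C κ⁻¹ * g := by
  have halg : Algebra.IsAlgebraic ℚ Qb := AlgebraicClosure.isAlgebraic ℚ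
  have hu' : (u : LaurentSeries Qb) ≠ 0 := fun h => hu (Subtype.ext h)
  obtain ⟨κ, f, g, hκ, hf, hg, pf, pg, e⟩ := exists_normalized A N' u.2 hu'
  have hf0 := Gauss_isPrim_ne_zero A pf
  have hg0 := Gauss_isPrim_ne_zero A pg
  have hC : (HahnSeries.C κ : LaurentSeries Qb) ≠ 0 := by
    rw [Ne, map_eq_zero]
    exact hκ
  refine ⟨κ, f, g, hκ, hf, hg, pf, pg, ?_, ?_⟩
  · rw [e]
    field_simp
  · rw [IntermediateField.coe_inv, e, map_inv₀]
    field_simp

theorem Gauss_int_or_inv (A : ValuationSubring Qb) (u : FF Qb N') :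
    IsGaussInt A N' u ∨ IsGaussInt A N' u⁻¹ := by
  by_cases hu : u = 0
  · rw [hu]
    exact Or.inl (Gauss_int_zero A N')
  obtain ⟨κ, f, g, hκ, hf, hg, pf, pg, e₁, e₂⟩ := Gauss_exists_normalized A hu
  rcases A.mem_or_inv_mem κ with h | h
  · exact Or.inl ⟨HahnSeries.C κ * f, g, mul_mem (C_mem_FF κ) hf, hg, Gauss_isInt_C_mul A h pf.1, pg,
      e₁⟩
  · exact Or.inr ⟨HahnSeries.C κ⁻¹ * g, f, mul_mem (C_mem_FF κ⁻¹) hg, hf,
      Gauss_isInt_C_mul A h pg.1, pf, e₂⟩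

variable (A N')

/-- the Gauss valuation subring. -/
def Gauss_ring : ValuationSubring (FF Qb N') where
  carrier := {u | IsGaussInt A N' u}
  mul_mem' := Gauss_int_mul
  one_mem' := Gauss_int_one A N'
  add_mem' := Gauss_int_add
  zero_mem' := Gauss_int_zero A N'
  neg_mem' := Gauss_int_neg
  mem_or_inv_mem' := Gauss_int_or_inv A

theorem Gauss_mem_ring (u : FF Qb N') : u ∈ Gauss_ring A N' ↔ IsGaussInt A N' u := Iff.rfl

end ring

theorem exists_isGaussRing (A : ValuationSubring Qb) (N' : ℕ) :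
    ∃ 𝒪 : ValuationSubring (FF Qb N'), IsGaussRing A N' 𝒪 := by
  refine ⟨Gauss_ring A N', fun u => Iff.rfl, fun u => ?_⟩
  constructor
  · intro hu
    by_cases hu0 : u = 0
    · refine ⟨0, 1, zero_mem _, one_mem _, fun n => ?_, Gauss_isPrim_one A, ?_⟩
      · rw [HahnSeries.coeff_zero, ValuationSubring.mem_nonunits_iff, map_zero]
        exact zero_lt_one
      · rw [hu0, ZeroMemClass.coe_zero, zero_mul]
    obtain ⟨κ, f, g, hκ, hf, hg, pf, pg, e₁, e₂⟩ := Gauss_exists_normalized A hu0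
    have hκm : κ ∈ A.nonunits := by
      by_contra hcon
      have hinv : u⁻¹ ∈ Gauss_ring A N' :=
        ⟨HahnSeries.C κ⁻¹ * g, f, mul_mem (C_mem_FF κ⁻¹) hg, hf,
          Gauss_isInt_C_mul A (Gauss_inv_mem A hcon) pg.1, pf, e₂⟩
      rw [ValuationSubring.mem_nonunits_iff] at hu
      rw [← ValuationSubring.valuation_le_one_iff, map_inv₀] at hinv
      have h1 : (Gauss_ring A N').valuation u ≠ 0 := by
        rw [Ne, map_eq_zero]
        exact hu0
      exact absurd hinv (not_le.2 (one_lt_inv_iff₀.2 ⟨zero_lt_iff.2 h1, hu⟩))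
    refine ⟨HahnSeries.C κ * f, g, mul_mem (C_mem_FF κ) hf, hg, fun n => ?_, pg, e₁⟩
    rw [normalize_coeff_C_mul]
    exact Gauss_mem_nonunits_mul A hκm (pf.1 n)
  · rintro ⟨f, g, hf, hg, sf, pg, e⟩
    rw [ValuationSubring.mem_nonunits_iff]
    by_contra hcon
    rw [not_lt] at hcon
    have hu0 : u ≠ 0 := by
      rintro rfl
      rw [map_zero] at hcon
      exact absurd hcon (not_le.2 zero_lt_one)
    have hinv : u⁻¹ ∈ Gauss_ring A N' := by
      rw [← ValuationSubring.valuation_le_one_iff, map_inv₀]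
      exact inv_le_one_of_one_le₀ hcon
    obtain ⟨f', g', hf', hg', if', pg', e'⟩ := hinv
    have hu' : (u : LaurentSeries Qb) ≠ 0 := fun h => hu0 (Subtype.ext h)
    have key : g * g' = f * f' := by
      rw [← e, ← e', IntermediateField.coe_inv]
      field_simp
    exact Gauss_not_isPrim_mul A sf if' (key ▸ Gauss_isPrim_mul A pg pg')

theorem IsGaussRing.gaussData {A : ValuationSubring Qb} {N' : ℕ} [IsFF Qb (FF Qb N')]
    {𝒪 : ValuationSubring (FF Qb N')} (h𝒪 : IsGaussRing A N' 𝒪) : GaussData A 𝒪 := by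
  have hcoe : ∀ c : Qb, ((algebraMap Qb (FF Qb N') c : FF Qb N') : LaurentSeries Qb) =
      HahnSeries.C c := fun c => (kummer_C_eq_algebraMap c).symm
  constructor
  · intro c
    rw [h𝒪.spec]
    constructor
    · rintro ⟨f, g, hf, hg, if', pg, e⟩
      by_contra hc
      have hc0 : c ≠ 0 := fun h => hc (h ▸ zero_mem A)
      have hC : (HahnSeries.C c : LaurentSeries Qb) ≠ 0 := by
        rw [Ne, map_eq_zero]
        exact hc0
      have hg' : g = HahnSeries.C c⁻¹ * f := by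
        rw [← e, hcoe, map_inv₀]
        field_simp
      obtain ⟨-, n, hn⟩ := pg
      apply hn
      rw [hg', normalize_coeff_C_mul]
      exact Gauss_mem_nonunits_mul A (Gauss_inv_mem_nonunits A hc) (if' n)
    · intro hc
      refine ⟨HahnSeries.C c, 1, C_mem_FF c, one_mem _, fun n => normalize_coeff_C_mem A hc n,
        Gauss_isPrim_one A, ?_⟩
      rw [hcoe, mul_one]
  · intro u hu
    obtain ⟨κ, f, g, hκ, hf, hg, pf, pg, e₁, e₂⟩ := Gauss_exists_normalized A hu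
    have hC : (HahnSeries.C κ : LaurentSeries Qb) ≠ 0 := by
      rw [Ne, map_eq_zero]
      exact hκ
    refine ⟨κ, hκ, ?_, ?_⟩
    · rw [h𝒪.spec]
      refine ⟨f, g, hf, hg, pf.1, pg, ?_⟩
      rw [IntermediateField.coe_div, hcoe, div_mul_eq_mul_div, e₁]
      field_simp
    · rw [h𝒪.spec]
      refine ⟨g, f, hg, hf, pg.1, pf, ?_⟩
      rw [inv_div, div_eq_mul_inv, MulMemClass.coe_mul, hcoe, mul_assoc, e₂, map_inv₀]
      field_simp

end Fermat.Agent.GR.S.R
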