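import Fermat.Agent.GR.S.Bridge
import Fermat.Agent.GR.E.Model
import Fermat.Prelude.Def_ModularCurve_HeckeModule

/-!
# GR-S / M-R: reduction classes of places (interface)

`A` a valuation subring of `Kb = Q̄` above `ℓ`, `E = FF Kb N'` a level which has a model.
`IsRed A E r`: `r : Place Kb E → S` behaves like "reduction of points modulo `𝔪_A`".
-/

set_option autoImplicit false

noncomputable section

namespace Fermat.Agent.GR.S

open Fermat.Agent.GR Fermat.Agent.GR.E ModularCurve AlgebraicCurve

/-- `r` behaves like the reduction map `X(Q̄) → X̃(k_A)` of a smooth model. -/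
structure IsRed (A : ValuationSubring Kb) (E : IntermediateField Kb (LaurentSeries Kb))
    {S : Type} (r : Place Kb E → S) : Prop where
  /-- inertia does not move the reduction of a point. -/
  inert : ∀ (σ : Kb ≃ₐ[ℚ] Kb) (g : SemilinearAut Kb E), σ ∈ A.inertiaSubgroupIn ℚ →
    (∀ x : E, ((g • x : E) : LaurentSeries Kb) = gal σ (x : LaurentSeries Kb)) →
    ∀ P : Place Kb E, r (g • P) = r P
  /-- two primitive functions with the same reduction have divisors with the same reduction. -/
  cong : ∀ a b : E, IsPrim A (a : LaurentSeries Kb) → IsPrim A (b : LaurentSeries Kb) →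
    Cong A (a : LaurentSeries Kb) (b : LaurentSeries Kb) →
    ∀ D : Divisor Kb E, (∀ P, D P = P.ord (a / b)) → D.mapDomain r = 0
  /-- a function whose divisor reduces to zero has constant reduction. -/
  const : ∀ u : E, u ≠ 0 → ∀ D : Divisor Kb E, (∀ P, D P = P.ord u) → D.mapDomain r = 0 →
    ∃ (κ : Kb) (a b : E), κ ≠ 0 ∧ IsPrim A (a : LaurentSeries Kb) ∧
      IsInt A (b : LaurentSeries Kb) ∧ Cong A (a : LaurentSeries Kb) (b : LaurentSeries Kb) ∧
      (u : LaurentSeries Kb) * (b : LaurentSeries Kb) = HahnSeries.C κ * (a : LaurentSeries Kb)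

end Fermat.Agent.GR.S
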