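import Fermat.Agent.GR.S.R.LDefs
import Fermat.Agent.GR.F.RedGal
import Fermat.Prelude.Def_AlgebraicCurve_BaseChangeGalois

/-!
# GR-S / M-R: inertia acts trivially on the reduction of functions
-/

set_option autoImplicit false
set_option synthInstance.maxHeartbeats 400000

noncomputable section

namespace Fermat.Agent.GR.S.R

open AlgebraicCurve ModularCurve Fermat.Agent.GR Fermat.Agent.GR.E Fermat.Agent.S17.FF

variable {A : ValuationSubring Qb} {N' : ℕ} {𝒪 : ValuationSubring (FF Qb N')}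

theorem baseAut_eq_of_gal (σ : Qb ≃ₐ[ℚ] Qb) (g : SemilinearAut Qb (FF Qb N'))
    (hg : ∀ x : FF Qb N', ((g • x : FF Qb N') : LaurentSeries Qb) = gal σ (x : LaurentSeries Qb))
    (a : Qb) : SemilinearAut.baseAut g a = σ a := by
  have h1 := hg (algebraMap Qb (FF Qb N') a)
  rw [SemilinearAut.smul_algebraMap] at h1
  have h2 := congrArg (fun f : LaurentSeries Qb => f.coeff 0) h1
  have e : ∀ b : Qb, ((algebraMap Qb (FF Qb N') b : FF Qb N') : LaurentSeries Qb).coeff 0 = b := by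
    intro b
    have : ((algebraMap Qb (FF Qb N') b : FF Qb N') : LaurentSeries Qb)
        = algebraMap Qb (LaurentSeries Qb) b := rfl
    rw [this, algebraMap_laurentSeries_eq_single, HahnSeries.coeff_single_same]
  simp only [gal_coeff, e] at h2
  exact h2

open scoped Pointwise in
theorem mem_iff_of_mem_inertia (σ : Qb ≃ₐ[ℚ] Qb) (hσ : σ ∈ A.inertiaSubgroupIn ℚ) (a : Qb) :
    σ a ∈ A ↔ a ∈ A := by
  obtain ⟨τ, -, rfl⟩ := hσ
  have h : (τ : Qb ≃ₐ[ℚ] Qb) • A = A := τ.2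
  have h2 : ((τ : Qb ≃ₐ[ℚ] Qb) • a ∈ (τ : Qb ≃ₐ[ℚ] Qb) • A) ↔ a ∈ A :=
    ValuationSubring.smul_mem_pointwise_smul_iff
  rw [h] at h2
  exact h2

theorem smul_sub_mem_nonunits (h𝒪 : IsGaussRing A N' 𝒪) (σ : Qb ≃ₐ[ℚ] Qb)
    (hσ : σ ∈ A.inertiaSubgroupIn ℚ) (g : SemilinearAut Qb (FF Qb N'))
    (hg : ∀ x : FF Qb N', ((g • x : FF Qb N') : LaurentSeries Qb) = gal σ (x : LaurentSeries Qb)) :
    ∀ c ∈ 𝒪, g • c - c ∈ 𝒪.nonunits := by
  intro c hc
  obtain ⟨τ, hτ, rfl⟩ := hσ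
  obtain ⟨f, γ, hf, hγ, hfi, hγp, hcγ⟩ := (h𝒪.spec c).1 hc
  obtain ⟨f₀, rfl⟩ := (isInt_iff A).1 hfi
  obtain ⟨γ₀, rfl, hγ₀⟩ := (isPrim_iff A).1 hγp
  rw [h𝒪.spec']
  set s := (A.decompositionSubgroup ℚ).subtype τ with hs
  have hgf : gal s (incl A f₀) = incl A (coeffMap (actA A τ) f₀) := (incl_coeffMap_actA A τ f₀).symm
  have hgγ : gal s (incl A γ₀) = incl A (coeffMap (actA A τ) γ₀) := (incl_coeffMap_actA A τ γ₀).symm
  have hmemf : gal s (incl A f₀) ∈ FF Qb N' := by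
    have := hg ⟨_, hf⟩
    rw [← this]
    exact (g • (⟨_, hf⟩ : FF Qb N')).2
  have hmemγ : gal s (incl A γ₀) ∈ FF Qb N' := by
    have := hg ⟨_, hγ⟩
    rw [← this]
    exact (g • (⟨_, hγ⟩ : FF Qb N')).2
  refine ⟨gal s (incl A f₀) * incl A γ₀ - incl A f₀ * gal s (incl A γ₀),
    incl A γ₀ * gal s (incl A γ₀), sub_mem (mul_mem hmemf hγ) (mul_mem hf hmemγ),
    mul_mem hγ hmemγ, ?_, ?_, ?_⟩
  · -- coefficients in the maximal ideal
    have h0 : Cong A (incl A (coeffMap (actA A τ) f₀ * γ₀)) (incl A (f₀ * coeffMap (actA A τ) γ₀)) := by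
      rw [cong_incl_iff, map_mul, map_mul, red_actA_of_mem_inertia A τ hτ,
        red_actA_of_mem_inertia A τ hτ]
    intro n
    have := h0 n
    rw [hgf, hgγ, ← map_mul, ← map_mul]
    exact this
  · rw [hgγ, ← map_mul, isPrim_incl_iff, map_mul, red_actA_of_mem_inertia A τ hτ]
    exact mul_ne_zero hγ₀ hγ₀
  · have h1 : ((g • c - c : FF Qb N') : LaurentSeries Qb) = gal s (c : LaurentSeries Qb) - c := by
      rw [← hg c]
      rfl
    rw [h1, ← hcγ, map_mul]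
    ring

theorem smul_baseFn (H : LaurentSeries ℤ) (hH : baseFn Qb H ∈ FF Qb N') (σ : Qb ≃ₐ[ℚ] Qb)
    (g : SemilinearAut Qb (FF Qb N'))
    (hg : ∀ x : FF Qb N', ((g • x : FF Qb N') : LaurentSeries Qb) = gal σ (x : LaurentSeries Qb)) :
    g • (⟨baseFn Qb H, hH⟩ : FF Qb N') = ⟨baseFn Qb H, hH⟩ := by
  apply Subtype.ext
  rw [hg]
  ext n
  change σ ((Int.castRingHom Qb) (H.coeff n)) = (Int.castRingHom Qb) (H.coeff n)
  simp

end Fermat.Agent.GR.S.R
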