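import Fermat.Agent.GR.S.R.NF

/-!
# GR-S / M-R: the divisor of the reduction is the reduction of the divisor
-/

set_option autoImplicit false

noncomputable section

namespace Fermat.Agent.GR.S.R

open AlgebraicCurve Fermat.Agent.GR.E Fermat.Agent.S17.FF

variable {Ω F : Type} [Field Ω] [IsAlgClosed Ω] [CharZero Ω] [Field F] [Algebra Ω F] [IsFF Ω F]
variable {A : ValuationSubring Ω} {𝒪 : ValuationSubring F}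

variable {x : F}

theorem Inf4_mul_mem {a b : F} (ha : a ∈ 𝒪) (hb : b ∈ 𝒪.nonunits) : a * b ∈ 𝒪.nonunits := by
  rw [ValuationSubring.mem_nonunits_iff] at hb ⊢
  rw [map_mul]
  calc 𝒪.valuation a * 𝒪.valuation b ≤ 1 * 𝒪.valuation b :=
        mul_le_mul' ((𝒪.valuation_le_one_iff a).2 ha) le_rfl
    _ = 𝒪.valuation b := one_mul _
    _ < 1 := hb

theorem Inf4_valuation_eq_one {a : F} (ha : a ∈ 𝒪) (ha' : a ∉ 𝒪.nonunits) :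
    𝒪.valuation a = 1 := by
  rw [ValuationSubring.mem_nonunits_iff, not_lt] at ha'
  exact le_antisymm ((𝒪.valuation_le_one_iff a).2 ha) ha'

theorem Inf4_of_mul_mem {a b : F} (ha : a ∈ 𝒪) (ha' : a ∉ 𝒪.nonunits)
    (hab : a * b ∈ 𝒪.nonunits) : b ∈ 𝒪.nonunits := by
  rw [ValuationSubring.mem_nonunits_iff] at hab ⊢
  rwa [map_mul, Inf4_valuation_eq_one ha ha', one_mul] at hab

theorem Inf4_pow_not_mem {a : F} (ha : a ∈ 𝒪) (ha' : a ∉ 𝒪.nonunits) (n : ℕ) :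
    a ^ n ∉ 𝒪.nonunits := by
  rw [ValuationSubring.mem_nonunits_iff, map_pow, Inf4_valuation_eq_one ha ha', one_pow]
  exact lt_irrefl _

/-- the key step of (∞4a): `n₁ < n₂` is impossible. -/
theorem Inf4_not_lt (G : GaussData A 𝒪) (hC : RChart A 𝒪 x) {P₀ : Place Ω F} (hP₀ : Dom A x P₀)
    {t σ₁ σ₂ w₁ w₂ : F} (ht : t ∈ ker A x P₀) (ht' : t ∉ 𝒪.nonunits)
    (hσ₁ : σ₁ ∈ chart A ({x} : Set F))
    (hσ₂ : σ₂ ∈ chart A ({x} : Set F)) (hσ₂' : σ₂ ∉ ker A x P₀)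
    (hw₁ : w₁ ∈ chart A ({x} : Set F)) (hw₁' : w₁ ∉ ker A x P₀)
    (hw₂ : w₂ ∈ chart A ({x} : Set F)) {n₁ n₂ : ℕ}
    (h : σ₂ * (t ^ n₁ * w₁) - σ₁ * (t ^ n₂ * w₂) ∈ 𝒪.nonunits) : ¬ n₁ < n₂ := by
  intro hlt
  obtain ⟨k, rfl⟩ : ∃ k, n₂ = n₁ + (k + 1) := ⟨n₂ - n₁ - 1, by omega⟩
  have htC : t ∈ chart A ({x} : Set F) := ht.1
  have ht𝒪 : t ∈ 𝒪 := mem_of_mem_chart G hC.mem htC
  have e : σ₂ * (t ^ n₁ * w₁) - σ₁ * (t ^ (n₁ + (k + 1)) * w₂) =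
      t ^ n₁ * (σ₂ * w₁ - σ₁ * t ^ k * w₂ * t) := by ring
  rw [e] at h
  have h1 : σ₂ * w₁ - σ₁ * t ^ k * w₂ * t ∈ 𝒪.nonunits :=
    Inf4_of_mul_mem (pow_mem ht𝒪 n₁) (Inf4_pow_not_mem ht𝒪 ht' n₁) h
  have hc : σ₁ * t ^ k * w₂ ∈ chart A ({x} : Set F) :=
    mul_mem (mul_mem hσ₁ (pow_mem htC k)) hw₂
  have h2 : σ₂ * w₁ - σ₁ * t ^ k * w₂ * t ∈ ker A x P₀ :=
    mem_ker_of_mem_nonunits G hC hP₀ (sub_mem (mul_mem hσ₂ hw₁) (mul_mem hc htC)) h1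
  have h3 : σ₁ * t ^ k * w₂ * t ∈ ker A x P₀ := mul_mem_ker hP₀ hc ht
  have h4 := add_mem_ker hP₀ h2 h3
  rw [sub_add_cancel] at h4
  exact mul_not_mem_ker hP₀ hσ₂ hw₁ hσ₂' hw₁' h4

/-- (∞4a) -/
theorem cnt_eq_of_sub_mem (G : GaussData A 𝒪) (hC : RChart A 𝒪 x) {y₁ y₂ : F}
    (h₁ : y₁ ∈ chart A ({x} : Set F)) (h₂ : y₂ ∈ chart A ({x} : Set F))
    (h₁' : y₁ ∉ 𝒪.nonunits) (hsub : y₁ - y₂ ∈ 𝒪.nonunits) (s : Set F) :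
    cnt (cls A x s) y₁ = cnt (cls A x s) y₂ := by
  by_cases hne : (cls A x s).Nonempty
  swap
  · rw [Set.not_nonempty_iff_eq_empty.1 hne, cnt_empty, cnt_empty]
  obtain ⟨P₀, hP₀, rfl⟩ := hne
  have h₂' : y₂ ∉ 𝒪.nonunits := by
    intro h
    apply h₁'
    have := add_mem h hsub
    rwa [add_sub_cancel] at this
  obtain ⟨t, ht, ht', n₁, n₂, hn₁, hn₂, ⟨σ₁, hσ₁, hσ₁', w₁, hw₁, hw₁', e₁⟩,
    ⟨σ₂, hσ₂, hσ₂', w₂, hw₂, hw₂', e₂⟩⟩ := exists_normal_form G hC hP₀ h₁ h₂ h₁' h₂'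
  have hσ₁𝒪 : σ₁ ∈ 𝒪 := mem_of_mem_chart G hC.mem hσ₁
  have hσ₂𝒪 : σ₂ ∈ 𝒪 := mem_of_mem_chart G hC.mem hσ₂
  have key : σ₂ * (t ^ n₁ * w₁) - σ₁ * (t ^ n₂ * w₂) ∈ 𝒪.nonunits := by
    have k1 := Inf4_mul_mem hσ₂𝒪 e₁
    have k2 := Inf4_mul_mem hσ₁𝒪 e₂
    have k3 := Inf4_mul_mem (mul_mem hσ₁𝒪 hσ₂𝒪) hsub
    have e : σ₂ * (t ^ n₁ * w₁) - σ₁ * (t ^ n₂ * w₂) =
        σ₁ * σ₂ * (y₁ - y₂) - σ₂ * (σ₁ * y₁ - t ^ n₁ * w₁) + σ₁ * (σ₂ * y₂ - t ^ n₂ * w₂) := by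
      ring
    rw [e]
    exact add_mem (sub_mem k3 k1) k2
  have key' : σ₁ * (t ^ n₂ * w₂) - σ₂ * (t ^ n₁ * w₁) ∈ 𝒪.nonunits := by
    have := neg_mem key
    rwa [neg_sub] at this
  have l1 := Inf4_not_lt G hC hP₀ ht ht' hσ₁ hσ₂ hσ₂' hw₁ hw₁' hw₂ key
  have l2 := Inf4_not_lt G hC hP₀ ht ht' hσ₂ hσ₁ hσ₁' hw₂ hw₂' hw₁ key'
  have : n₁ = n₂ := by omega
  rw [← hn₁, ← hn₂, this]

/-- (∞4b) -/
theorem exists_mul_sub_mem (G : GaussData A 𝒪) (hC : RChart A 𝒪 x) {y₁ y₂ : F}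
    (h₁ : y₁ ∈ chart A ({x} : Set F)) (h₂ : y₂ ∈ chart A ({x} : Set F))
    (h₁' : y₁ ∉ 𝒪.nonunits) (h₂' : y₂ ∉ 𝒪.nonunits)
    (h : ∀ s : Set F, cnt (cls A x s) y₁ = cnt (cls A x s) y₂) :
    ∃ c ∈ chart A ({x} : Set F), y₁ - c * y₂ ∈ 𝒪.nonunits := by
  have hy₁𝒪 : y₁ ∈ 𝒪 := mem_of_mem_chart G hC.mem h₁
  have hy₂𝒪 : y₂ ∈ 𝒪 := mem_of_mem_chart G hC.mem h₂
  have hmem𝒪 : ∀ c : chart A ({x} : Set F), (c : F) ∈ 𝒪 := fun c =>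
    mem_of_mem_chart G hC.mem c.2
  let 𝔞 : Ideal (chart A ({x} : Set F)) :=
    { carrier := {c | ∃ d : chart A ({x} : Set F), (c : F) * y₁ - (d : F) * y₂ ∈ 𝒪.nonunits}
      add_mem' := by
        rintro c c' ⟨d, hd⟩ ⟨d', hd'⟩
        refine ⟨d + d', ?_⟩
        have e : ((c + c' : chart A ({x} : Set F)) : F) * y₁ -
            ((d + d' : chart A ({x} : Set F)) : F) * y₂ =
            ((c : F) * y₁ - (d : F) * y₂) + ((c' : F) * y₁ - (d' : F) * y₂) := by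
          push_cast
          ring
        rw [e]
        exact add_mem hd hd'
      zero_mem' := ⟨0, by simp⟩
      smul_mem' := by
        rintro r c ⟨d, hd⟩
        refine ⟨r * d, ?_⟩
        have e : ((r • c : chart A ({x} : Set F)) : F) * y₁ -
            ((r * d : chart A ({x} : Set F)) : F) * y₂ =
            (r : F) * ((c : F) * y₁ - (d : F) * y₂) := by
          rw [smul_eq_mul]
          push_cast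
          ring
        rw [e]
        exact Inf4_mul_mem (hmem𝒪 r) hd }
  have hmem𝔞 : ∀ c : chart A ({x} : Set F), c ∈ 𝔞 ↔
      ∃ d : chart A ({x} : Set F), (c : F) * y₁ - (d : F) * y₂ ∈ 𝒪.nonunits := fun c => Iff.rfl
  by_cases htop : 𝔞 = ⊤
  · have h1 : (1 : chart A ({x} : Set F)) ∈ 𝔞 := by rw [htop]; exact Submodule.mem_top
    obtain ⟨d, hd⟩ := (hmem𝔞 1).1 h1
    refine ⟨d, d.2, ?_⟩
    simpa using hd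
  exfalso
  obtain ⟨𝔫, h𝔫, hle⟩ := Ideal.exists_le_maximal 𝔞 htop
  have hle' : ∀ c : chart A ({x} : Set F), (c : F) ∈ 𝒪.nonunits → c ∈ 𝔫 := by
    intro c hc
    refine hle ((hmem𝔞 c).2 ⟨0, ?_⟩)
    have e : (c : F) * y₁ - ((0 : chart A ({x} : Set F)) : F) * y₂ = y₁ * (c : F) := by
      push_cast
      ring
    rw [e]
    exact Inf4_mul_mem hy₁𝒪 hc
  obtain ⟨P₀, hP₀, h𝔫P⟩ := exists_place_of_isMaximal G hC 𝔫 h𝔫 hle'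
  obtain ⟨t, ht, ht', n₁, n₂, hn₁, hn₂, ⟨σ₁, hσ₁, hσ₁', w₁, hw₁, hw₁', e₁⟩,
    ⟨σ₂, hσ₂, hσ₂', w₂, hw₂, hw₂', e₂⟩⟩ := exists_normal_form G hC hP₀ h₁ h₂ h₁' h₂'
  have hn : n₁ = n₂ := by
    have := h (ker A x P₀)
    rw [← hn₁, ← hn₂] at this
    exact_mod_cast this
  subst hn
  have hin : (⟨σ₁ * w₂, mul_mem hσ₁ hw₂⟩ : chart A ({x} : Set F)) ∈ 𝔞 := by
    refine (hmem𝔞 _).2 ⟨⟨σ₂ * w₁, mul_mem hσ₂ hw₁⟩, ?_⟩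
    have e : σ₁ * w₂ * y₁ - σ₂ * w₁ * y₂ =
        w₂ * (σ₁ * y₁ - t ^ n₁ * w₁) - w₁ * (σ₂ * y₂ - t ^ n₁ * w₂) := by ring
    show σ₁ * w₂ * y₁ - σ₂ * w₁ * y₂ ∈ 𝒪.nonunits
    rw [e]
    exact sub_mem (Inf4_mul_mem (mem_of_mem_chart G hC.mem hw₂) e₁)
      (Inf4_mul_mem (mem_of_mem_chart G hC.mem hw₁) e₂)
  have hker : σ₁ * w₂ ∈ ker A x P₀ := ⟨mul_mem hσ₁ hw₂, (h𝔫P _).1 (hle hin)⟩
  exact mul_not_mem_ker hP₀ hσ₁ hw₂ hσ₁' hw₂' hker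

end Fermat.Agent.GR.S.R
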