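import Fermat.Agent.GR.S.R.Defs
import Fermat.Agent.GR.E.Model

/-!
# GR-S / M-R: the concrete situation, definitions
-/

set_option autoImplicit false
set_option synthInstance.maxHeartbeats 400000

noncomputable section

namespace Fermat.Agent.GR.S.R

open AlgebraicCurve ModularCurve Fermat.Agent.GR Fermat.Agent.GR.E Fermat.Agent.S17.FF

/-- `𝒪` is the Gauss valuation subring of `FF Q̄ N'` attached to `A`. -/
structure IsGaussRing (A : ValuationSubring Qb) (N' : ℕ) (𝒪 : ValuationSubring (FF Qb N')) :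
    Prop where
  spec : ∀ u, u ∈ 𝒪 ↔ IsGaussInt A N' u
  spec' : ∀ u : FF Qb N', u ∈ 𝒪.nonunits ↔ ∃ f g : LaurentSeries Qb, f ∈ FF Qb N' ∧ g ∈ FF Qb N' ∧
    (∀ n : ℤ, f.coeff n ∈ A.nonunits) ∧ IsPrim A g ∧ (u : LaurentSeries Qb) * g = f

/-- The coordinate `x` comes from every finite level `L`, where it defines a good chart. -/
structure LevelChart (A : ValuationSubring Qb) (N' : ℕ) (x : FF Qb N') : Prop where
  out : ∀ (L : IntermediateField ℚ Qb) [FiniteDimensional ℚ L],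
    ∃ (xL : FF L N') (𝒪L : ValuationSubring (FF L N')),
      mapFF (algebraMap L Qb) N' xL = x ∧
      (∀ u, u ∈ 𝒪L ↔ IsGaussInt (A.comap (algebraMap L Qb)) N' u) ∧ xL ∈ 𝒪L ∧
      ∀ ϖ : A.comap (algebraMap L Qb), Irreducible ϖ → GaussRing ϖ 𝒪L ∧
        GoodChart ϖ 𝒪L (chart (A.comap (algebraMap L Qb)) ({xL} : Set (FF L N')))

end Fermat.Agent.GR.S.R
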