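import Mathlib

/-!
# GR-S / M-R: local equations of sections (Nakayama)
-/

set_option autoImplicit false

namespace Fermat.Agent.GR.S.R

/-- (U): a uniform local generator of `𝔫` modulo `ϖ`. -/
theorem NK_unif {C : Type*} [CommRing C] (ϖ : C)
    (hD : IsDedekindDomain (C ⧸ Ideal.span {ϖ})) (𝔫 : Ideal C) (h𝔫 : 𝔫.IsPrime) (hϖ : ϖ ∈ 𝔫) :
    ∃ t ∈ 𝔫, ∃ σ, σ ∉ 𝔫 ∧ ∀ z ∈ 𝔫, ∃ a b, σ * z = t * a + ϖ * b := by
  classical
  set I : Ideal C := Ideal.span {ϖ} with hI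
  have hIle : I ≤ 𝔫 := by
    rw [hI, Ideal.span_le]; simpa using hϖ
  set q := Ideal.Quotient.mk I with hq
  have hqs : Function.Surjective q := Ideal.Quotient.mk_surjective
  set N : Ideal (C ⧸ I) := 𝔫.map q with hN
  have hmemN : ∀ x : C, q x ∈ N ↔ x ∈ 𝔫 := by
    intro x
    rw [hN, Ideal.mem_map_iff_of_surjective q hqs]
    constructor
    · rintro ⟨y, hy, hyx⟩
      have : y - x ∈ I := Ideal.Quotient.eq.1 hyx
      have h2 : x = y - (y - x) := by ring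
      rw [h2]; exact 𝔫.sub_mem hy (hIle this)
    · intro hx; exact ⟨x, hx, rfl⟩
  have hNprime : N.IsPrime := by
    apply Ideal.map_isPrime_of_surjective hqs
    rw [hq, Ideal.mk_ker]; exact hIle
  have hlift : ∀ x y : C, q x = q y → ∃ b, x = y + ϖ * b := by
    intro x y hxy
    have : x - y ∈ I := Ideal.Quotient.eq.1 hxy
    obtain ⟨b, hb⟩ := Ideal.mem_span_singleton'.1 this
    exact ⟨b, by rw [mul_comm, hb]; ring⟩
  by_cases hbot : N = ⊥
  · refine ⟨0, 𝔫.zero_mem, 1, ?_, ?_⟩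
    · intro h1; exact h𝔫.ne_top ((Ideal.eq_top_iff_one _).2 h1)
    · intro z hz
      have h1 : q z ∈ N := (hmemN z).2 hz
      rw [hbot, Ideal.mem_bot] at h1
      obtain ⟨b, hb⟩ := hlift z 0 (by rw [h1, map_zero])
      exact ⟨0, b, by rw [hb]; ring⟩
  · -- `t̄ ∈ N \ N²`
    have hlt : N ^ 2 < N := by
      have := Ideal.pow_right_strictAnti N hbot hNprime.ne_top (show 1 < 2 by norm_num)
      simpa using this
    obtain ⟨tb, htN, htN2⟩ := Set.exists_of_ssubset hlt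
    obtain ⟨t, rfl⟩ := hqs tb
    have hdvd : N ∣ Ideal.span {q t} := by
      rw [Ideal.dvd_iff_le, Ideal.span_le]; simpa using htN
    obtain ⟨B, hB⟩ := hdvd
    have hBN : ¬ B ≤ N := by
      intro hle
      apply htN2
      have h1 : q t ∈ N * B := by rw [← hB]; exact Ideal.mem_span_singleton_self _
      have h2 : N * B ≤ N ^ 2 := by rw [pow_two]; exact Ideal.mul_mono_right hle
      exact h2 h1
    obtain ⟨sb, hsB, hsN⟩ := Set.not_subset.1 hBN
    obtain ⟨σ, rfl⟩ := hqs sb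
    refine ⟨t, (hmemN t).1 htN, σ, fun h => hsN ((hmemN σ).2 h), ?_⟩
    intro z hz
    have h1 : q σ * q z ∈ Ideal.span {q t} := by
      rw [hB, mul_comm (q σ)]
      exact Ideal.mul_mem_mul ((hmemN z).2 hz) hsB
    obtain ⟨ab, hab⟩ := Ideal.mem_span_singleton'.1 h1
    obtain ⟨a, rfl⟩ := hqs ab
    obtain ⟨b, hb⟩ := hlift (σ * z) (t * a) (by rw [map_mul, map_mul, ← hab, mul_comm])
    exact ⟨a, b, hb⟩

/-- `C / ϖ` Dedekind, `𝔫 ∋ ϖ` prime: there is `t ∈ 𝔫` such that every `ϖ`-saturated ideal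
`𝔮 ≤ 𝔫` containing some `t - ϖ r` is generated by `t - ϖ r` locally at `𝔫`. -/
theorem exists_local_generator {C : Type*} [CommRing C] [IsNoetherianRing C] (ϖ : C)
    (hD : IsDedekindDomain (C ⧸ Ideal.span {ϖ})) (𝔫 : Ideal C) (h𝔫 : 𝔫.IsPrime) (hϖ : ϖ ∈ 𝔫) :
    ∃ t ∈ 𝔫, ∀ (𝔮 : Ideal C) (r : C), 𝔮 ≤ 𝔫 → (∀ d, ϖ * d ∈ 𝔮 → d ∈ 𝔮) → t - ϖ * r ∈ 𝔮 →
      ∀ z ∈ 𝔮, ∃ σ, σ ∉ 𝔫 ∧ ∃ c, σ * z = (t - ϖ * r) * c := by
  classical
  obtain ⟨t, ht, σ, hσ, hU⟩ := NK_unif ϖ hD 𝔫 h𝔫 hϖ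
  refine ⟨t, ht, ?_⟩
  intro 𝔮 r h𝔮 hsat ht0 z hz
  set t0 := t - ϖ * r with ht0def
  -- `σ 𝔮 ⊆ t₀ C + ϖ 𝔮`
  have hstep : ∀ y ∈ 𝔮, ∃ a, ∃ d ∈ 𝔮, σ * y = t0 * a + ϖ * d := by
    intro y hy
    obtain ⟨a, b, hab⟩ := hU y (h𝔮 hy)
    refine ⟨a, r * a + b, ?_, ?_⟩
    · apply hsat
      have : ϖ * (r * a + b) = σ * y - t0 * a := by rw [hab, ht0def]; ring
      rw [this]
      exact 𝔮.sub_mem (𝔮.mul_mem_left _ hy) (𝔮.mul_mem_right _ ht0)
    · rw [hab, ht0def]; ring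
  set J : Ideal C := Ideal.span {t0} with hJ
  let M : Submodule C (C ⧸ J) := Submodule.map (Submodule.mkQ J) 𝔮
  have : Module.Finite C M := Module.Finite.of_fg ((IsNoetherian.noetherian 𝔮).map _)
  let f : Module.End C M := algebraMap C (Module.End C M) σ
  have hrange : LinearMap.range f ≤ (Ideal.span {ϖ}) • (⊤ : Submodule C M) := by
    rintro _ ⟨⟨x, hx⟩, rfl⟩
    obtain ⟨y, hy, rfl⟩ := Submodule.mem_map.1 hx
    obtain ⟨a, d, hd, had⟩ := hstep y hy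
    have hdM : Submodule.mkQ J d ∈ M := Submodule.mem_map_of_mem hd
    have heq : f ⟨Submodule.mkQ J y, hx⟩ = ϖ • (⟨Submodule.mkQ J d, hdM⟩ : M) := by
      apply Subtype.ext
      change σ • Submodule.mkQ J y = ϖ • Submodule.mkQ J d
      rw [← map_smul, ← map_smul, smul_eq_mul, smul_eq_mul, had, map_add]
      have : Submodule.mkQ J (t0 * a) = 0 := by
        rw [Submodule.mkQ_apply, Submodule.Quotient.mk_eq_zero]
        exact J.mul_mem_right _ (Ideal.mem_span_singleton_self _)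
      rw [this, zero_add]
    rw [heq]
    exact Submodule.smul_mem_smul (Ideal.mem_span_singleton_self _) trivial
  obtain ⟨p, hmonic, -, hcoeff, haeval⟩ :=
    LinearMap.exists_monic_and_natDegree_eq_and_coeff_mem_pow_and_aeval_eq_zero C f _ hrange
  refine ⟨p.eval σ, ?_, ?_⟩
  · rw [Polynomial.eval_eq_sum_range, Finset.sum_range_succ, hmonic.coeff_natDegree, one_mul]
    intro hmem
    have hsum : ∑ k ∈ Finset.range p.natDegree, p.coeff k * σ ^ k ∈ 𝔫 := by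
      apply 𝔫.sum_mem
      intro k hk
      apply 𝔫.mul_mem_right
      have hk' : p.natDegree - k ≠ 0 := by
        have := Finset.mem_range.1 hk; omega
      have h1 : p.coeff k ∈ Ideal.span {ϖ} := Ideal.pow_le_self hk' (hcoeff k)
      have h2 : Ideal.span {ϖ} ≤ 𝔫 := by rw [Ideal.span_le]; simpa using hϖ
      exact h2 h1
    have h3 : σ ^ p.natDegree ∈ 𝔫 := by
      have := 𝔫.sub_mem hmem hsum
      simpa using this
    exact hσ (h𝔫.mem_of_pow_mem _ h3)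
  · have hzM : Submodule.mkQ J z ∈ M := Submodule.mem_map_of_mem hz
    have h1 : Polynomial.aeval f p = algebraMap C (Module.End C M) (p.eval σ) := by
      have := Polynomial.aeval_algebraMap_apply (Module.End C M) σ p
      rw [this, Polynomial.coe_aeval_eq_eval]
    have h2 : (algebraMap C (Module.End C M) (p.eval σ)) ⟨Submodule.mkQ J z, hzM⟩ = 0 := by
      rw [← h1, haeval]; rfl
    have h3 : (p.eval σ) • Submodule.mkQ J z = 0 := congrArg Subtype.val h2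
    rw [← map_smul, smul_eq_mul, Submodule.mkQ_apply, Submodule.Quotient.mk_eq_zero] at h3
    obtain ⟨c, hc⟩ := Ideal.mem_span_singleton'.1 h3
    exact ⟨c, by rw [← hc, mul_comm]⟩

end Fermat.Agent.GR.S.R
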