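import Fermat.Agent.GR.S.R.LDefs
import Fermat.Agent.GR.E.BR3

/-!
# GR-S / M-R: chart rings at finite and infinite level
-/

set_option autoImplicit false
set_option synthInstance.maxHeartbeats 400000

noncomputable section

namespace Fermat.Agent.GR.S.R

open AlgebraicCurve ModularCurve Fermat.Agent.GR Fermat.Agent.GR.E Fermat.Agent.S17.FF

theorem mapFF_algebraMap (A : ValuationSubring Qb) (N' : ℕ) (L : IntermediateField ℚ Qb)
    (r : A.comap (algebraMap L Qb)) :
    mapFF (algebraMap L Qb) N' (algebraMap (A.comap (algebraMap L Qb)) (FF L N') r) =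
      algebraMap Qb (FF Qb N') (algebraMap L Qb (r : L)) := by
  apply Subtype.ext
  change coeffMap (algebraMap L Qb) (algebraMap L (LaurentSeries L) (r : L)) =
    algebraMap Qb (LaurentSeries Qb) (algebraMap L Qb (r : L))
  rw [algebraMap_laurentSeries_eq_single, algebraMap_laurentSeries_eq_single, coeffMap_single]

/-- the inclusion `A ∩ L → A`. -/
def Tr1_incl (A : ValuationSubring Qb) (L : IntermediateField ℚ Qb) :
    A.comap (algebraMap L Qb) →+* A :=
  ((algebraMap L Qb).comp (A.comap (algebraMap L Qb)).subtype).codRestrict A.toSubring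
    (fun r => r.2)

theorem Tr1_comp (A : ValuationSubring Qb) (N' : ℕ) (L : IntermediateField ℚ Qb) :
    (algebraMap A (FF Qb N')).comp (Tr1_incl A L) =
      (mapFF (algebraMap L Qb) N').comp (algebraMap (A.comap (algebraMap L Qb)) (FF L N')) := by
  ext1 r
  exact (mapFF_algebraMap A N' L r).symm

theorem Tr1_mapFF_aeval (A : ValuationSubring Qb) (N' : ℕ) (L : IntermediateField ℚ Qb)
    (xL : FF L N') (q : Polynomial (A.comap (algebraMap L Qb))) :
    mapFF (algebraMap L Qb) N' (Polynomial.aeval xL q) =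
      Polynomial.aeval (mapFF (algebraMap L Qb) N' xL) (q.map (Tr1_incl A L)) := by
  rw [Polynomial.aeval_def, Polynomial.hom_eval₂, Polynomial.aeval_def, Polynomial.eval₂_map,
    Tr1_comp]

/-- elements integral over `R[y]`, in polynomial form. -/
theorem Tr1_exists_monic {R F : Type*} [CommRing R] [CommRing F] [Algebra R F] {y f : F}
    (hf : IsIntegral (Algebra.adjoin R {y}) f) :
    ∃ (n : ℕ) (a : Fin n → Polynomial R),
      f ^ n + ∑ i : Fin n, Polynomial.aeval y (a i) * f ^ (i : ℕ) = 0 := by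
  obtain ⟨p, hpm, hp⟩ := hf
  have hex : ∀ i : ℕ, ∃ a : Polynomial R,
      Polynomial.aeval y a = ((p.coeff i : Algebra.adjoin R {y}) : F) := by
    intro i
    have h0 : ∀ z : F, z ∈ Algebra.adjoin R {y} → ∃ a : Polynomial R, Polynomial.aeval y a = z := by
      intro z hz
      rw [Algebra.adjoin_singleton_eq_range_aeval] at hz
      exact hz
    exact h0 _ (p.coeff i).2
  choose a ha using hex
  refine ⟨p.natDegree, fun i => a i, ?_⟩
  rw [Polynomial.eval₂_eq_sum_range, Finset.sum_range_succ, hpm.coeff_natDegree, map_one,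
    one_mul, add_comm] at hp
  rw [← hp]
  congr 1
  rw [Fin.sum_univ_eq_sum_range (fun i => Polynomial.aeval y (a i) * f ^ i) p.natDegree]
  refine Finset.sum_congr rfl fun i _ => ?_
  rw [ha]
  rfl

theorem Tr1_isIntegral_of_monic {R F : Type*} [CommRing R] [CommRing F] [Algebra R F] {y f : F}
    (n : ℕ) (a : Fin n → Polynomial R)
    (h : f ^ n + ∑ i : Fin n, Polynomial.aeval y (a i) * f ^ (i : ℕ) = 0) :
    IsIntegral (Algebra.adjoin R {y}) f := by
  have hmem : ∀ q : Polynomial R, Polynomial.aeval y q ∈ Algebra.adjoin R {y} := by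
    intro q
    rw [Algebra.adjoin_singleton_eq_range_aeval]
    exact ⟨q, rfl⟩
  refine ⟨Polynomial.X ^ n + ∑ i : Fin n,
    Polynomial.C (⟨Polynomial.aeval y (a i), hmem _⟩ : Algebra.adjoin R {y}) *
      Polynomial.X ^ (i : ℕ), Polynomial.monic_X_pow_add (Polynomial.degree_sum_fin_lt _), ?_⟩
  rw [Polynomial.eval₂_add, Polynomial.eval₂_pow, Polynomial.eval₂_X, Polynomial.eval₂_finsetSum,
    ← h]
  congr 1
  refine Finset.sum_congr rfl fun i _ => ?_
  rw [Polynomial.eval₂_mul, Polynomial.eval₂_C, Polynomial.eval₂_pow, Polynomial.eval₂_X]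
  rfl

/-- (T1) -/
theorem mapFF_mem_chart (A : ValuationSubring Qb) (N' : ℕ) (L : IntermediateField ℚ Qb)
    (xL c : FF L N') (hc : c ∈ chart (A.comap (algebraMap L Qb)) ({xL} : Set (FF L N'))) :
    mapFF (algebraMap L Qb) N' c ∈
      chart A ({mapFF (algebraMap L Qb) N' xL} : Set (FF Qb N')) := by
  obtain ⟨n, a, h⟩ := Tr1_exists_monic (mem_chart.1 hc)
  refine mem_chart.2 (Tr1_isIntegral_of_monic n (fun i => (a i).map (Tr1_incl A L)) ?_)
  have h1 := congrArg (mapFF (algebraMap L Qb) N') h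
  rw [map_add, map_pow, map_sum, map_zero] at h1
  rw [← h1]
  congr 1
  refine Finset.sum_congr rfl fun i _ => ?_
  rw [map_mul, map_pow, Tr1_mapFF_aeval]

/-- every element of `FF Q̄ N'` comes from every sufficiently large level. -/
theorem exists_level_of_mem (N' : ℕ) (u : FF Qb N') :
    ∃ L₀ : IntermediateField ℚ Qb, FiniteDimensional ℚ L₀ ∧ ∀ L : IntermediateField ℚ Qb, L₀ ≤ L →
      ∃ u' : FF L N', mapFF (algebraMap L Qb) N' u' = u := by
  obtain ⟨L₀, hfd, h⟩ := BR3_single N' (u : LaurentSeries Qb) u.2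
  refine ⟨L₀, hfd, fun L hL => ?_⟩
  obtain ⟨u', hu', hu⟩ := BR3_mono N' hL h
  exact ⟨⟨u', hu'⟩, Subtype.ext hu⟩

/-- (T2) -/
theorem exists_level_of_mem_chart (A : ValuationSubring Qb) (N' : ℕ) (x c : FF Qb N')
    (hc : c ∈ chart A ({x} : Set (FF Qb N'))) :
    ∃ L₀ : IntermediateField ℚ Qb, FiniteDimensional ℚ L₀ ∧ ∀ L : IntermediateField ℚ Qb, L₀ ≤ L →
      ∀ xL : FF L N', mapFF (algebraMap L Qb) N' xL = x →
        ∃ c' ∈ chart (A.comap (algebraMap L Qb)) ({xL} : Set (FF L N')),
          mapFF (algebraMap L Qb) N' c' = c := by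
  classical
  obtain ⟨n, a, h⟩ := Tr1_exists_monic (mem_chart.1 hc)
  obtain ⟨L₂, hfd₂, hL₂⟩ := exists_level_of_mem N' c
  set S : Finset Qb := Finset.univ.biUnion fun i : Fin n =>
    (a i).coeffs.image fun z : A => (z : Qb) with hS
  have halg : Algebra.IsAlgebraic ℚ Qb := AlgebraicClosure.isAlgebraic ℚ
  have hfd₁ : FiniteDimensional ℚ (IntermediateField.adjoin ℚ (S : Set Qb)) :=
    IntermediateField.finiteDimensional_adjoin
      (fun z _ => (Algebra.IsAlgebraic.isAlgebraic z).isIntegral)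
  refine ⟨IntermediateField.adjoin ℚ (S : Set Qb) ⊔ L₂,
    IntermediateField.finiteDimensional_sup _ _, fun L hL xL hxL => ?_⟩
  obtain ⟨c', hc'⟩ := hL₂ L (le_sup_right.trans hL)
  have hlift : ∀ i : Fin n, a i ∈ Polynomial.lifts (Tr1_incl A L) := by
    intro i
    rw [Polynomial.lifts_iff_coeff_lifts]
    intro k
    by_cases h0 : (a i).coeff k = 0
    · exact ⟨0, by rw [map_zero, h0]⟩
    · have hmem : (((a i).coeff k : A) : Qb) ∈ L := by
        apply le_sup_left.trans hL
        apply IntermediateField.subset_adjoin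
        rw [hS, Finset.mem_coe, Finset.mem_biUnion]
        exact ⟨i, Finset.mem_univ i, Finset.mem_image.2
          ⟨_, Polynomial.coeff_mem_coeffs h0, rfl⟩⟩
      exact ⟨⟨⟨_, hmem⟩, ((a i).coeff k).2⟩, Subtype.ext rfl⟩
  choose a' ha' using fun i => (Polynomial.mem_lifts _).1 (hlift i)
  refine ⟨c', mem_chart.2 (Tr1_isIntegral_of_monic n a' ?_), hc'⟩
  apply (mapFF (algebraMap L Qb) N').injective
  rw [map_add, map_pow, map_sum, map_zero, hc', ← h]
  congr 1
  refine Finset.sum_congr rfl fun i _ => ?_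
  rw [map_mul, map_pow, Tr1_mapFF_aeval, hc', hxL, ha']

end Fermat.Agent.GR.S.R
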