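import Fermat.Agent.GR.S.R.Rat
import Fermat.Agent.GR.S.R.Tr1
import Fermat.Agent.GR.S.R.NK
import Fermat.Agent.GR.S.R.Dom
import Fermat.Agent.GR.E.BR5
import Fermat.Agent.GR.E.BR7

/-!
# GR-S / M-R: the peeling property from the finite levels
-/

set_option autoImplicit false
set_option synthInstance.maxHeartbeats 400000

noncomputable section

namespace Fermat.Agent.GR.S.R

open AlgebraicCurve ModularCurve Fermat.Agent.GR Fermat.Agent.GR.E Fermat.Agent.S17.FF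

/-- auxiliary: `val` of a difference with a constant. -/
theorem Level_val_sub_algebraMap {Ω F : Type} [Field Ω] [IsAlgClosed Ω] [CharZero Ω] [Field F]
    [Algebra Ω F] [IsFF Ω F] (P : Place Ω F) {f : F} (hf : 0 ≤ P.ord f) (c : Ω) :
    val P (f - algebraMap Ω F c) = val P f - c := by
  have h0 : 0 ≤ P.ord (algebraMap Ω F (-c)) := by
    rw [Fermat.Agent.S24.Zeros.ord_algebraMap]
  rw [sub_eq_add_neg, ← map_neg, val_add P hf h0, val_algebraMap, sub_eq_add_neg]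

/-- auxiliary: the abstract form of (LEVEL). -/
theorem Level_abstract {Ω F : Type} [Field Ω] [IsAlgClosed Ω] [CharZero Ω] [Field F]
    [Algebra Ω F] [IsFF Ω F] {A : ValuationSubring Ω} {x : F}
    {C : Type*} [CommRing C] [IsNoetherianRing C] (ι : C →+* F) (ϖ : C) (π : Ω) (hπ0 : π ≠ 0)
    (hπ : π ∈ A.nonunits) (hιϖ : ι ϖ = algebraMap Ω F π)
    (hD : IsDedekindDomain (C ⧸ Ideal.span {ϖ}))
    (hιC : ∀ c, ι c ∈ chart A ({x} : Set F))
    (P₀ : Place Ω F) (hP₀ : Dom A x P₀) (T : Finset (Place Ω F))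
    (hT : ∀ P ∈ T, Dom A x P ∧ ker A x P = ker A x P₀)
    (hrat : ∀ P ∈ T, ∀ c : C, val P (ι c) ∈ A.nonunits →
      ∃ r : C, algebraMap Ω F (val P (ι c)) = ι (ϖ * r)) :
    ∃ t : C, ι t ∈ ker A x P₀ ∧ ∀ P ∈ T, ∀ z : C, val P (ι z) = 0 →
      ∃ σ : C, ι σ ∉ ker A x P₀ ∧ ∃ c : C,
        ι σ * ι z = (ι t - algebraMap Ω F (val P (ι t))) * ι c := by
  classical
  have hord : ∀ P, Dom A x P → ∀ c : C, 0 ≤ P.ord (ι c) :=
    fun P hP c => ord_nonneg_of_mem_chart hP (hιC c)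
  let 𝔫 : Ideal C :=
    { carrier := {c | ι c ∈ ker A x P₀}
      add_mem' := by
        intro a b ha hb
        change ι (a + b) ∈ ker A x P₀
        rw [map_add]
        exact add_mem_ker hP₀ ha hb
      zero_mem' := by
        change ι 0 ∈ ker A x P₀
        rw [map_zero, ← map_zero (algebraMap Ω F)]
        exact algebraMap_mem_ker P₀ (zero_mem _)
      smul_mem' := by
        intro c d hd
        change ι (c * d) ∈ ker A x P₀
        rw [map_mul]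
        exact mul_mem_ker hP₀ (hιC c) hd }
  have hmem𝔫 : ∀ c, c ∈ 𝔫 ↔ ι c ∈ ker A x P₀ := fun c => Iff.rfl
  have h𝔫 : 𝔫.IsPrime := by
    refine ⟨?_, ?_⟩
    · rw [Ideal.ne_top_iff_one, hmem𝔫, map_one]
      exact one_not_mem_ker P₀
    · intro a b hab
      by_contra hcon
      push Not at hcon
      rw [hmem𝔫, map_mul] at hab
      exact mul_not_mem_ker hP₀ (hιC a) (hιC b) hcon.1 hcon.2 hab
  have hϖ𝔫 : ϖ ∈ 𝔫 := by
    rw [hmem𝔫, hιϖ]
    exact algebraMap_mem_ker P₀ hπ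
  obtain ⟨t, ht, H⟩ := exists_local_generator ϖ hD 𝔫 h𝔫 hϖ𝔫
  refine ⟨t, ht, fun P hP z hz => ?_⟩
  obtain ⟨hPd, hPk⟩ := hT P hP
  let 𝔮 : Ideal C :=
    { carrier := {c | val P (ι c) = 0}
      add_mem' := by
        intro a b ha hb
        change val P (ι (a + b)) = 0
        rw [map_add, val_add P (hord P hPd a) (hord P hPd b)]
        change val P (ι a) = 0 at ha
        change val P (ι b) = 0 at hb
        rw [ha, hb, add_zero]
      zero_mem' := by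
        change val P (ι 0) = 0
        rw [map_zero, ← map_zero (algebraMap Ω F), val_algebraMap]
      smul_mem' := by
        intro c d hd
        change val P (ι (c * d)) = 0
        change val P (ι d) = 0 at hd
        rw [map_mul, val_mul P (hord P hPd c) (hord P hPd d), hd, mul_zero] }
  have hmem𝔮 : ∀ c, c ∈ 𝔮 ↔ val P (ι c) = 0 := fun c => Iff.rfl
  have htP : val P (ι t) ∈ A.nonunits := by
    have h1 : ι t ∈ ker A x P := by rw [hPk]; exact ht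
    exact h1.2
  obtain ⟨r, hr⟩ := hrat P hP t htP
  have h1 : 𝔮 ≤ 𝔫 := by
    intro c hc
    rw [hmem𝔮] at hc
    rw [hmem𝔫, ← hPk]
    exact ⟨hιC c, by rw [hc]; exact zero_mem _⟩
  have h2 : ∀ d, ϖ * d ∈ 𝔮 → d ∈ 𝔮 := by
    intro d hd
    rw [hmem𝔮, map_mul, val_mul P (hord P hPd ϖ) (hord P hPd d), hιϖ, val_algebraMap] at hd
    exact (mul_eq_zero.1 hd).resolve_left hπ0
  have h3 : t - ϖ * r ∈ 𝔮 := by
    rw [hmem𝔮, map_sub, ← hr, Level_val_sub_algebraMap P (hord P hPd t), sub_self]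
  obtain ⟨σ, hσ, c, hc⟩ := H 𝔮 r h1 h2 h3 z hz
  refine ⟨σ, hσ, c, ?_⟩
  rw [← map_mul, hc, map_mul, map_sub, ← hr]

/-- auxiliary: a common finite level. -/
theorem Level_exists_common {ι : Type*} (s : Finset ι) (p : ι → IntermediateField ℚ Qb → Prop)
    (h : ∀ i ∈ s, ∃ L₀ : IntermediateField ℚ Qb, FiniteDimensional ℚ L₀ ∧
      ∀ L : IntermediateField ℚ Qb, L₀ ≤ L → p i L) :
    ∃ L₀ : IntermediateField ℚ Qb, FiniteDimensional ℚ L₀ ∧
      ∀ L : IntermediateField ℚ Qb, L₀ ≤ L → ∀ i ∈ s, p i L := by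
  classical
  induction s using Finset.induction_on with
  | empty => exact ⟨⊥, inferInstance, fun _ _ i hi => absurd hi (Finset.notMem_empty i)⟩
  | insert a s _ ih =>
    obtain ⟨L₁, hL₁, h₁⟩ := ih fun i hi => h i (Finset.mem_insert_of_mem hi)
    obtain ⟨L₂, hL₂, h₂⟩ := h a (Finset.mem_insert_self a s)
    refine ⟨L₁ ⊔ L₂, IntermediateField.finiteDimensional_sup L₁ L₂, fun L hL i hi => ?_⟩
    rcases Finset.mem_insert.1 hi with rfl | hi
    · exact h₂ L (le_trans le_sup_right hL)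
    · exact h₁ L (le_trans le_sup_left hL) i hi

set_option maxHeartbeats 2000000 in
/-- auxiliary: (LEVEL) at a fixed sufficiently large level, for a general subalgebra. -/
theorem Level_at_level_aux {A : ValuationSubring Qb} {N' : ℕ} [IsFF Qb (FF Qb N')] {x : FF Qb N'}
    (P₀ : Place Qb (FF Qb N')) (hP₀ : Dom A x P₀)
    (T : Finset (Place Qb (FF Qb N'))) (hT : ∀ P ∈ T, Dom A x P ∧ ker A x P = ker A x P₀)
    (Z : Finset (FF Qb N'))
    (L : IntermediateField ℚ Qb) [IsDiscreteValuationRing (A.comap (algebraMap L Qb))]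
    (ϖ : A.comap (algebraMap L Qb)) (hϖ : Irreducible ϖ)
    (C : Subalgebra (A.comap (algebraMap L Qb)) (FF L N')) [IsNoetherianRing C]
    (hded : IsDedekindDomain (C ⧸ Ideal.span {algebraMap (A.comap (algebraMap L Qb)) C ϖ}))
    (hT1 : ∀ c ∈ C, mapFF (algebraMap L Qb) N' c ∈ chart A ({x} : Set (FF Qb N')))
    (h₁ : ∀ c ∈ Z, ∃ c' ∈ C, mapFF (algebraMap L Qb) N' c' = c)
    (h₂ : ∀ P ∈ T, ∀ u : FF L N', 0 ≤ P.ord (mapFF (algebraMap L Qb) N' u) →
        val P (mapFF (algebraMap L Qb) N' u) ∈ L) :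
    ∃ (C' : Subring (FF Qb N')) (t : FF Qb N'),
      (∀ c ∈ C', c ∈ chart A ({x} : Set (FF Qb N'))) ∧ (∀ z ∈ Z, z ∈ C') ∧
      t ∈ C' ∧ t ∈ ker A x P₀ ∧
      ∀ P ∈ T, ∀ z ∈ C', val P z = 0 → ∃ σ ∈ C', σ ∉ ker A x P₀ ∧ ∃ c ∈ C',
        σ * z = (t - algebraMap Qb (FF Qb N') (val P t)) * c := by
  -- the map
  let ι : C →+* FF Qb N' := (mapFF (algebraMap L Qb) N').comp C.val.toRingHom
  have hι : ∀ c, ι c = mapFF (algebraMap L Qb) N' (c : FF L N') := fun _ => rfl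
  have hιC : ∀ c, ι c ∈ chart A ({x} : Set (FF Qb N')) := fun c => hT1 c c.2
  have hιalg : ∀ r : A.comap (algebraMap L Qb),
      ι (algebraMap (A.comap (algebraMap L Qb)) C r)
        = algebraMap Qb (FF Qb N') (algebraMap L Qb (r : L)) := by
    intro r
    exact mapFF_algebraMap A N' L r
  have hπ0 : algebraMap L Qb (ϖ : L) ≠ 0 := by
    rw [map_ne_zero]
    intro h
    exact hϖ.ne_zero (Subtype.ext h)
  have hπ : algebraMap L Qb (ϖ : L) ∈ A.nonunits := by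
    rw [← BR7_mem_nonunits_comap, ValuationSubring.coe_mem_nonunits_iff,
      IsLocalRing.mem_maximalIdeal]
    exact hϖ.not_isUnit
  obtain ⟨t, ht, H⟩ := Level_abstract ι (algebraMap (A.comap (algebraMap L Qb)) C ϖ)
    (algebraMap L Qb (ϖ : L)) hπ0 hπ (hιalg ϖ) hded hιC P₀ hP₀ T hT (by
      intro P hP c hc
      have hl := h₂ P hP (c : FF L N') (ord_nonneg_of_mem_chart (hT P hP).1 (hιC c))
      obtain ⟨l, hl⟩ : ∃ l : L, algebraMap L Qb l = val P (ι c) := ⟨⟨_, hl⟩, rfl⟩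
      rw [← hl, ← BR7_mem_nonunits_comap] at hc
      obtain ⟨r, hr⟩ := BR7_exists_mul_of_mem_nonunits _ hϖ hc
      refine ⟨algebraMap (A.comap (algebraMap L Qb)) C r, ?_⟩
      rw [← map_mul, hιalg, ← hl, hr, mul_comm]
      rfl)
  refine ⟨C.toSubring.map (mapFF (algebraMap L Qb) N'), ι t, ?_, ?_, ⟨t, t.2, rfl⟩, ht, ?_⟩
  · rintro _ ⟨c, hc, rfl⟩
    exact hιC ⟨c, hc⟩
  · intro z hz
    obtain ⟨c', hc', hcz⟩ := h₁ z hz
    exact ⟨c', hc', hcz⟩
  · rintro P hP _ ⟨z, hz, rfl⟩ hval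
    obtain ⟨σ, hσ, c, hc⟩ := H P hP ⟨z, hz⟩ hval
    exact ⟨ι σ, ⟨σ, σ.2, rfl⟩, hσ, ι c, ⟨c, c.2, rfl⟩, hc⟩

set_option maxHeartbeats 2000000 in
/-- auxiliary: (LEVEL) at a fixed sufficiently large level. -/
theorem Level_at_level {A : ValuationSubring Qb} {ℓ : ℕ} (hℓ : ℓ.Prime)
    (hA : A.LiesOverPrime ℓ) {N' : ℕ} [IsFF Qb (FF Qb N')] {x : FF Qb N'}
    (hx : LevelChart A N' x) (P₀ : Place Qb (FF Qb N')) (hP₀ : Dom A x P₀)
    (T : Finset (Place Qb (FF Qb N'))) (hT : ∀ P ∈ T, Dom A x P ∧ ker A x P = ker A x P₀)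
    (Z : Finset (FF Qb N'))
    (L : IntermediateField ℚ Qb) [FiniteDimensional ℚ L]
    (h₁ : ∀ c ∈ Z, ∀ xL : FF L N', mapFF (algebraMap L Qb) N' xL = x →
        ∃ c' ∈ chart (A.comap (algebraMap L Qb)) ({xL} : Set (FF L N')),
          mapFF (algebraMap L Qb) N' c' = c)
    (h₂ : ∀ P ∈ T, ∀ u : FF L N', 0 ≤ P.ord (mapFF (algebraMap L Qb) N' u) →
        val P (mapFF (algebraMap L Qb) N' u) ∈ L) :
    ∃ (C' : Subring (FF Qb N')) (t : FF Qb N'),
      (∀ c ∈ C', c ∈ chart A ({x} : Set (FF Qb N'))) ∧ (∀ z ∈ Z, z ∈ C') ∧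
      t ∈ C' ∧ t ∈ ker A x P₀ ∧
      ∀ P ∈ T, ∀ z ∈ C', val P z = 0 → ∃ σ ∈ C', σ ∉ ker A x P₀ ∧ ∃ c ∈ C',
        σ * z = (t - algebraMap Qb (FF Qb N') (val P t)) * c := by
  have hdvr : IsDiscreteValuationRing (A.comap (algebraMap L Qb)) :=
    isDiscreteValuationRing_comap A ℓ hℓ hA L
  obtain ⟨ϖ, hϖ⟩ := IsDiscreteValuationRing.exists_irreducible (A.comap (algebraMap L Qb))
  obtain ⟨xL, 𝒪L, hxL, -, -, hgood⟩ := hx.out L
  obtain ⟨hG, hC⟩ := hgood ϖ hϖ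
  have hnoeth := hC.noeth
  have hT1 := mapFF_mem_chart A N' L xL
  rw [hxL] at hT1
  exact Level_at_level_aux P₀ hP₀ T hT Z L ϖ hϖ
    (chart (A.comap (algebraMap L Qb)) ({xL} : Set (FF L N'))) hC.dedekind hT1
    (fun c hc => h₁ c hc xL hxL) h₂

/-- (LEVEL) -/
theorem hasLevels_of_levelChart {A : ValuationSubring Qb} {ℓ : ℕ} (hℓ : ℓ.Prime)
    (hA : A.LiesOverPrime ℓ) {N' : ℕ} [IsFF Qb (FF Qb N')] {x : FF Qb N'}
    (hx : LevelChart A N' x) : HasLevels A x := by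
  intro P₀ hP₀ T hT Z hZ
  obtain ⟨L₁, hL₁, h₁⟩ := Level_exists_common Z
    (fun c L => ∀ xL : FF L N', mapFF (algebraMap L Qb) N' xL = x →
        ∃ c' ∈ chart (A.comap (algebraMap L Qb)) ({xL} : Set (FF L N')),
          mapFF (algebraMap L Qb) N' c' = c)
    (fun c hc => exists_level_of_mem_chart A N' x c (hZ c hc))
  obtain ⟨L₂, hL₂, h₂⟩ := Level_exists_common T
    (fun P L => ∀ u : FF L N', 0 ≤ P.ord (mapFF (algebraMap L Qb) N' u) →
        val P (mapFF (algebraMap L Qb) N' u) ∈ L)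
    (fun P _ => exists_level_rational N' P)
  have hLfin : FiniteDimensional ℚ (L₁ ⊔ L₂ : IntermediateField ℚ Qb) :=
    IntermediateField.finiteDimensional_sup L₁ L₂
  exact Level_at_level hℓ hA hx P₀ hP₀ T hT Z (L₁ ⊔ L₂) (h₁ (L₁ ⊔ L₂) le_sup_left)
    (h₂ (L₁ ⊔ L₂) le_sup_right)

end Fermat.Agent.GR.S.R
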