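import Fermat.Agent.GR.S.R.LDefs
import Fermat.Agent.GR.E.BR7

/-!
# GR-S / M-R: Gauss rings at finite and infinite level
-/

set_option autoImplicit false
set_option synthInstance.maxHeartbeats 400000

noncomputable section

namespace Fermat.Agent.GR.S.R

open AlgebraicCurve ModularCurve Fermat.Agent.GR Fermat.Agent.GR.E Fermat.Agent.S17.FF

/-- auxiliary: the easy direction of (T3) -/
theorem Tr3_mapFF_mem {A : ValuationSubring Qb} {N' : ℕ} {𝒪 : ValuationSubring (FF Qb N')}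
    (h𝒪 : IsGaussRing A N' 𝒪) (L : IntermediateField ℚ Qb) (𝒪L : ValuationSubring (FF L N'))
    (hspec : ∀ u, u ∈ 𝒪L ↔ IsGaussInt (A.comap (algebraMap L Qb)) N' u) {u : FF L N'}
    (hu : u ∈ 𝒪L) : mapFF (algebraMap L Qb) N' u ∈ 𝒪 := by
  rw [h𝒪.spec]
  obtain ⟨f, g, hf, hg, hfi, hgp, hfg⟩ := (hspec u).1 hu
  refine ⟨coeffMap (algebraMap L Qb) f, coeffMap (algebraMap L Qb) g,
    coeffMap_mem_FF _ N' hf, coeffMap_mem_FF _ N' hg, ?_, ⟨?_, ?_⟩, ?_⟩
  · intro n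
    rw [coeffMap_coeff]
    exact hfi n
  · intro n
    rw [coeffMap_coeff]
    exact hgp.1 n
  · obtain ⟨n, hn⟩ := hgp.2
    refine ⟨n, ?_⟩
    rw [coeffMap_coeff, ← BR7_mem_nonunits_comap]
    exact hn
  · rw [coe_mapFF, ← map_mul, hfg]

/-- auxiliary: the uniformizer of a finite level is a nonunit of the Gauss ring -/
theorem Tr3_unif_mem_nonunits {A : ValuationSubring Qb} {N' : ℕ}
    {𝒪 : ValuationSubring (FF Qb N')} (h𝒪 : IsGaussRing A N' 𝒪) (L : IntermediateField ℚ Qb)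
    (ϖ : A.comap (algebraMap L Qb)) (hϖ : Irreducible ϖ) :
    mapFF (algebraMap L Qb) N' (algebraMap (A.comap (algebraMap L Qb)) (FF L N') ϖ)
      ∈ 𝒪.nonunits := by
  have hϖ' : algebraMap L Qb (ϖ : L) ∈ A.nonunits := by
    rw [← BR7_mem_nonunits_comap, ValuationSubring.mem_nonunits_iff_exists_mem_maximalIdeal]
    exact ⟨ϖ.2, (IsLocalRing.mem_maximalIdeal _).2 hϖ.not_isUnit⟩
  rw [h𝒪.spec']
  refine ⟨_, 1, SetLike.coe_mem _, one_mem _, ?_, ⟨?_, ?_⟩, mul_one _⟩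
  · intro n
    rw [coe_mapFF, coeffMap_coeff, BR7_coe_algebraMap, HahnSeries.C_apply, HahnSeries.coeff_single]
    split_ifs
    · exact hϖ'
    · rw [map_zero]
      exact (BR7_mem_nonunits_iff _ _).2 (Or.inl rfl)
  · intro n
    rw [HahnSeries.coeff_one]
    split_ifs
    · exact A.one_mem
    · exact A.zero_mem
  · refine ⟨0, ?_⟩
    rw [HahnSeries.coeff_one, if_pos rfl, BR7_mem_nonunits_iff]
    rintro (h | h)
    · exact one_ne_zero h
    · exact h (by rw [inv_one]; exact A.one_mem)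

/-- (T3) -/
theorem mapFF_mem_iff {A : ValuationSubring Qb} {N' : ℕ} {𝒪 : ValuationSubring (FF Qb N')}
    (h𝒪 : IsGaussRing A N' 𝒪) (L : IntermediateField ℚ Qb) (𝒪L : ValuationSubring (FF L N'))
    (hspec : ∀ u, u ∈ 𝒪L ↔ IsGaussInt (A.comap (algebraMap L Qb)) N' u)
    (ϖ : A.comap (algebraMap L Qb)) (hϖ : Irreducible ϖ) (hG : GaussRing ϖ 𝒪L) (u : FF L N') :
    mapFF (algebraMap L Qb) N' u ∈ 𝒪 ↔ u ∈ 𝒪L := by
  constructor
  · intro hu
    by_contra hu'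
    have hu0 : u ≠ 0 := by
      rintro rfl
      exact hu' 𝒪L.zero_mem
    have hinv : u⁻¹ ∈ 𝒪L := (𝒪L.mem_or_inv_mem u).resolve_left hu'
    have h1 : u⁻¹ / algebraMap (A.comap (algebraMap L Qb)) (FF L N') ϖ ∈ 𝒪L := by
      rcases hG.unif _ hinv with h | h
      · exact h
      · rw [inv_inv] at h
        exact absurd h hu'
    have h2 := Tr3_mapFF_mem h𝒪 L 𝒪L hspec h1
    rw [map_div₀, map_inv₀] at h2
    have h3 := mul_mem hu h2
    have hιu0 : mapFF (algebraMap L Qb) N' u ≠ 0 := (map_ne_zero _).2 hu0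
    have h4 : mapFF (algebraMap L Qb) N' u * ((mapFF (algebraMap L Qb) N' u)⁻¹ /
        mapFF (algebraMap L Qb) N' (algebraMap (A.comap (algebraMap L Qb)) (FF L N') ϖ))
        = (mapFF (algebraMap L Qb) N'
          (algebraMap (A.comap (algebraMap L Qb)) (FF L N') ϖ))⁻¹ := by
      rw [div_eq_mul_inv, ← mul_assoc, mul_inv_cancel₀ hιu0, one_mul]
    rw [h4] at h3
    rcases (BR7_mem_nonunits_iff _ _).1 (Tr3_unif_mem_nonunits h𝒪 L ϖ hϖ) with h | h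
    · exact hG.ne_zero ((map_eq_zero _).1 h)
    · exact h h3
  · exact Tr3_mapFF_mem h𝒪 L 𝒪L hspec

theorem mapFF_mem_nonunits_iff {A : ValuationSubring Qb} {N' : ℕ}
    {𝒪 : ValuationSubring (FF Qb N')}
    (h𝒪 : IsGaussRing A N' 𝒪) (L : IntermediateField ℚ Qb) (𝒪L : ValuationSubring (FF L N'))
    (hspec : ∀ u, u ∈ 𝒪L ↔ IsGaussInt (A.comap (algebraMap L Qb)) N' u)
    (ϖ : A.comap (algebraMap L Qb)) (hϖ : Irreducible ϖ) (hG : GaussRing ϖ 𝒪L) (u : FF L N') :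
    mapFF (algebraMap L Qb) N' u ∈ 𝒪.nonunits ↔ u ∈ 𝒪L.nonunits := by
  rw [BR7_mem_nonunits_iff, BR7_mem_nonunits_iff, ← map_inv₀,
    mapFF_mem_iff h𝒪 L 𝒪L hspec ϖ hϖ hG, map_eq_zero]

end Fermat.Agent.GR.S.R
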