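import Fermat.Agent.GR.S.R.Tr1
import Fermat.Agent.GR.S.R.Tr3
import Fermat.Agent.GR.E.BR5

/-!
# GR-S / M-R: saturation and fractions at infinite level
-/

set_option autoImplicit false
set_option synthInstance.maxHeartbeats 400000

noncomputable section

namespace Fermat.Agent.GR.S.R

open AlgebraicCurve ModularCurve Fermat.Agent.GR Fermat.Agent.GR.E Fermat.Agent.S17.FF

variable {A : ValuationSubring Qb} {ℓ : ℕ} {N' : ℕ} {𝒪 : ValuationSubring (FF Qb N')}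
  {x : FF Qb N'}

/-- iterating the saturation property. -/
theorem SatFrac_sat_pow {R F : Type*} [CommRing R] [Field F] [Algebra R F] {ϖ : R}
    {𝒪 : ValuationSubring F} {C : Subalgebra R F} (hG : GaussRing ϖ 𝒪) (hC : SatChart ϖ 𝒪 C)
    (m : ℕ) : ∀ c ∈ C, c / (algebraMap R F ϖ) ^ m ∈ 𝒪 → c / (algebraMap R F ϖ) ^ m ∈ C := by
  induction m with
  | zero =>
    intro c hc _
    rw [pow_zero, div_one]
    exact hc
  | succ m ih =>
    intro c hc h
    have h0 := hG.ne_zero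
    have h1 : c / algebraMap R F ϖ =
        c / (algebraMap R F ϖ) ^ (m + 1) * (algebraMap R F ϖ) ^ m := by
      rw [pow_succ']
      field_simp
    have h2 : c / algebraMap R F ϖ ∈ 𝒪 := by
      rw [h1]
      exact 𝒪.mul_mem _ _ h (pow_mem hG.mem m)
    have h3 := hC.sat c hc h2
    have h4 : c / (algebraMap R F ϖ) ^ (m + 1) =
        c / algebraMap R F ϖ / (algebraMap R F ϖ) ^ m := by
      rw [pow_succ', div_div]
    rw [h4] at h ⊢
    exact ih _ h3 h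

/-- saturation with respect to an arbitrary nonzero constant of the discrete valuation ring. -/
theorem SatFrac_div_mem {R F : Type*} [CommRing R] [IsDomain R] [IsDiscreteValuationRing R]
    [Field F] [Algebra R F] {ϖ : R} (hϖ : Irreducible ϖ) {𝒪 : ValuationSubring F}
    {C : Subalgebra R F} (hG : GaussRing ϖ 𝒪) (hC : SatChart ϖ 𝒪 C) (r : R) (hr : r ≠ 0) (c : F)
    (hc : c ∈ C) (h : c / algebraMap R F r ∈ 𝒪) : c / algebraMap R F r ∈ C := by
  obtain ⟨n, u, hu⟩ := IsDiscreteValuationRing.eq_unit_mul_pow_irreducible hr hϖ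
  have hR𝒪 : ∀ s : R, algebraMap R F s ∈ 𝒪 := fun s => hC.le _ (Subalgebra.algebraMap_mem _ s)
  have hu0 : algebraMap R F (u : R) * algebraMap R F ((u⁻¹ : Rˣ) : R) = 1 := by
    rw [← map_mul, Units.mul_inv, map_one]
  have hu1 : algebraMap R F (u : R) ≠ 0 := left_ne_zero_of_mul_eq_one hu0
  have hϖ0 := hG.ne_zero
  have e1 : c / (algebraMap R F ϖ) ^ n = c / algebraMap R F r * algebraMap R F (u : R) := by
    rw [hu, map_mul, map_pow]
    field_simp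
  have e2 : c / algebraMap R F r =
      c / (algebraMap R F ϖ) ^ n * algebraMap R F ((u⁻¹ : Rˣ) : R) := by
    rw [e1, mul_assoc, hu0, mul_one]
  have h5 : c / (algebraMap R F ϖ) ^ n ∈ 𝒪 := by
    rw [e1]
    exact 𝒪.mul_mem _ _ h (hR𝒪 _)
  have h6 := SatFrac_sat_pow hG hC n c hc h5
  rw [e2]
  exact Subalgebra.mul_mem _ h6 (Subalgebra.algebraMap_mem _ _)

/-- the data at a finite level, with a uniformizer. -/
theorem SatFrac_level (hℓ : ℓ.Prime) (hA : A.LiesOverPrime ℓ) (hx : LevelChart A N' x)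
    (L : IntermediateField ℚ Qb) [FiniteDimensional ℚ L] :
    ∃ (xL : FF L N') (𝒪L : ValuationSubring (FF L N')) (ϖ : A.comap (algebraMap L Qb)),
      mapFF (algebraMap L Qb) N' xL = x ∧
      (∀ u, u ∈ 𝒪L ↔ IsGaussInt (A.comap (algebraMap L Qb)) N' u) ∧ xL ∈ 𝒪L ∧
      Irreducible ϖ ∧ GaussRing ϖ 𝒪L ∧
        GoodChart ϖ 𝒪L (chart (A.comap (algebraMap L Qb)) ({xL} : Set (FF L N'))) := by
  have hdvr := isDiscreteValuationRing_comap A ℓ hℓ hA L
  obtain ⟨ϖ, hϖ⟩ := IsDiscreteValuationRing.exists_irreducible (A.comap (algebraMap L Qb))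
  obtain ⟨xL, 𝒪L, h1, h2, h3, h4⟩ := hx.out L
  exact ⟨xL, 𝒪L, ϖ, h1, h2, h3, hϖ, (h4 ϖ hϖ).1, (h4 ϖ hϖ).2⟩

theorem mem_of_levelChart (hℓ : ℓ.Prime) (hA : A.LiesOverPrime ℓ) (h𝒪 : IsGaussRing A N' 𝒪)
    (hx : LevelChart A N' x) : x ∈ 𝒪 := by
  obtain ⟨xL, 𝒪L, ϖ, h1, h2, h3, hϖ, hG, -⟩ := SatFrac_level hℓ hA hx ⊥
  rw [← h1]
  exact (mapFF_mem_iff h𝒪 ⊥ 𝒪L h2 ϖ hϖ hG xL).2 h3

theorem sat_of_levelChart (hℓ : ℓ.Prime) (hA : A.LiesOverPrime ℓ) (h𝒪 : IsGaussRing A N' 𝒪)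
    (hx : LevelChart A N' x) :
    ∀ c ∈ chart A ({x} : Set (FF Qb N')), ∀ a : Qb, a ≠ 0 →
      c / algebraMap Qb (FF Qb N') a ∈ 𝒪 →
      c / algebraMap Qb (FF Qb N') a ∈ chart A ({x} : Set (FF Qb N')) := by
  intro c hc a ha hca
  obtain ⟨L₀, hL₀, hlev⟩ := exists_level_of_mem_chart A N' x c hc
  have halg : Algebra.IsAlgebraic ℚ Qb := AlgebraicClosure.isAlgebraic ℚ
  have hfa : FiniteDimensional ℚ (IntermediateField.adjoin ℚ ({a} : Set Qb)) :=
    IntermediateField.adjoin.finiteDimensional (Algebra.IsIntegral.isIntegral a)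
  have hfin : FiniteDimensional ℚ ↥(L₀ ⊔ IntermediateField.adjoin ℚ ({a} : Set Qb)) :=
    IntermediateField.finiteDimensional_sup _ _
  obtain ⟨L, hL, hL₀L, haL⟩ : ∃ L : IntermediateField ℚ Qb, FiniteDimensional ℚ L ∧ L₀ ≤ L ∧
      a ∈ L :=
    ⟨L₀ ⊔ IntermediateField.adjoin ℚ ({a} : Set Qb), hfin, le_sup_left,
      (le_sup_right : IntermediateField.adjoin ℚ ({a} : Set Qb) ≤ _)
        (IntermediateField.mem_adjoin_simple_self ℚ a)⟩
  have hdvr := isDiscreteValuationRing_comap A ℓ hℓ hA L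
  obtain ⟨xL, 𝒪L, ϖ, h1, h2, h3, hϖ, hG, hgood⟩ := SatFrac_level hℓ hA hx L
  obtain ⟨c', hc', hcc'⟩ := hlev L hL₀L xL h1
  have hT1 := mapFF_mem_chart A N' L xL
  rw [h1] at hT1
  have hcases : (∃ r : A.comap (algebraMap L Qb), algebraMap L Qb (r : L) = a) ∨
      ∃ r : A.comap (algebraMap L Qb), algebraMap L Qb (r : L) = a⁻¹ := by
    rcases (A.comap (algebraMap L Qb)).mem_or_inv_mem (⟨a, haL⟩ : L) with hr | hr
    · exact Or.inl ⟨⟨_, hr⟩, rfl⟩
    · refine Or.inr ⟨⟨_, hr⟩, ?_⟩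
      change algebraMap L Qb ((⟨a, haL⟩ : L)⁻¹) = a⁻¹
      rw [map_inv₀]
      rfl
  rcases hcases with ⟨r, hr⟩ | ⟨r, hr⟩
  · -- `a` is integral
    have hr0 : r ≠ 0 := by
      rintro rfl
      apply ha
      rw [← hr]
      exact map_zero _
    have hmapa := mapFF_algebraMap A N' L r
    rw [hr] at hmapa
    have hdiv : c' / algebraMap (A.comap (algebraMap L Qb)) (FF L N') r ∈ 𝒪L := by
      rw [← mapFF_mem_iff h𝒪 L 𝒪L h2 ϖ hϖ hG, map_div₀, hcc', hmapa]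
      exact hca
    have h7 := SatFrac_div_mem hϖ hG hgood.toSatChart r hr0 c' hc' hdiv
    have h8 := hT1 _ h7
    rw [map_div₀, hcc', hmapa] at h8
    exact h8
  · -- `a⁻¹` is integral
    have hmapa := mapFF_algebraMap A N' L r
    rw [hr] at hmapa
    have h7 : c' * algebraMap (A.comap (algebraMap L Qb)) (FF L N') r ∈
        chart (A.comap (algebraMap L Qb)) ({xL} : Set (FF L N')) :=
      Subalgebra.mul_mem _ hc' (Subalgebra.algebraMap_mem _ _)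
    have h8 := hT1 _ h7
    rw [map_mul, hcc', hmapa, map_inv₀, ← div_eq_mul_inv] at h8
    exact h8

theorem frac_of_levelChart (hℓ : ℓ.Prime) (hA : A.LiesOverPrime ℓ) (h𝒪 : IsGaussRing A N' 𝒪)
    (hx : LevelChart A N' x) :
    ∀ u ∈ 𝒪, ∃ d ∈ chart A ({x} : Set (FF Qb N')), d ∉ 𝒪.nonunits ∧
      u * d ∈ chart A ({x} : Set (FF Qb N')) := by
  intro u hu
  obtain ⟨L, hL, hlev⟩ := exists_level_of_mem N' u
  obtain ⟨u', hu'⟩ := hlev L le_rfl
  obtain ⟨xL, 𝒪L, ϖ, h1, h2, h3, hϖ, hG, hgood⟩ := SatFrac_level hℓ hA hx L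
  have hT1 := mapFF_mem_chart A N' L xL
  rw [h1] at hT1
  have hu𝒪 : u' ∈ 𝒪L := by
    rw [← mapFF_mem_iff h𝒪 L 𝒪L h2 ϖ hϖ hG, hu']
    exact hu
  obtain ⟨b, hb, hbϖ, hub⟩ := hgood.frac u' hu𝒪
  refine ⟨mapFF (algebraMap L Qb) N' b, hT1 b hb, ?_, ?_⟩
  · rw [mapFF_mem_nonunits_iff h𝒪 L 𝒪L h2 ϖ hϖ hG]
    intro hbn
    have hb𝒪 : b ∈ 𝒪L := hgood.le b hb
    rcases hG.unif b hb𝒪 with h | h
    · exact hbϖ h
    · have hb0 : b ≠ 0 := by
        rintro rfl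
        apply hbϖ
        rw [zero_div]
        exact 𝒪L.zero_mem
      rw [ValuationSubring.mem_nonunits_iff] at hbn
      have h4 := (𝒪L.valuation_le_one_iff b⁻¹).2 h
      rw [map_inv₀] at h4
      have h5 : 𝒪L.valuation b ≠ 0 := (Valuation.ne_zero_iff _).2 hb0
      have h6 : 1 ≤ 𝒪L.valuation b := (inv_le_one₀ (zero_lt_iff.2 h5)).1 h4
      exact absurd hbn (not_lt.2 h6)
  · rw [← hu', ← map_mul]
    exact hT1 _ hub

end Fermat.Agent.GR.S.R
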