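import Fermat.Agent.GR.S.R.Iface
import Fermat.Agent.GR.S.R.AbsCong
import Fermat.Agent.GR.S.R.AbsConst
import Fermat.Agent.GR.S.R.AbsInert
import Fermat.Agent.GR.S.R.Gauss
import Fermat.Agent.GR.S.R.SatFrac
import Fermat.Agent.GR.S.R.Level
import Fermat.Agent.GR.S.R.Inert

/-!
# GR-S / M-R: existence of reduction classes of places
-/

set_option autoImplicit false
set_option synthInstance.maxHeartbeats 400000

noncomputable section

namespace Fermat.Agent.GR.S

open AlgebraicCurve ModularCurve Fermat.Agent.GR Fermat.Agent.GR.E Fermat.Agent.S17.FF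
open Fermat.Agent.GR.S.R

theorem Main_levelChart (A : ValuationSubring Kb) (ℓ : ℕ) (hℓ : ℓ.Prime) (hA : A.LiesOverPrime ℓ)
    (N' : ℕ) (H : LaurentSeries ℤ) (hM : HasModel A N' H) :
    LevelChart A N' (⟨baseFn Qb H, hM.mem Qb⟩ : FF Qb N') ∧
      LevelChart A N' (⟨baseFn Qb H, hM.mem Qb⟩ : FF Qb N')⁻¹ := by
  constructor
  · refine ⟨fun L _ => ?_⟩
    obtain ⟨𝒪L, MD⟩ := hM.model L (isDiscreteValuationRing_comap A ℓ hℓ hA L)
    exact ⟨⟨baseFn L H, hM.mem L⟩, 𝒪L, BR7_mapFF_baseFn L N' H _ _, MD.spec, MD.mem,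
      fun ϖ hϖ => ⟨MD.gauss ϖ hϖ, MD.good0 ϖ hϖ⟩⟩
  · refine ⟨fun L _ => ?_⟩
    obtain ⟨𝒪L, MD⟩ := hM.model L (isDiscreteValuationRing_comap A ℓ hℓ hA L)
    refine ⟨(⟨baseFn L H, hM.mem L⟩ : FF L N')⁻¹, 𝒪L, ?_, MD.spec, MD.inv_mem,
      fun ϖ hϖ => ⟨MD.gauss ϖ hϖ, MD.good1 ϖ hϖ⟩⟩
    rw [map_inv₀, BR7_mapFF_baseFn L N' H _ (hM.mem Qb)]

theorem Main_rChart {A : ValuationSubring Kb} {ℓ : ℕ} (hℓ : ℓ.Prime) (hA : A.LiesOverPrime ℓ)
    {N' : ℕ} [IsFF Qb (FF Qb N')] {𝒪 : ValuationSubring (FF Qb N')} (h𝒪 : IsGaussRing A N' 𝒪)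
    {x : FF Qb N'} (hx : LevelChart A N' x) (ht : Transcendental Qb x) : RChart A 𝒪 x where
  transc := ht
  mem := mem_of_levelChart hℓ hA h𝒪 hx
  sat := sat_of_levelChart hℓ hA h𝒪 hx
  frac := frac_of_levelChart hℓ hA h𝒪 hx
  levels := hasLevels_of_levelChart hℓ hA hx

theorem exists_isRed (A : ValuationSubring Kb) (ℓ : ℕ) (hℓ : ℓ.Prime) (hA : A.LiesOverPrime ℓ)
    (N' : ℕ) (hN' : N' ≠ 0) (H : LaurentSeries ℤ) (hM : HasModel A N' H)
    (E : IntermediateField Kb (LaurentSeries Kb)) (hE : E = FF Kb N') :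
    ∃ (S : Type) (r : Place Kb E → S), IsRed A E r := by
  subst hE
  haveI : IsFF Qb (FF Qb N') := ⟨⟨_, hM.transc, hM.finDim⟩⟩
  obtain ⟨𝒪, h𝒪⟩ := exists_isGaussRing A N'
  have G : GaussData A 𝒪 := h𝒪.gaussData
  set h : FF Qb N' := ⟨baseFn Qb H, hM.mem Qb⟩ with hh
  obtain ⟨L0, L1⟩ := Main_levelChart A ℓ hℓ hA N' H hM
  have C0 : RChart A 𝒪 h := Main_rChart hℓ hA h𝒪 L0 hM.transc
  have C1 : RChart A 𝒪 h⁻¹ := Main_rChart hℓ hA h𝒪 L1 (BR7_transcendental_inv hM.transc)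
  have h0 : h ≠ 0 := by
    intro h0
    apply hM.transc
    rw [← hh, h0]
    exact isAlgebraic_zero
  refine ⟨Set (FF Qb N') ⊕ Set (FF Qb N'), R.red A h, ?_, ?_, ?_⟩
  · -- inert
    intro σ g hσ hg P
    refine red_smul G h0 C0 C1 g (smul_baseFn H _ σ g hg) (fun a => ?_)
      (smul_sub_mem_nonunits h𝒪 σ hσ g hg) P
    rw [baseAut_eq_of_gal σ g hg a]
    exact mem_iff_of_mem_inertia σ hσ a
  · -- cong
    intro a b ha hb hab D hD
    have hb0 : b ≠ 0 := by
      rintro rfl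
      obtain ⟨_, n, hn⟩ := hb
      exact hn (by simpa using A.nonunits.zero_mem)
    have hw : a / b - 1 ∈ 𝒪.nonunits := by
      rw [h𝒪.spec']
      refine ⟨(a : LaurentSeries Qb) - b, b, sub_mem a.2 b.2, b.2, fun n => ?_, hb, ?_⟩
      · rw [HahnSeries.coeff_sub]
        exact hab n
      · have : (a / b - 1) * b = a - b := by field_simp
        exact_mod_cast congrArg (Subtype.val) this
    have hD' : D = divf (K := Qb) (a / b) := by
      ext P
      rw [hD P, divf_apply]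
    rw [hD']
    exact mapDomain_red_eq_zero G h0 C0 C1 hw
  · -- const
    intro u hu D hD hD0
    have hD' : D = divf (K := Qb) u := by
      ext P
      rw [hD P, divf_apply]
    rw [hD'] at hD0
    obtain ⟨κ, hκ, hmem⟩ := exists_const_of_mapDomain_red G h0 C0 C1 hu hD0
    rw [h𝒪.spec'] at hmem
    obtain ⟨f, g, hf, hg, hf0, hgp, hfg⟩ := hmem
    have hC : ((algebraMap Qb (FF Qb N') κ : FF Qb N') : LaurentSeries Qb) = HahnSeries.C κ := by
      rw [IntermediateField.coe_algebraMap_apply, algebraMap_laurentSeries_eq_single,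
        HahnSeries.C_apply]
    have hC0 : (HahnSeries.C κ : LaurentSeries Qb) ≠ 0 := by
      rw [← hC]
      simpa using hκ
    refine ⟨κ, ⟨f + g, add_mem hf hg⟩, ⟨g, hg⟩, hκ, ⟨fun n => ?_, ?_⟩, hgp.1, fun n => ?_, ?_⟩
    · change (f + g).coeff n ∈ A
      rw [HahnSeries.coeff_add]
      exact A.add_mem _ _ (A.nonunits_subset (hf0 n)) (hgp.1 n)
    · obtain ⟨n, hn⟩ := hgp.2
      refine ⟨n, fun hmem => hn ?_⟩
      change (f + g).coeff n ∈ A.nonunits at hmem
      rw [HahnSeries.coeff_add] at hmem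
      have h1 : -f.coeff n ∈ A.nonunits := by
        rw [ValuationSubring.mem_nonunits_iff, Valuation.map_neg,
          ← ValuationSubring.mem_nonunits_iff]
        exact hf0 n
      have h2 := BR7_add_mem_nonunits A hmem h1
      rwa [add_comm (f.coeff n), add_neg_cancel_right] at h2
    · change (f + g).coeff n - g.coeff n ∈ A.nonunits
      rw [HahnSeries.coeff_add, add_sub_cancel_right]
      exact hf0 n
    · change (u : LaurentSeries Qb) * g = HahnSeries.C κ * (f + g)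
      have e : ((u / algebraMap Qb (FF Qb N') κ - 1 : FF Qb N') : LaurentSeries Qb) =
          (u : LaurentSeries Qb) / HahnSeries.C κ - 1 := by
        rw [← hC]
        push_cast
        rfl
      rw [← hfg, e]
      field_simp
      ring

end Fermat.Agent.GR.S
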