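import Fermat.Agent.GR.S.R.Dom

/-!
# GR-S / M-R: uniformizers and separating functions in the chart ring
-/

set_option autoImplicit false

noncomputable section

namespace Fermat.Agent.GR.S.R

open AlgebraicCurve Fermat.Agent.GR.E Fermat.Agent.S17.FF

variable {Ω F : Type} [Field Ω] [IsAlgClosed Ω] [CharZero Ω] [Field F] [Algebra Ω F] [IsFF Ω F]
variable {A : ValuationSubring Ω} {𝒪 : ValuationSubring F}

variable {x : F}

open Fermat.Agent.S24.Zeros in
/-- scaling an element of `chartAlg Ω x` into the chart ring does not change its orders. -/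
theorem Sep_exists_scale (A : ValuationSubring Ω) {f : F} (hf : f ∈ chartAlg Ω x) :
    ∃ z ∈ chart A ({x} : Set F), ∀ P : Place Ω F, P.ord z = P.ord f := by
  obtain ⟨a, -, ha0, haf⟩ := exists_smul_mem_chart (A := A) hf
  refine ⟨_, haf, fun P => ?_⟩
  rcases eq_or_ne f 0 with rfl | hf0
  · rw [mul_zero]
  · have ha' : algebraMap Ω F a ≠ 0 := by
      simpa using (algebraMap Ω F).injective.ne ha0
    rw [P.ord_mul ha' hf0, ord_algebraMap, zero_add]

theorem exists_unif_mem_chart (hx : Transcendental Ω x) {P : Place Ω F} (hP : 0 ≤ P.ord x) :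
    ∃ z ∈ chart A ({x} : Set F), P.ord z = 1 := by
  obtain ⟨π, hπ⟩ := exists_uniformizer P
  obtain ⟨a, ha, b, -, hb0, hb, hab⟩ :=
    (ord_nonneg_iff_exists_div_chartAlg P hx hP π).1 (by omega)
  obtain ⟨z, hz, hzo⟩ := Sep_exists_scale A ha
  refine ⟨z, hz, ?_⟩
  rw [hzo]
  have hπ0 : π ≠ 0 := by
    rintro rfl
    simp at hπ
  have e : a = π * b := by
    rw [hab]
    field_simp
  rw [e, P.ord_mul hπ0 hb0, hπ, hb, add_zero]

open Fermat.Agent.S24.Zeros IsDedekindDomain in
theorem exists_sep_mem_chart (hx : Transcendental Ω x) {P P' : Place Ω F} (hP : 0 ≤ P.ord x)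
    (hP' : 0 ≤ P'.ord x) (hne : P ≠ P') :
    ∃ z ∈ chart A ({x} : Set F), 0 < P.ord z ∧ P'.ord z = 0 := by
  have := finiteDimensional_adjoin hx
  have := isDedekindDomain_intClosure hx
  have := isFractionRing_intClosure (K := Ω) x
  obtain ⟨w, rfl⟩ := exists_heightOneSpectrum (R := intClosure Ω x) P (intClosure_mem P hP)
  obtain ⟨w', rfl⟩ := exists_heightOneSpectrum (R := intClosure Ω x) P' (intClosure_mem P' hP')
  have hww : w ≠ w' := fun h => hne (by rw [h])
  have hnle : ¬ w.asIdeal ≤ w'.asIdeal := by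
    intro hle
    apply hww
    ext1
    exact w.isMaximal.eq_of_le w'.isPrime.ne_top hle
  obtain ⟨r, hr, hr'⟩ := SetLike.not_le_iff_exists.1 hnle
  have hr0 : r ≠ 0 := by
    rintro rfl
    exact hr' (zero_mem _)
  obtain ⟨z, hz, hzo⟩ := Sep_exists_scale (x := x) A (f := algebraMap (intClosure Ω x) F r) r.2
  refine ⟨z, hz, ?_, ?_⟩
  · rw [hzo]
    exact (mem_asIdeal_iff_ord_pos (K := Ω) (F := F) w hr0).1 hr
  · rw [hzo]
    have h1 := (mem_asIdeal_iff_ord_pos (K := Ω) (F := F) w' hr0).not.1 hr'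
    have h2 : 0 ≤ (Place.ofHeightOneSpectrum (K := Ω) (F := F) w').ord
        (algebraMap (intClosure Ω x) F r) :=
      ord_nonneg_of_mem _ (algebraMap_mem_ofHeightOneSpectrum w' _)
    omega

end Fermat.Agent.GR.S.R
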