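import Fermat.Agent.GR.S.R.EZ2
import Fermat.Agent.GR.S.R.Cnt
import Fermat.Agent.GR.S.R.Sep
import Fermat.Agent.GR.S.R.NU

/-!
# GR-S / M-R: local normal form `σ y ≡ t ^ n w` at a point of the special fibre
-/

set_option autoImplicit false

noncomputable section

namespace Fermat.Agent.GR.S.R

open AlgebraicCurve Fermat.Agent.GR.E Fermat.Agent.S17.FF

variable {Ω F : Type} [Field Ω] [IsAlgClosed Ω] [CharZero Ω] [Field F] [Algebra Ω F] [IsFF Ω F]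
variable {A : ValuationSubring Ω} {𝒪 : ValuationSubring F}

variable {x : F}

/-- the peeling induction on a level `(C', t)`. -/
theorem NF_induction (G : GaussData A 𝒪) (hC : RChart A 𝒪 x) {P₀ : Place Ω F}
    (hP₀ : Dom A x P₀) (T : Finset (Place Ω F)) (C' : Subring F) (t : F)
    (hsub : ∀ c ∈ C', c ∈ chart A ({x} : Set F)) (htC : t ∈ C') (hts : t ∈ ker A x P₀)
    (hlev : ∀ P ∈ T, ∀ z ∈ C', val P z = 0 → ∃ σ ∈ C', σ ∉ ker A x P₀ ∧ ∃ c ∈ C',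
        σ * z = (t - algebraMap Ω F (val P t)) * c)
    (hT : ∀ P ∈ T, P ∈ cls A x (ker A x P₀))
    (hu : ∀ P ∈ T, ∃ z ∈ C', P.ord z = 1)
    (hs : ∀ P ∈ T, ∀ P' ∈ T, P ≠ P' → ∃ z ∈ C', 0 < P.ord z ∧ P'.ord z = 0) :
    ∀ (n : ℕ) (y : F), y ∈ C' → y ∉ 𝒪.nonunits →
      (∀ P ∈ cls A x (ker A x P₀), 0 < P.ord y → P ∈ T) →
      (n : ℤ) = cnt (cls A x (ker A x P₀)) y →
      ∃ σ ∈ C', σ ∉ ker A x P₀ ∧ ∃ w ∈ C', w ∉ ker A x P₀ ∧ σ * y - t ^ n * w ∈ 𝒪.nonunits := by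
  have hO : ∀ c ∈ C', c ∈ 𝒪 := fun c hc => mem_of_mem_chart G hC.mem (hsub c hc)
  have hord : ∀ P ∈ cls A x (ker A x P₀), ∀ c ∈ C', 0 ≤ P.ord c := fun P hP c hc =>
    ord_nonneg_of_mem_chart hP.1 (hsub c hc)
  have hord0 : ∀ P ∈ cls A x (ker A x P₀), ∀ c ∈ C', c ∉ ker A x P₀ → P.ord c = 0 := by
    intro P hP c hc hc'
    exact ord_eq_zero_of_not_mem_ker hP.1 (hsub c hc) (by rw [hP.2]; exact hc')
  have hnu : ∀ c ∈ C', c ∉ ker A x P₀ → c ∉ 𝒪.nonunits := fun c hc hc' h =>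
    hc' (mem_ker_of_mem_nonunits G hC hP₀ (hsub c hc) h)
  intro n
  induction n with
  | zero =>
    intro y hy hy' _ hcnt
    refine ⟨1, C'.one_mem, one_not_mem_ker P₀, y, hy, ?_, ?_⟩
    · intro hys
      obtain ⟨P, hP, hPk, hv⟩ := exists_zero_of_mem_ker G hC hP₀ hys hy'
      have hPX : P ∈ cls A x (ker A x P₀) := ⟨hP, hPk⟩
      have hpos : 0 < P.ord y := by
        rcases (val_eq_zero_iff P (hord P hPX y hy)).1 hv with h | h
        · exact absurd h (ne_zero_of_not_nu hy')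
        · exact h
      have := cnt_pos_of_exists _ y (fun Q hQ => hord Q hQ y hy) hPX hpos
      rw [← hcnt] at this
      simp at this
    · rw [pow_zero, one_mul, sub_self]
      exact nu_zero
  | succ n ih =>
    intro y hy hy' hyT hcnt
    have hy0 : y ≠ 0 := ne_zero_of_not_nu hy'
    have hne : cnt (cls A x (ker A x P₀)) y ≠ 0 := by
      rw [← hcnt]
      exact_mod_cast Nat.succ_ne_zero n
    obtain ⟨P₁, hP₁X, hP₁pos⟩ :=
      exists_pos_of_cnt_ne_zero _ y (fun Q hQ => hord Q hQ y hy) hne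
    have hP₁T : P₁ ∈ T := hyT P₁ hP₁X hP₁pos
    have hv₁ : val P₁ y = 0 :=
      (val_eq_zero_iff P₁ (hord P₁ hP₁X y hy)).2 (Or.inr hP₁pos)
    obtain ⟨σ₁, hσ₁C, hσ₁s, y', hy'C, heq⟩ := hlev P₁ hP₁T y hy hv₁
    set t₁ : F := t - algebraMap Ω F (val P₁ t) with ht₁
    have hvt : val P₁ t ∈ A.nonunits := by
      have : t ∈ ker A x P₁ := by rw [hP₁X.2]; exact hts
      exact this.2
    have ht₁ch : t₁ ∈ chart A ({x} : Set F) :=
      Subalgebra.sub_mem _ (hsub t htC) (algebraMap_mem_chart (A.nonunits_subset hvt))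
    have ht₁O : t₁ ∈ 𝒪 := mem_of_mem_chart G hC.mem ht₁ch
    have hσ₁0 : σ₁ ≠ 0 := ne_zero_of_not_nu (hnu σ₁ hσ₁C hσ₁s)
    have hprod : σ₁ * y ∉ 𝒪.nonunits := not_nu_mul (hO σ₁ hσ₁C) (hnu σ₁ hσ₁C hσ₁s) hy'
    have ht₁0 : t₁ ≠ 0 := by
      intro h
      rw [heq, h, zero_mul] at hprod
      exact hprod nu_zero
    have hy'0 : y' ≠ 0 := by
      intro h
      rw [heq, h, mul_zero] at hprod
      exact hprod nu_zero
    have hy'nu : y' ∉ 𝒪.nonunits := by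
      intro h
      rw [heq] at hprod
      exact hprod (nu_mul_left ht₁O h)
    have hordt : ∀ P ∈ cls A x (ker A x P₀), 0 ≤ P.ord t₁ := fun P hP =>
      ord_nonneg_of_mem_chart hP.1 ht₁ch
    -- orders
    have hordeq : ∀ P ∈ cls A x (ker A x P₀), P.ord y = P.ord t₁ + P.ord y' := by
      intro P hP
      have h1 : P.ord (σ₁ * y) = P.ord (t₁ * y') := by rw [heq]
      rw [P.ord_mul hσ₁0 hy0, P.ord_mul ht₁0 hy'0, hord0 P hP σ₁ hσ₁C hσ₁s, zero_add] at h1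
      exact h1
    -- the local equation has a simple zero at `P₁` and no other zero in the class
    have hvalt₁ : val P₁ t₁ = 0 := by
      rw [val_eq_zero_iff P₁ (hordt P₁ hP₁X)]
      have := (val_eq_iff P₁ (hord P₁ hP₁X t htC) (val P₁ t)).1 rfl
      rcases this with h | h
      · exact Or.inl (by rw [ht₁, sub_eq_zero]; exact h)
      · exact Or.inr h
    have hpos₁ : 0 < P₁.ord t₁ := by
      rcases (val_eq_zero_iff P₁ (hordt P₁ hP₁X)).1 hvalt₁ with h | h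
      · exact absurd h ht₁0
      · exact h
    have hone : P₁.ord t₁ = 1 := by
      obtain ⟨z, hzC, hz1⟩ := hu P₁ hP₁T
      have hz0 : z ≠ 0 := by
        rintro rfl
        simp at hz1
      have hvz : val P₁ z = 0 :=
        (val_eq_zero_iff P₁ (hord P₁ hP₁X z hzC)).2 (Or.inr (by rw [hz1]; exact one_pos))
      obtain ⟨σ, hσC, hσs, c, hcC, hc⟩ := hlev P₁ hP₁T z hzC hvz
      have hσ0 : σ ≠ 0 := ne_zero_of_not_nu (hnu σ hσC hσs)
      have hc0 : c ≠ 0 := by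
        rintro rfl
        rw [mul_zero] at hc
        exact (mul_ne_zero hσ0 hz0) hc
      have h1 : P₁.ord (σ * z) = P₁.ord (t₁ * c) := by rw [hc]
      rw [P₁.ord_mul hσ0 hz0, P₁.ord_mul ht₁0 hc0, hord0 P₁ hP₁X σ hσC hσs, hz1] at h1
      have := hord P₁ hP₁X c hcC
      omega
    have hother : ∀ P ∈ cls A x (ker A x P₀), P ≠ P₁ → P.ord t₁ = 0 := by
      intro P hP hne
      by_contra hcon
      have hpos : 0 < P.ord t₁ := lt_of_le_of_ne (hordt P hP) (Ne.symm hcon)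
      have hPT : P ∈ T := by
        apply hyT P hP
        rw [hordeq P hP]
        have := hord P hP y' hy'C
        omega
      obtain ⟨z, hzC, hz1, hz2⟩ := hs P₁ hP₁T P hPT (Ne.symm hne)
      have hz0 : z ≠ 0 := by
        rintro rfl
        simp at hz1
      have hvz : val P₁ z = 0 :=
        (val_eq_zero_iff P₁ (hord P₁ hP₁X z hzC)).2 (Or.inr hz1)
      obtain ⟨σ, hσC, hσs, c, hcC, hc⟩ := hlev P₁ hP₁T z hzC hvz
      have hσ0 : σ ≠ 0 := ne_zero_of_not_nu (hnu σ hσC hσs)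
      have hc0 : c ≠ 0 := by
        rintro rfl
        rw [mul_zero] at hc
        exact (mul_ne_zero hσ0 hz0) hc
      have h1 : P.ord (σ * z) = P.ord (t₁ * c) := by rw [hc]
      rw [P.ord_mul hσ0 hz0, P.ord_mul ht₁0 hc0, hord0 P hP σ hσC hσs, hz2] at h1
      have := hord P hP c hcC
      omega
    have hcntt : cnt (cls A x (ker A x P₀)) t₁ = 1 := cnt_eq_one _ t₁ hP₁X hone hother
    have hcntσ : cnt (cls A x (ker A x P₀)) σ₁ = 0 :=
      cnt_eq_zero_of_forall _ σ₁ fun P hP => hord0 P hP σ₁ hσ₁C hσ₁s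
    have hcnt' : (n : ℤ) = cnt (cls A x (ker A x P₀)) y' := by
      have h1 : cnt (cls A x (ker A x P₀)) (σ₁ * y) = cnt (cls A x (ker A x P₀)) (t₁ * y') := by
        rw [heq]
      rw [cnt_mul _ hσ₁0 hy0, cnt_mul _ ht₁0 hy'0, hcntσ, hcntt, ← hcnt] at h1
      push_cast at h1
      omega
    obtain ⟨σ', hσ'C, hσ's, w, hwC, hws, hrel⟩ := ih y' hy'C hy'nu (by
      intro P hP hpos
      apply hyT P hP
      rw [hordeq P hP]
      have := hordt P hP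
      omega) hcnt'
    refine ⟨σ' * σ₁, C'.mul_mem hσ'C hσ₁C,
      mul_not_mem_ker hP₀ (hsub _ hσ'C) (hsub _ hσ₁C) hσ's hσ₁s, w, hwC, hws, ?_⟩
    have hid : σ' * σ₁ * y - t ^ (n + 1) * w =
        t₁ * (σ' * y' - t ^ n * w) + (-(algebraMap Ω F (val P₁ t))) * (t ^ n * w) := by
      have : σ' * σ₁ * y = σ' * (t₁ * y') := by rw [← heq]; ring
      rw [this, ht₁]
      ring
    rw [hid]
    refine nu_add (nu_mul_left ht₁O hrel) (nu_mul_right (nu_neg ?_) ?_)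
    · exact (algebraMap_mem_nonunits_iff G _).2 hvt
    · exact 𝒪.mul_mem _ _ (𝒪.pow_mem (hO t htC) n) (hO w hwC)

/-- (NF) `n_i` is the number of zeros of `y_i` in the class of `P₀`. -/
theorem exists_normal_form (G : GaussData A 𝒪) (hC : RChart A 𝒪 x) {P₀ : Place Ω F}
    (hP₀ : Dom A x P₀) {y₁ y₂ : F} (h₁ : y₁ ∈ chart A ({x} : Set F))
    (h₂ : y₂ ∈ chart A ({x} : Set F)) (h₁' : y₁ ∉ 𝒪.nonunits) (h₂' : y₂ ∉ 𝒪.nonunits) :
    ∃ t ∈ ker A x P₀, t ∉ 𝒪.nonunits ∧ ∃ n₁ n₂ : ℕ,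
      (n₁ : ℤ) = cnt (cls A x (ker A x P₀)) y₁ ∧ (n₂ : ℤ) = cnt (cls A x (ker A x P₀)) y₂ ∧
      (∃ σ ∈ chart A ({x} : Set F), σ ∉ ker A x P₀ ∧ ∃ w ∈ chart A ({x} : Set F),
        w ∉ ker A x P₀ ∧ σ * y₁ - t ^ n₁ * w ∈ 𝒪.nonunits) ∧
      (∃ σ ∈ chart A ({x} : Set F), σ ∉ ker A x P₀ ∧ ∃ w ∈ chart A ({x} : Set F),
        w ∉ ker A x P₀ ∧ σ * y₂ - t ^ n₂ * w ∈ 𝒪.nonunits) := by
  classical
  set X := cls A x (ker A x P₀) with hX
  have hP₀X : P₀ ∈ X := ⟨hP₀, rfl⟩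
  -- the finite set of points
  have hfin : {P : Place Ω F | P ∈ X ∧ (P = P₀ ∨ 0 < P.ord y₁ ∨ 0 < P.ord y₂)}.Finite := by
    refine (((Set.finite_singleton P₀).union (finite_zeros' y₁)).union (finite_zeros' y₂)).subset ?_
    rintro P ⟨_, h | h | h⟩
    · exact Or.inl (Or.inl h)
    · exact Or.inl (Or.inr h)
    · exact Or.inr h
  set T : Finset (Place Ω F) := hfin.toFinset with hTdef
  have hTmem : ∀ P, P ∈ T ↔ P ∈ X ∧ (P = P₀ ∨ 0 < P.ord y₁ ∨ 0 < P.ord y₂) := by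
    intro P
    rw [hTdef, Set.Finite.mem_toFinset]
    rfl
  have hTX : ∀ P ∈ T, P ∈ X := fun P hP => ((hTmem P).1 hP).1
  -- uniformizers and separating functions
  have hex1 : ∀ P : Place Ω F, ∃ z ∈ chart A ({x} : Set F), 0 ≤ P.ord x → P.ord z = 1 := by
    intro P
    by_cases hP : 0 ≤ P.ord x
    · obtain ⟨z, hz, h⟩ := exists_unif_mem_chart (A := A) hC.transc hP
      exact ⟨z, hz, fun _ => h⟩
    · exact ⟨0, Subalgebra.zero_mem _, fun h => absurd h hP⟩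
  choose zu hzu hzu' using hex1
  have hex2 : ∀ p : Place Ω F × Place Ω F, ∃ z ∈ chart A ({x} : Set F),
      0 ≤ p.1.ord x → 0 ≤ p.2.ord x → p.1 ≠ p.2 → 0 < p.1.ord z ∧ p.2.ord z = 0 := by
    intro p
    by_cases hP : 0 ≤ p.1.ord x ∧ 0 ≤ p.2.ord x ∧ p.1 ≠ p.2
    · obtain ⟨z, hz, h⟩ := exists_sep_mem_chart (A := A) hC.transc hP.1 hP.2.1 hP.2.2
      exact ⟨z, hz, fun _ _ _ => h⟩
    · exact ⟨0, Subalgebra.zero_mem _, fun h1 h2 h3 => absurd ⟨h1, h2, h3⟩ hP⟩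
  choose zs hzs hzs' using hex2
  set x₀ : F := x - algebraMap Ω F (val P₀ x) with hx₀
  have hx₀ch : x₀ ∈ chart A ({x} : Set F) :=
    Subalgebra.sub_mem _ self_mem_chart (algebraMap_mem_chart hP₀.2)
  set Z : Finset F := ({y₁, y₂, x₀} : Finset F) ∪ T.image zu ∪ (T ×ˢ T).image zs with hZdef
  have hZch : ∀ z ∈ Z, z ∈ chart A ({x} : Set F) := by
    intro z hz
    rw [hZdef, Finset.mem_union, Finset.mem_union] at hz
    rcases hz with (hz | hz) | hz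
    · simp only [Finset.mem_insert, Finset.mem_singleton] at hz
      rcases hz with rfl | rfl | rfl
      · exact h₁
      · exact h₂
      · exact hx₀ch
    · obtain ⟨P, _, rfl⟩ := Finset.mem_image.1 hz
      exact hzu P
    · obtain ⟨p, _, rfl⟩ := Finset.mem_image.1 hz
      exact hzs p
  obtain ⟨C', t, hsub, hZC, htC, hts, hlev⟩ := hC.levels P₀ hP₀ T (fun P hP => hTX P hP) Z hZch
  have hy₁C : y₁ ∈ C' := hZC _ (by simp [hZdef])
  have hy₂C : y₂ ∈ C' := hZC _ (by simp [hZdef])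
  have hx₀C : x₀ ∈ C' := hZC _ (by simp [hZdef])
  have hu : ∀ P ∈ T, ∃ z ∈ C', P.ord z = 1 := by
    intro P hP
    refine ⟨zu P, hZC _ ?_, hzu' P (hTX P hP).1.1⟩
    rw [hZdef, Finset.mem_union, Finset.mem_union]
    exact Or.inl (Or.inr (Finset.mem_image_of_mem _ hP))
  have hs : ∀ P ∈ T, ∀ P' ∈ T, P ≠ P' → ∃ z ∈ C', 0 < P.ord z ∧ P'.ord z = 0 := by
    intro P hP P' hP' hne
    refine ⟨zs (P, P'), hZC _ ?_, hzs' (P, P') (hTX P hP).1.1 (hTX P' hP').1.1 hne⟩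
    rw [hZdef, Finset.mem_union]
    exact Or.inr (Finset.mem_image_of_mem _ (Finset.mem_product.2 ⟨hP, hP'⟩))
  have hind := NF_induction G hC hP₀ T C' t hsub htC hts hlev hTX hu hs
  have hP₀T : P₀ ∈ T := (hTmem P₀).2 ⟨hP₀X, Or.inl rfl⟩
  -- `t` is primitive
  have htnu : t ∉ 𝒪.nonunits := by
    intro ht
    have hvx : val P₀ x₀ = 0 := (sub_val_mem_ker hP₀ (self_mem_chart (A := A) (x := x))) |> fun h => by
      have h2 := (val_eq_iff P₀ hP₀.1 (val P₀ x)).1 rfl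
      rw [val_eq_zero_iff P₀ (ord_nonneg_of_mem_chart hP₀ hx₀ch)]
      rcases h2 with h2 | h2
      · exact Or.inl (by rw [hx₀, sub_eq_zero]; exact h2)
      · exact Or.inr h2
    obtain ⟨σ, hσC, hσs, c, hcC, hc⟩ := hlev P₀ hP₀T x₀ hx₀C hvx
    have hσnu : σ ∉ 𝒪.nonunits := fun h =>
      hσs (mem_ker_of_mem_nonunits G hC hP₀ (hsub σ hσC) h)
    have hprod : σ * x₀ ∉ 𝒪.nonunits :=
      not_nu_mul (mem_of_mem_chart G hC.mem (hsub σ hσC)) hσnu (hC.nonconst G hP₀.2)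
    apply hprod
    rw [hc]
    refine nu_mul_right (nu_sub ht ?_) (mem_of_mem_chart G hC.mem (hsub c hcC))
    exact (algebraMap_mem_nonunits_iff G _).2 hts.2
  have hnn₁ : 0 ≤ cnt X y₁ := cnt_nonneg _ _ fun P hP => ord_nonneg_of_mem_chart hP.1 h₁
  have hnn₂ : 0 ≤ cnt X y₂ := cnt_nonneg _ _ fun P hP => ord_nonneg_of_mem_chart hP.1 h₂
  refine ⟨t, hts, htnu, (cnt X y₁).toNat, (cnt X y₂).toNat, Int.toNat_of_nonneg hnn₁,
    Int.toNat_of_nonneg hnn₂, ?_, ?_⟩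
  · obtain ⟨σ, hσC, hσs, w, hwC, hws, h⟩ := hind _ y₁ hy₁C h₁'
      (fun P hP hpos => (hTmem P).2 ⟨hP, Or.inr (Or.inl hpos)⟩) (Int.toNat_of_nonneg hnn₁)
    exact ⟨σ, hsub σ hσC, hσs, w, hsub w hwC, hws, h⟩
  · obtain ⟨σ, hσC, hσs, w, hwC, hws, h⟩ := hind _ y₂ hy₂C h₂'
      (fun P hP hpos => (hTmem P).2 ⟨hP, Or.inr (Or.inr hpos)⟩) (Int.toNat_of_nonneg hnn₂)
    exact ⟨σ, hsub σ hσC, hσs, w, hsub w hwC, hws, h⟩

end Fermat.Agent.GR.S.R
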