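import Fermat.Agent.GR.S.R.Semi
import Fermat.Agent.GR.E.BR3
import Fermat.Agent.GR.S.R.LDefs
import Fermat.Agent.GR.C.Basic

/-!
# GR-S / M-R: every place is rational over a finite level
-/

set_option autoImplicit false
set_option synthInstance.maxHeartbeats 400000

noncomputable section

namespace Fermat.Agent.GR.S.R

open AlgebraicCurve ModularCurve Fermat.Agent.GR Fermat.Agent.GR.E Fermat.Agent.S17.FF

/-- two distinct places are separated by a function. -/
theorem Rat_exists_sep {K F : Type} [Field K] [IsAlgClosed K] [CharZero K] [Field F] [Algebra K F]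
    [IsFF K F] {P Q : Place K F} (h : P ≠ Q) : ∃ z : F, 0 < P.ord z ∧ Q.ord z ≤ 0 := by
  have hne : P.toValuationSubring ≠ Q.toValuationSubring := fun h' => h (Place.ext h')
  have hex : ∃ f : F, (0 ≤ P.ord f ∧ Q.ord f < 0) ∨ (0 ≤ Q.ord f ∧ P.ord f < 0) := by
    by_contra hcon
    push Not at hcon
    apply hne
    ext f
    rw [Fermat.Agent.S24.Zeros.mem_iff_ord_nonneg', Fermat.Agent.S24.Zeros.mem_iff_ord_nonneg']
    exact ⟨fun hf => (hcon f).1 hf, fun hf => (hcon f).2 hf⟩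
  obtain ⟨f, ⟨hP, hQ⟩ | ⟨hQ, hP⟩⟩ := hex
  · obtain ⟨π, hπ⟩ := exists_uniformizer P
    have hπ0 : π ≠ 0 := by
      rintro rfl
      simp at hπ
    have hf0 : f ≠ 0 := by
      rintro rfl
      simp at hQ
    by_cases hQπ : Q.ord π ≤ 0
    · exact ⟨π, by rw [hπ]; exact one_pos, hQπ⟩
    · push Not at hQπ
      refine ⟨π * f ^ (Q.ord π), ?_, ?_⟩
      · rw [P.ord_mul hπ0 (zpow_ne_zero _ hf0), P.ord_zpow, hπ]
        have := mul_nonneg hQπ.le hP
        omega
      · rw [Q.ord_mul hπ0 (zpow_ne_zero _ hf0), Q.ord_zpow]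
        nlinarith
  · refine ⟨f⁻¹, ?_, ?_⟩
    · rw [P.ord_inv]
      omega
    · rw [Q.ord_inv]
      omega

/-- an automorphism fixing `L` fixes the functions defined over `L`. -/
theorem Rat_smul_eq (N' : ℕ) (L : IntermediateField ℚ Qb) (σ : Qb ≃ₐ[ℚ] Qb)
    (hσ : ∀ c ∈ L, σ c = c) (u : FF Qb N') (u' : LaurentSeries L)
    (hu : coeffMap (algebraMap L Qb) u' = (u : LaurentSeries Qb)) :
    C.ffAut N' σ.toRingEquiv • u = u := by
  apply Subtype.ext
  rw [C.coe_ffAut_smul, ← hu, coeffMap_coeffMap]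
  have : ((σ.toRingEquiv : Qb →+* Qb).comp (algebraMap L Qb)) = algebraMap L Qb :=
    RingHom.ext fun c => hσ _ c.2
  rw [this]

/-- (RAT) -/
theorem exists_level_rational (N' : ℕ) [IsFF Qb (FF Qb N')] (P : Place Qb (FF Qb N')) :
    ∃ L₀ : IntermediateField ℚ Qb, FiniteDimensional ℚ L₀ ∧ ∀ L : IntermediateField ℚ Qb, L₀ ≤ L →
      ∀ u : FF L N', 0 ≤ P.ord (mapFF (algebraMap L Qb) N' u) →
        val P (mapFF (algebraMap L Qb) N' u) ∈ L := by
  classical
  obtain ⟨x, hx, hxP⟩ : ∃ x : FF Qb N', Transcendental Qb x ∧ 0 ≤ P.ord x := by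
    obtain ⟨x₀, hx₀, _⟩ := IsFF.out (K := Qb) (F := FF Qb N')
    by_cases h : 0 ≤ P.ord x₀
    · exact ⟨x₀, hx₀, h⟩
    · refine ⟨x₀⁻¹, Fermat.Agent.S24.Zeros.transcendental_inv hx₀, ?_⟩
      rw [P.ord_inv]
      omega
  set w : FF Qb N' := x - algebraMap Qb (FF Qb N') (val P x) with hw
  have hw0 : w ≠ 0 := by
    intro h
    rw [hw, sub_eq_zero] at h
    exact hx (h ▸ isAlgebraic_algebraMap _)
  have hwP : 0 < P.ord w := by
    rcases (val_eq_iff P hxP (val P x)).1 rfl with h | h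
    · exact absurd (sub_eq_zero.2 h) hw0
    · exact h
  have hex : ∀ Q : Place Qb (FF Qb N'), ∃ z : FF Qb N', Q ≠ P → 0 < P.ord z ∧ Q.ord z ≤ 0 := by
    intro Q
    by_cases hQ : Q = P
    · exact ⟨0, fun h => absurd hQ h⟩
    · obtain ⟨z, hz⟩ := Rat_exists_sep (Ne.symm hQ)
      exact ⟨z, fun _ => hz⟩
  choose z hz using hex
  set Φ : Finset (Place Qb (FF Qb N')) := (finite_zeros' w).toFinset with hΦ
  obtain ⟨L₀, hL₀, hlev⟩ := exists_level N'
    (insert (w : LaurentSeries Qb) (Φ.image fun Q => (z Q : LaurentSeries Qb))) (by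
      intro u hu
      rcases Finset.mem_insert.1 hu with rfl | hu
      · exact w.2
      · obtain ⟨Q, _, rfl⟩ := Finset.mem_image.1 hu
        exact (z Q).2)
  refine ⟨L₀, hL₀, fun L hL u hu => ?_⟩
  -- automorphisms fixing `L₀` fix `P`
  have hfix : ∀ σ : Qb ≃ₐ[ℚ] Qb, (∀ c ∈ L₀, σ c = c) → C.ffAut N' σ.toRingEquiv • P = P := by
    intro σ hσ
    set g := C.ffAut N' σ.toRingEquiv with hg
    have hgw : g • w = w := by
      obtain ⟨w', _, hw'⟩ := hlev _ (Finset.mem_insert_self _ _)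
      exact Rat_smul_eq N' L₀ σ hσ w w' hw'
    have hmem : g • P ∈ Φ := by
      rw [hΦ, Set.Finite.mem_toFinset]
      change 0 < (g • P).ord w
      rw [← hgw, SemilinearAut.ord_smul]
      exact hwP
    by_contra hne
    obtain ⟨h1, h2⟩ := hz (g • P) hne
    have hgz : g • z (g • P) = z (g • P) := by
      obtain ⟨z', _, hz'⟩ := hlev _ (Finset.mem_insert_of_mem
        (Finset.mem_image_of_mem (fun Q => (z Q : LaurentSeries Qb)) hmem))
      exact Rat_smul_eq N' L₀ σ hσ _ z' hz'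
    rw [← hgz, SemilinearAut.ord_smul] at h2
    omega
  have halg : Algebra.IsAlgebraic ℚ Qb := AlgebraicClosure.isAlgebraic ℚ
  have hcl : IsAlgClosure ℚ Qb := ⟨inferInstance, halg⟩
  have hnor : Normal ℚ Qb := IsAlgClosure.normal ℚ Qb
  have hgal : IsGalois ℚ Qb := ⟨⟩
  suffices hmem : val P (mapFF (algebraMap L Qb) N' u) ∈
      IntermediateField.fixedField L.fixingSubgroup by
    rwa [InfiniteGalois.fixedField_fixingSubgroup] at hmem
  rw [IntermediateField.mem_fixedField_iff]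
  intro σ hσ
  rw [IntermediateField.mem_fixingSubgroup_iff] at hσ
  have hP := hfix σ fun c hc => hσ c (hL hc)
  have hu' : C.ffAut N' σ.toRingEquiv • mapFF (algebraMap L Qb) N' u =
      mapFF (algebraMap L Qb) N' u := Rat_smul_eq N' L σ hσ _ (u : LaurentSeries L) rfl
  have h := val_smul (C.ffAut N' σ.toRingEquiv) P (mapFF (algebraMap L Qb) N' u)
  rw [hP, hu'] at h
  exact h.symm

end Fermat.Agent.GR.S.R
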