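import Fermat.Agent.GR.S.R.Defs
import Fermat.Prelude.Def_AlgebraicCurve_BaseChangeGalois

/-!
# GR-S / M-R: semilinear automorphisms and values at places
-/

set_option autoImplicit false
set_option linter.unusedSectionVars false

noncomputable section

namespace Fermat.Agent.GR.S.R

open AlgebraicCurve Fermat.Agent.GR.E Fermat.Agent.S17.FF

variable {Ω F : Type} [Field Ω] [IsAlgClosed Ω] [CharZero Ω] [Field F] [Algebra Ω F] [IsFF Ω F]
variable {A : ValuationSubring Ω} {𝒪 : ValuationSubring F}

theorem val_smul (g : SemilinearAut Ω F) (P : Place Ω F) (f : F) :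
    val (g • P) (g • f) = SemilinearAut.baseAut g (val P f) := by
  by_cases hf : 0 ≤ P.ord f
  · have hf' : 0 ≤ (g • P).ord (g • f) := by rwa [SemilinearAut.ord_smul]
    rw [val_eq_iff (g • P) hf', ← SemilinearAut.smul_algebraMap, ← smul_sub,
      SemilinearAut.ord_smul]
    rcases (val_eq_iff P hf (val P f)).1 rfl with h | h
    · left
      exact congrArg (g • ·) h
    · right
      exact h
  · have hf' : ¬ 0 ≤ (g • P).ord (g • f) := by rwa [SemilinearAut.ord_smul]
    rw [← Fermat.Agent.S24.Zeros.mem_iff_ord_nonneg'] at hf hf'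
    unfold val
    rw [dif_neg hf, dif_neg hf', map_zero]

theorem Semi_smul_mem_adjoin (g : SemilinearAut Ω F) {x : F} (hgx : g • x = x)
    (hgA : ∀ a : Ω, SemilinearAut.baseAut g a ∈ A ↔ a ∈ A) {y : F}
    (hy : y ∈ Algebra.adjoin A ({x} : Set F)) : g • y ∈ Algebra.adjoin A ({x} : Set F) := by
  induction hy using Algebra.adjoin_induction with
  | mem y hy =>
    rw [Set.mem_singleton_iff] at hy
    rw [hy, hgx]
    exact Algebra.subset_adjoin rfl
  | algebraMap a =>
    have h1 : g • algebraMap A F a =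
        algebraMap A F ⟨SemilinearAut.baseAut g (a : Ω), (hgA a).2 a.2⟩ :=
      SemilinearAut.smul_algebraMap g (a : Ω)
    rw [h1]
    exact Subalgebra.algebraMap_mem _ _
  | add y z _ _ hy hz =>
    rw [smul_add]
    exact add_mem hy hz
  | mul y z _ _ hy hz =>
    rw [smul_mul']
    exact mul_mem hy hz

theorem smul_mem_chart (g : SemilinearAut Ω F) {x : F} (hgx : g • x = x)
    (hgA : ∀ a : Ω, SemilinearAut.baseAut g a ∈ A ↔ a ∈ A) {c : F}
    (hc : c ∈ chart A ({x} : Set F)) : g • c ∈ chart A ({x} : Set F) := by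
  rw [mem_chart] at hc ⊢
  let φ : Algebra.adjoin A ({x} : Set F) →+* Algebra.adjoin A ({x} : Set F) :=
    (((SemilinearAut.toRingAut g : F ≃+* F) : F →+* F).comp
      (algebraMap (Algebra.adjoin A ({x} : Set F)) F)).codRestrict
      (Algebra.adjoin A ({x} : Set F)) fun y => Semi_smul_mem_adjoin g hgx hgA y.2
  exact hc.map_of_comp_eq φ ((SemilinearAut.toRingAut g : F ≃+* F) : F →+* F) rfl

end Fermat.Agent.GR.S.R
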